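import Fermat.Agent.TW.Defs
import Fermat.Agent.DefRing.MatrixRep
import Fermat.Agent.RTLift.Engine.Family

/-!
# Lifts of a residual representation, trace rings and local frames
-/

set_option autoImplicit false

open IsLocalRing Matrix Module

namespace FermatAgent.RTLift.Galois

noncomputable section

local notation "Qb" => AlgebraicClosure ℚ
local notation "GQ" => AlgebraicClosure ℚ ≃ₐ[ℚ] AlgebraicClosure ℚ

variable {O : Type} [CommRing O] [IsLocalRing O]

/-- A finite family of lifts of `ρ` with determinant `χ`, in coefficient rings finite over `O`. -/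
structure Lifts (ρ : GQ →* GL (Fin 2) (ResidueField O)) (χ : GQ →* O) where
  /-- the indices -/
  ι : Type
  [finite : Finite ι]
  [nonempty : Nonempty ι]
  /-- the coefficient rings -/
  S : ι → Type
  [instCommRing : ∀ i, CommRing (S i)]
  [instIsDomain : ∀ i, IsDomain (S i)]
  [instIsLocalRing : ∀ i, IsLocalRing (S i)]
  [instAlgebra : ∀ i, Algebra O (S i)]
  [instFinite : ∀ i, Module.Finite O (S i)]
  injective : ∀ i, Function.Injective (algebraMap O (S i))
  /-- the representations -/
  r : ∀ i, GQ →* Matrix (Fin 2) (Fin 2) (S i)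
  cont : ∀ i, DefRing.IsCont (r i)
  det_eq : ∀ i σ, (r i σ).det = algebraMap O (S i) (χ σ)
  trace_eq : ∀ i σ, ∃ o : O, residue O o = Matrix.trace (ρ σ : Matrix (Fin 2) (Fin 2) (ResidueField O)) ∧
    Matrix.trace (r i σ) - algebraMap O (S i) o ∈ maximalIdeal (S i)

attribute [instance] Lifts.finite Lifts.nonempty Lifts.instCommRing Lifts.instIsDomain
  Lifts.instIsLocalRing Lifts.instAlgebra Lifts.instFinite

variable {ρ : GQ →* GL (Fin 2) (ResidueField O)} {χ : GQ →* O}

/-- The ring generated by the traces of a family of lifts, with its representation. -/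
structure Model (L : Lifts ρ χ) where
  /-- the ring -/
  R : Type
  [instCommRing : CommRing R]
  [instIsLocalRing : IsLocalRing R]
  [instAlgebra : Algebra O R]
  [instFinite : Module.Finite O R]
  [instFree : Module.Free O R]
  /-- the representation -/
  rho : GQ →* Matrix (Fin 2) (Fin 2) R
  cont : DefRing.IsCont rho
  det_eq : ∀ σ, (rho σ).det = algebraMap O R (χ σ)
  residual : ∀ σ a b, ∃ o : O, residue O o = (ρ σ : Matrix (Fin 2) (Fin 2) (ResidueField O)) a b ∧
    rho σ a b - algebraMap O R o ∈ maximalIdeal R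
  /-- the points -/
  pt : ∀ i, R →ₐ[O] L.S i
  pt_injective : ∀ x y : R, (∀ i, pt i x = pt i y) → x = y
  pt_trace : ∀ i σ, pt i (Matrix.trace (rho σ)) = Matrix.trace (L.r i σ)
  pt_conj : ∀ i, ∃ P : Matrix (Fin 2) (Fin 2) (L.S i), IsUnit P.det ∧
    ∀ σ, P * (rho σ).map (pt i) = L.r i σ * P
  adjoin_trace : Algebra.adjoin O (Set.range fun σ => Matrix.trace (rho σ)) = ⊤

attribute [instance] Model.instCommRing Model.instIsLocalRing Model.instAlgebra Model.instFinite
  Model.instFree

/-- An element of inertia moving the `p`-th roots of `q`: its image generates every tame `p`-power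
image of inertia. -/
def IsTameGen (p q : ℕ) (A : ValuationSubring Qb) (t : GQ) : Prop :=
  t ∈ A.inertiaSubgroupIn ℚ ∧ ∀ x : Qb, x ^ p = (q : Qb) → t x ≠ x

/-- A place over `q`, a Frobenius and a tame generator there, for a representation whose inertia
at `q` has `p`-power order. -/
structure LocalFrame (p : ℕ) (ρ : GQ →* GL (Fin 2) (ResidueField O)) (q : Nat.Primes) where
  /-- the place -/
  A : ValuationSubring Qb
  liesOver : A.LiesOverPrime (q : ℕ)
  /-- the Frobenius -/
  frob : GQ
  isFrobenius : A.IsFrobeniusAt frob (q : ℕ)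
  /-- the tame generator -/
  gen : GQ
  isTameGen : IsTameGen p (q : ℕ) A gen
  pow_eq_one : ∀ σ ∈ A.inertiaSubgroupIn ℚ, ∃ n, ρ σ ^ p ^ n = 1

/-- The auxiliary primes with their frames. -/
structure Frames (p : ℕ) (ρ : GQ →* GL (Fin 2) (ResidueField O)) (I : Type) where
  /-- the primes -/
  q : I → Nat.Primes
  injective : Function.Injective q
  ne : ∀ i, (q i : ℕ) ≠ p
  /-- the frames -/
  frame : ∀ i, LocalFrame p ρ (q i)

/-- Unramified outside `p`, the primes of the frames and `Q`. -/
def Lifts.UnramifiedOutside (L : Lifts ρ χ) {p : ℕ} {I : Type} (Fr : Frames p ρ I)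
    (Q : Finset Nat.Primes) : Prop :=
  ∀ (i : L.ι) (ℓ : Nat.Primes), (ℓ : ℕ) ≠ p → ℓ ∉ Set.range Fr.q → ℓ ∉ Q →
    ∀ A : ValuationSubring Qb, A.LiesOverPrime (ℓ : ℕ) →
      ∀ g ∈ A.inertiaSubgroupIn ℚ, L.r i g = 1

/-- The ramification set of the residual representation. -/
def Frames.support {p : ℕ} [Fact p.Prime] {I : Type} [Fintype I] (Fr : Frames p ρ I) :
    Finset Nat.Primes :=
  insert (ExtCitation.pPrime p) (Finset.univ.image Fr.q)

section Points

variable {S : Type} [CommRing S]

/-- The coordinate of `v` modulo the line of `w`. -/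
def qcoord (w v : Fin 2 → S) : S := w 0 * v 1 - w 1 * v 0

/-- Ordinary at `A`: a stable line with inertia trivial on the quotient and the Frobenius `φ`
acting there by `z`. -/
def IsOrdPoint (r : GQ →* Matrix (Fin 2) (Fin 2) S) (A : ValuationSubring Qb) (φ : GQ) (z : S) :
    Prop :=
  ∃ w : Fin 2 → S, w ≠ 0 ∧ (∀ g ∈ A.decompositionSubgroup ℚ, qcoord w (r g *ᵥ w) = 0) ∧
    (∀ g ∈ A.inertiaSubgroupIn ℚ, ∀ v, qcoord w (r g *ᵥ v) = qcoord w v) ∧
    ∀ v, qcoord w (r φ *ᵥ v) = z * qcoord w v

/-- Strictly ordinary at `A`: moreover (line) = `χ` · (quotient). -/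
def IsStrictPoint [Algebra O S] (χ : GQ →* O) (r : GQ →* Matrix (Fin 2) (Fin 2) S)
    (A : ValuationSubring Qb) : Prop :=
  ∃ w : Fin 2 → S, w ≠ 0 ∧
    (∀ g ∈ A.inertiaSubgroupIn ℚ, ∀ v, qcoord w (r g *ᵥ v) = qcoord w v) ∧
    ∀ g ∈ A.decompositionSubgroup ℚ, ∃ x z : S, r g *ᵥ w = x • w ∧
      (∀ v, qcoord w (r g *ᵥ v) = z * qcoord w v) ∧ x = algebraMap O S (χ g) * z

end Points

/-- `π` sends the local variables to the framed local matrices of the model. -/
def IsFramedMap {p : ℕ} {I : Type} [Finite I] {L : Lifts ρ χ} (M : Model L) (Fr : Frames p ρ I)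
    (D : LocalRings.Datum O I) (rv : ℕ)
    (π : LocalRings.Ambient O I rv →ₐ[O] MvPowerSeries (I × Fin 3) M.R) : Prop :=
  ∀ i, (D.frob rv i).map π = Engine.framed i (M.rho (Fr.frame i).frob) ∧
    (D.mono rv i).map π = Engine.framed i (M.rho (Fr.frame i).gen - 1)

/-- The datum lifts the residual local matrices. -/
def DatumLifts {p : ℕ} {I : Type} (Fr : Frames p ρ I) (D : LocalRings.Datum O I) : Prop :=
  ∀ i, (D.Φ₀ i).map (residue O) =
      (ρ (Fr.frame i).frob : Matrix (Fin 2) (Fin 2) (ResidueField O)) ∧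
    (D.n₀ i).map (residue O) =
      (ρ (Fr.frame i).gen : Matrix (Fin 2) (Fin 2) (ResidueField O)) - 1

end

end FermatAgent.RTLift.Galois
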