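import Fermat.Agent.GalRep.Flat.Closure

/-!
# The function model of a finite product of models
-/

set_option autoImplicit false

noncomputable section

namespace FermatAgent.GalRep.Flat.FunctionModel

open scoped TensorProduct

local notation "Qb" => AlgebraicClosure ℚ
local notation "GQ" => AlgebraicClosure ℚ ≃ₐ[ℚ] AlgebraicClosure ℚ
local notation "Rp" => GaloisRep.ratLocalizedAt

variable {p : ℕ} {ι : Type} [Finite ι] {M : ι → Type} [∀ i, AddCommGroup (M i)]
  {act : ∀ i, GQ → M i → M i} (G : ∀ i, FunctionModel p (M i) (act i))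

/-- The algebra generated by the pullbacks of the factors. -/
def piAlg : Subalgebra (Rp p) ((∀ i, M i) → Qb) :=
  Algebra.adjoin (Rp p) (⋃ i : ι, precomp (p := p) (fun x : ∀ i, M i => x i) ''
    Set.range fun j => ((G i).basis j : M i → Qb))

omit [Finite ι] in
theorem precomp_mem_piAlg (i : ι) (a : (G i).A) :
    precomp (p := p) (fun x : ∀ i, M i => x i) (a : M i → Qb) ∈ piAlg G := by
  rw [← (G i).basis.sum_repr a, AddSubmonoidClass.coe_finsetSum, map_sum]
  refine Subalgebra.sum_mem _ fun j _ => ?_
  rw [Subalgebra.coe_smul, map_smul]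
  refine Subalgebra.smul_mem _ (Algebra.subset_adjoin ?_) _
  exact Set.mem_iUnion.mpr ⟨i, _, Set.mem_range_self j, rfl⟩

/-- The pullback from one factor. -/
def piIncl (i : ι) : (G i).A →ₐ[Rp p] piAlg G :=
  ((precomp (p := p) fun x : ∀ i, M i => x i).comp (G i).A.val).codRestrict _
    fun a => precomp_mem_piAlg G i a

/-- The model of a finite product. -/
def pi : FunctionModel p (∀ i, M i) (fun σ x i => act i σ (x i)) where
  A := piAlg G
  fg := by
    refine fg_adjoin_of_finite (Set.finite_iUnion fun i => (Set.finite_range _).image _) ?_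
    rintro f hf
    obtain ⟨i, hi⟩ := Set.mem_iUnion.mp hf
    obtain ⟨_, ⟨j, rfl⟩, rfl⟩ := hi
    exact ((IsIntegral.of_finite (Rp p) ((G i).basis j)).map (G i).A.val).map _
  equivariant := by
    intro f hf
    induction hf using Algebra.adjoin_induction with
    | mem f hf =>
      obtain ⟨i, hi⟩ := Set.mem_iUnion.mp hf
      obtain ⟨_, ⟨j, rfl⟩, rfl⟩ := hi
      exact fun σ x => (G i).equivariant _ ((G i).basis j).2 σ (x i)
    | algebraMap r => exact fun σ x => ((galHom p σ).commutes r).symm
    | add f g _ _ hf hg =>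
      exact fun σ x => by rw [Pi.add_apply, Pi.add_apply, hf σ x, hg σ x, map_add]
    | mul f g _ _ hf hg =>
      exact fun σ x => by rw [Pi.mul_apply, Pi.mul_apply, hf σ x, hg σ x, map_mul]
  separates x y h := funext fun i => (G i).separates _ _ fun f hf =>
    h _ (precomp_mem_piAlg G i ⟨f, hf⟩)
  add_mem := by
    intro f hf
    refine (Algebra.adjoin_le ?_ :
      piAlg G ≤ ((prodTensor (piAlg G).val (piAlg G).val).range).comap
        (precomp (p := p) addMap)) hf
    intro f hf
    obtain ⟨i, hi⟩ := Set.mem_iUnion.mp hf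
    obtain ⟨_, ⟨j, rfl⟩, rfl⟩ := hi
    obtain ⟨t, ht⟩ := (G i).add_mem _ ((G i).basis j).2
    refine ⟨Algebra.TensorProduct.map (piIncl G i) (piIncl G i) t, funext fun z => ?_⟩
    refine Eq.trans ?_ (congrFun ht (z.1 i, z.2 i))
    clear ht
    induction t using TensorProduct.induction_on with
    | zero => simp
    | tmul a b => rfl
    | add a b ha hb =>
      simp only [map_add, Pi.add_apply] at ha hb ⊢
      exact congrArg₂ (· + ·) ha hb
  neg_mem := by
    intro f hf
    refine (Algebra.adjoin_le ?_ :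
      piAlg G ≤ (piAlg G).comap (precomp (p := p) fun x : ∀ i, M i => -x)) hf
    intro f hf
    obtain ⟨i, hi⟩ := Set.mem_iUnion.mp hf
    obtain ⟨_, ⟨j, rfl⟩, rfl⟩ := hi
    exact precomp_mem_piAlg G i ⟨_, (G i).neg_mem _ ((G i).basis j).2⟩

end FermatAgent.GalRep.Flat.FunctionModel
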