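import Fermat.Agent.RTLift.Galois.Defs
import Fermat.Agent.TW.Tame
import Fermat.Agent.TW.Places
import Fermat.Agent.RT.Frobenius
import Fermat.Agent.Mazur.Descent.Unramified
import Fermat.Agent.Duality.Global.Unramified

/-!
# Tame generators and local frames
-/

set_option autoImplicit false

open IsLocalRing Matrix

namespace FermatAgent.RTLift.Galois

noncomputable section

local notation "Qb" => AlgebraicClosure ℚ
local notation "GQ" => AlgebraicClosure ℚ ≃ₐ[ℚ] AlgebraicClosure ℚ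

/-- Inertia at `q` fixes the `p`-th roots of unity. -/
theorem inertia_fixes_rootOfUnity {p q : ℕ} (hp : p.Prime) (hq : q.Prime) (hqp : q ≠ p)
    {A : ValuationSubring Qb} (hA : A.LiesOverPrime q) {σ : GQ}
    (hσ : σ ∈ A.inertiaSubgroupIn ℚ) {ζ : Qb} (hζ : ζ ^ p = 1) : σ ζ = ζ := by
  have hmem : ζ ∈ A := by
    rw [← A.valuation_le_one_iff]
    exact (Duality.Global.val_eq_one_of_pow_eq_one hp.ne_zero hζ).le
  exact Duality.Global.eq_of_val_sub_lt hq hA
    (fun h => hqp ((Nat.prime_dvd_prime_iff_eq hq hp).1 h)) hp.ne_zero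
    (by rw [← map_pow, hζ, map_one]) hζ (FermatAgent.Local.inertia_val_sub_lt_one hσ hmem)

/-- At every `q ≠ p` some element of inertia moves all `p`-th roots of `q`. -/
theorem exists_tameGen {p q : ℕ} (hp : p.Prime) (hq : q.Prime) (hqp : q ≠ p)
    {A : ValuationSubring Qb} (hA : A.LiesOverPrime q) : ∃ t, IsTameGen p q A t := by
  obtain ⟨x₀, hx₀⟩ := IsAlgClosed.exists_pow_nat_eq (q : Qb) hp.pos
  have hq0 : (q : Qb) ≠ 0 := Nat.cast_ne_zero.2 hq.ne_zero
  have hx0 : x₀ ≠ 0 := fun h => hq0 (by rw [← hx₀, h, zero_pow hp.ne_zero])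
  by_cases hmove : ∃ t ∈ A.inertiaSubgroupIn ℚ, t x₀ ≠ x₀
  · obtain ⟨t, ht, hne⟩ := hmove
    refine ⟨t, ht, fun x hx hfix => hne ?_⟩
    have hζ : (x₀ / x) ^ p = 1 := by rw [div_pow, hx₀, hx, div_self hq0]
    have hx' : x ≠ 0 := fun h => hq0 (by rw [← hx, h, zero_pow hp.ne_zero])
    have := inertia_fixes_rootOfUnity hp hq hqp hA ht hζ
    rw [map_div₀, hfix, div_left_inj' hx'] at this
    exact this
  · push Not at hmove
    obtain ⟨n, hn⟩ := Mazur.Descent.exists_val_eq_zpow_of_inertia_fixed hq hA hx0 hmove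
    exfalso
    have hlt : A.valuation (q : Qb) < 1 := hA
    have hne : A.valuation (q : Qb) ≠ 0 := (map_ne_zero _).2 hq0
    have h1 : A.valuation (q : Qb) ^ (1 : ℤ) = A.valuation (q : Qb) ^ (n * (p : ℤ)) := by
      rw [zpow_one, _root_.zpow_mul, ← hn, zpow_natCast, ← map_pow, hx₀]
    have h2 := TW.zpow_inj_of_lt_one hne hlt h1
    have h3 : (p : ℤ) ∣ 1 := ⟨n, by rw [h2, mul_comm]⟩
    have := Int.le_of_dvd one_pos h3
    have := hp.two_le
    omega

variable {O : Type} [CommRing O] [IsLocalRing O] {p : ℕ} [Fact p.Prime]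
  {ρ : GQ →* GL (Fin 2) (ResidueField O)}

/-- A frame exists at `q ≠ p` if inertia there acts through elements of `p`-power order. -/
theorem nonempty_localFrame_of_pow (q : Nat.Primes) (hqp : (q : ℕ) ≠ p)
    (hpow : ∀ A : ValuationSubring Qb, A.LiesOverPrime (q : ℕ) → ∀ σ ∈ A.inertiaSubgroupIn ℚ,
      ∃ n, ρ σ ^ p ^ n = 1) :
    Nonempty (LocalFrame p ρ q) := by
  obtain ⟨A, hA⟩ := RT.exists_liesOverPrime q.2
  obtain ⟨φ, hφ⟩ := RT.exists_isFrobeniusAt q.2 hA
  obtain ⟨t, ht⟩ := exists_tameGen (p := p) Fact.out q.2 hqp hA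
  exact ⟨⟨A, hA, φ, hφ, t, ht, hpow A hA⟩⟩

end

end FermatAgent.RTLift.Galois
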