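import Fermat.Agent.RTLift.Galois.Frame
import Fermat.Agent.TW.LocalAway

/-!
# A tame generator generates every tame `p`-power image of inertia; vanishing of local cocycles
-/

set_option autoImplicit false

open IsLocalRing Matrix
open scoped Pointwise

namespace FermatAgent.RTLift.Galois

noncomputable section

local notation "Qb" => AlgebraicClosure ℚ
local notation "GQ" => AlgebraicClosure ℚ ≃ₐ[ℚ] AlgebraicClosure ℚ

attribute [local instance] RT.isGalois_algClosureRat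

/-- The Kummer character of a root `x` on inertia. -/
def kummerChar {p q : ℕ} (hp : p.Prime) (hq : q.Prime) (hqp : q ≠ p) {A : ValuationSubring Qb}
    (hA : A.LiesOverPrime q) {x : Qb} (hx : x ^ p = (q : Qb)) :
    A.inertiaSubgroupIn ℚ →* Qbˣ :=
  MonoidHom.toHomUnits
  { toFun := fun σ => (σ : GQ) x / x
    map_one' := by
      have hx0 : x ≠ 0 := fun h => Nat.cast_ne_zero.2 hq.ne_zero
        (show (q : Qb) = 0 by rw [← hx, h, zero_pow hp.ne_zero])
      exact div_self hx0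
    map_mul' := fun σ τ => by
      have hq0 : (q : Qb) ≠ 0 := Nat.cast_ne_zero.2 hq.ne_zero
      have hx0 : x ≠ 0 := fun h => hq0 (by rw [← hx, h, zero_pow hp.ne_zero])
      have hζ : ((τ : GQ) x / x) ^ p = 1 := by
        rw [div_pow, ← map_pow, hx, map_natCast, div_self hq0]
      have h := inertia_fixes_rootOfUnity hp hq hqp hA σ.2 hζ
      rw [map_div₀] at h
      have hσ0 : (σ : GQ) x ≠ 0 := by simpa using hx0
      rw [Subgroup.coe_mul, AlgEquiv.mul_apply, ← h]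
      field_simp }

theorem kummerChar_pow_prime {p q : ℕ} (hp : p.Prime) (hq : q.Prime) (hqp : q ≠ p)
    {A : ValuationSubring Qb} (hA : A.LiesOverPrime q) {x : Qb} (hx : x ^ p = (q : Qb))
    (σ : A.inertiaSubgroupIn ℚ) : kummerChar hp hq hqp hA hx σ ^ p = 1 := by
  refine Units.ext ?_
  rw [Units.val_pow_eq_pow_val, Units.val_one]
  show ((σ : GQ) x / x) ^ p = 1
  rw [div_pow, ← map_pow, hx, map_natCast, div_self (Nat.cast_ne_zero.2 hq.ne_zero)]

/-- A tame generator generates the image of inertia under every homomorphism of finite level with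
values of `p`-power order. -/
theorem IsTameGen.map_mem_zpowers {G : Type*} [Group G] {p q : ℕ} (hp : p.Prime) (hq : q.Prime)
    (hqp : q ≠ p) {A : ValuationSubring Qb} (hA : A.LiesOverPrime q) {t : GQ}
    (ht : IsTameGen p q A t) (L : IntermediateField ℚ Qb) [FiniteDimensional ℚ L]
    (f : A.inertiaSubgroupIn ℚ →* G)
    (hL : ∀ σ : A.inertiaSubgroupIn ℚ, (∀ x ∈ L, (σ : GQ) x = x) → f σ = 1)
    (hord : ∀ σ, ∃ n, f σ ^ p ^ n = 1) (σ : A.inertiaSubgroupIn ℚ) :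
    f σ ∈ Subgroup.zpowers (f ⟨t, ht.1⟩) := by
  obtain ⟨x, hx⟩ := IsAlgClosed.exists_pow_nat_eq (q : Qb) hp.pos
  have : FiniteDimensional ℚ (IntermediateField.adjoin ℚ {x}) :=
    IntermediateField.adjoin.finiteDimensional (RT.isGalois_algClosureRat.to_normal.isIntegral x)
  let N := IntermediateField.normalClosure ℚ ↥(L ⊔ IntermediateField.adjoin ℚ {x}) Qb
  have : Normal ℚ N := normalClosure.normal ℚ _ Qb
  have hle : L ⊔ IntermediateField.adjoin ℚ {x} ≤ N := IntermediateField.le_normalClosure _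
  let g := kummerChar hp hq hqp hA hx
  have hgN : ∀ s : A.inertiaSubgroupIn ℚ, (∀ y ∈ N, (s : GQ) y = y) → (f.prod g) s = 1 := by
    intro s hs
    refine Prod.ext (hL s fun y hy => hs y (hle (le_sup_left (α := IntermediateField ℚ Qb) hy)))
      (Units.ext ?_)
    show (s : GQ) x / x = 1
    rw [hs x (hle (le_sup_right (α := IntermediateField ℚ Qb)
      (IntermediateField.mem_adjoin_simple_self ℚ x))), div_self]
    intro h
    exact Nat.cast_ne_zero.2 hq.ne_zero (show (q : Qb) = 0 by rw [← hx, h, zero_pow hp.ne_zero])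
  have hordg : ∀ s, ∃ n, (f.prod g) s ^ p ^ n = 1 := fun s => by
    obtain ⟨n, hn⟩ := hord s
    refine ⟨n + 1, Prod.ext ?_ ?_⟩
    · show f s ^ p ^ (n + 1) = 1
      rw [pow_succ, pow_mul, hn, one_pow]
    · show g s ^ p ^ (n + 1) = 1
      rw [pow_succ', pow_mul, kummerChar_pow_prime, one_pow]
  obtain ⟨⟨τ, hτ⟩, -⟩ := TW.tame_inertia hq hp hqp.symm hA N (f.prod g) hgN hordg
  obtain ⟨n, hn⟩ := Subgroup.mem_zpowers_iff.1 (hτ ⟨t, ht.1⟩)
  have hn1 : f τ ^ n = f ⟨t, ht.1⟩ := congrArg Prod.fst hn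
  have hn2 : g τ ^ n = g ⟨t, ht.1⟩ := congrArg Prod.snd hn
  have hdvd : ¬ (p : ℤ) ∣ n := by
    rintro ⟨m, rfl⟩
    rw [_root_.zpow_mul, zpow_natCast, kummerChar_pow_prime, _root_.one_zpow] at hn2
    have h1 : t x / x = 1 := (congrArg Units.val hn2).symm
    exact ht.2 x hx ((div_eq_one_iff_eq fun h => by rw [h, div_zero] at h1; exact zero_ne_one h1).1 h1)
  obtain ⟨j, hj⟩ := hord τ
  have hco : IsCoprime ((p : ℤ) ^ j) n :=
    ((Nat.prime_iff_prime_int.1 hp).coprime_iff_not_dvd.2 hdvd).pow_left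
  obtain ⟨a, b, hab⟩ := hco
  have hτmem : f τ ∈ Subgroup.zpowers (f ⟨t, ht.1⟩) := by
    refine Subgroup.mem_zpowers_iff.2 ⟨b, ?_⟩
    have h1 : f τ ^ ((p : ℤ) ^ j * a) = 1 := by
      rw [_root_.zpow_mul, ← Nat.cast_pow, zpow_natCast, hj, _root_.one_zpow]
    calc f ⟨t, ht.1⟩ ^ b = f τ ^ (n * b) := by rw [← hn1, ← _root_.zpow_mul]
      _ = f τ ^ ((p : ℤ) ^ j * a + n * b) := by rw [_root_.zpow_add, h1, one_mul]
      _ = f τ := by
        rw [show (p : ℤ) ^ j * a + n * b = 1 by linear_combination hab, zpow_one]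
  obtain ⟨m, hm⟩ := Subgroup.mem_zpowers_iff.1 (hτ σ)
  rw [← show f τ ^ m = f σ from congrArg Prod.fst hm]
  exact Subgroup.zpow_mem _ hτmem m

variable {k : Type} [Field k] {ρ : GQ →* GL (Fin 2) k}

/-- A local cocycle vanishing at Frobenius and at a tame generator vanishes. -/
theorem adCocycle_eq_zero_of_tameGen {p q : ℕ} [CharP k p] (hp : p.Prime) (hq : q.Prime)
    (hqp : q ≠ p) {A : ValuationSubring Qb} (hA : A.LiesOverPrime q)
    (hρL : ∃ L : IntermediateField ℚ Qb, FiniteDimensional ℚ L ∧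
      ∀ σ ∈ L.fixingSubgroup, ρ σ = 1)
    (hpow : ∀ σ ∈ A.inertiaSubgroupIn ℚ, ∃ n, ρ σ ^ p ^ n = 1)
    {φ t : GQ} (hφ : A.IsFrobeniusAt φ q) (ht : IsTameGen p q A t)
    {c : A.decompositionSubgroup ℚ → Matrix (Fin 2) (Fin 2) k}
    (hc : c ∈ TW.adCocycles ρ (A.decompositionSubgroup ℚ))
    (hφ0 : c ⟨φ, (TW.isFrobeniusAt_iff.1 hφ).1⟩ = 0)
    (ht0 : c (TW.inclInertia A ⟨t, ht.1⟩) = 0) : c = 0 := by
  classical
  obtain ⟨L, hL, hLn, hρ1, hs⟩ := TW.exists_common_level (ρ := ρ) {c}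
    (fun c' h => by rw [Finset.mem_singleton.1 h]; exact hc.2.2) hρL
  have hsc := hs c (Finset.mem_singleton_self c)
  have hcp : Fact p.Prime := ⟨hp⟩
  let f := TW.dualLift ρ c hc
  have hfL : ∀ σ : A.inertiaSubgroupIn ℚ, (∀ x ∈ L, (σ : GQ) x = x) → f σ = 1 := by
    intro σ hσ
    have hmem : (σ : GQ) ∈ L.fixingSubgroup := fun x => hσ x x.2
    refine Units.ext ?_
    have h0 := hsc 1 (TW.inclInertia A σ) hmem
    rw [one_mul, TW.isAdCocycle_one ρ hc] at h0
    show TrivSqZeroExt.inl (ρ σ : Matrix (Fin 2) (Fin 2) k) +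
      TrivSqZeroExt.inr (c (TW.inclInertia A σ) * (ρ σ : Matrix (Fin 2) (Fin 2) k)) = 1
    simp [h0, hρ1 _ hmem]
  have hford : ∀ σ, ∃ n, f σ ^ p ^ n = 1 := by
    intro σ
    obtain ⟨n, hn⟩ := hpow _ σ.2
    refine ⟨n + 1, Units.ext ?_⟩
    rw [Units.val_pow_eq_pow_val, Units.val_one, pow_succ, pow_mul]
    set x : DualNumber (Matrix (Fin 2) (Fin 2) k) := ↑(f σ) with hx
    have hfst : (x ^ p ^ n).fst = 1 := by
      rw [TrivSqZeroExt.fst_pow]
      have : x.fst = (ρ σ : Matrix (Fin 2) (Fin 2) k) := by simp [x, f, TW.dualLift]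
      rw [this, ← Units.val_pow_eq_pow_val, hn, Units.val_one]
    have key : ∀ y : DualNumber (Matrix (Fin 2) (Fin 2) k), y.fst = 1 → ∀ m : ℕ,
        (y ^ m).fst = 1 ∧ (y ^ m).snd = (m : k) • y.snd := by
      intro y hy m
      induction m with
      | zero => simp
      | succ m ih => simp [pow_succ, hy, ih.1, ih.2, add_smul, add_comm]
    refine TrivSqZeroExt.ext (key _ hfst p).1 ((key _ hfst p).2.trans ?_)
    rw [CharP.cast_eq_zero k p, zero_smul, TrivSqZeroExt.snd_one]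
  have hI0 : ∀ σ : A.inertiaSubgroupIn ℚ, c (TW.inclInertia A σ) = 0 := by
    intro σ
    obtain ⟨n, hn⟩ :=
      Subgroup.mem_zpowers_iff.1 (ht.map_mem_zpowers hp hq hqp hA L f hfL hford σ)
    rw [← map_zpow] at hn
    set s : A.inertiaSubgroupIn ℚ := ⟨t, ht.1⟩
    have h2 := congrArg (fun u : (DualNumber (Matrix (Fin 2) (Fin 2) k))ˣ =>
      (u : DualNumber (Matrix (Fin 2) (Fin 2) k)).snd) hn
    change ((TW.dualLift ρ c hc (s ^ n) : (DualNumber (Matrix (Fin 2) (Fin 2) k))ˣ) :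
        DualNumber (Matrix (Fin 2) (Fin 2) k)).snd =
      ((TW.dualLift ρ c hc σ : (DualNumber (Matrix (Fin 2) (Fin 2) k))ˣ) :
        DualNumber (Matrix (Fin 2) (Fin 2) k)).snd at h2
    rw [TW.snd_dualLift, TW.snd_dualLift, map_zpow, TW.zpow_value_zero hc ht0,
      zero_mul] at h2
    exact (Units.mul_left_eq_zero _).1 h2.symm
  funext g
  obtain ⟨m, i, hi, hgi⟩ := TW.exists_frobenius_pow_mul hq hA L hφ g.2
  let φ' : A.decompositionSubgroup ℚ := ⟨φ, (TW.isFrobeniusAt_iff.1 hφ).1⟩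
  let i' := TW.inclInertia A ⟨i, hi⟩
  have hu : (((φ' ^ m * i')⁻¹ * g : A.decompositionSubgroup ℚ) : GQ) ∈ L.fixingSubgroup := by
    intro x
    show ((φ ^ m * i)⁻¹ * (g : GQ)) (x : Qb) = x
    rw [AlgEquiv.mul_apply, hgi x x.2, ← AlgEquiv.mul_apply, inv_mul_cancel, AlgEquiv.one_apply]
  have hg : c g = c (φ' ^ m * i') := by
    conv_lhs => rw [show g = (φ' ^ m * i') * ((φ' ^ m * i')⁻¹ * g) by group]
    exact hsc _ _ hu
  have hpow' : c (φ' ^ m) = 0 := by
    rw [← zpow_natCast]; exact TW.zpow_value_zero hc hφ0 _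
  rw [hg, hc.2.1, hpow', hI0]
  simp [TW.conjAct]

/-- At a frame, a local cocycle vanishing at Frobenius and at the generator vanishes. -/
theorem LocalFrame.adCocycle_eq_zero {O : Type} [CommRing O] [IsLocalRing O] {p : ℕ}
    [Fact p.Prime] [CharP (ResidueField O) p] {ρ : GQ →* GL (Fin 2) (ResidueField O)}
    (hρL : ∃ L : IntermediateField ℚ Qb, FiniteDimensional ℚ L ∧
      ∀ σ ∈ L.fixingSubgroup, ρ σ = 1)
    {q : Nat.Primes} (hqp : (q : ℕ) ≠ p) (Φ : LocalFrame p ρ q)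
    {c : Φ.A.decompositionSubgroup ℚ → Matrix (Fin 2) (Fin 2) (ResidueField O)}
    (hc : c ∈ TW.adCocycles ρ (Φ.A.decompositionSubgroup ℚ))
    (hφ0 : c ⟨Φ.frob, (TW.isFrobeniusAt_iff.1 Φ.isFrobenius).1⟩ = 0)
    (ht0 : c ⟨Φ.gen, FermatAgent.Local.mem_decomposition_of_inertia Φ.isTameGen.1⟩ = 0) :
    c = 0 :=
  adCocycle_eq_zero_of_tameGen Fact.out q.2 hqp Φ.liesOver hρL Φ.pow_eq_one Φ.isFrobenius
    Φ.isTameGen hc hφ0 ht0

end

end FermatAgent.RTLift.Galois
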