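import Fermat.Agent.RTLift.Galois.Defs
import Mathlib.RingTheory.Filtration

/-!
# The coefficient ring of a model: filtration by powers of the maximal ideal
-/

set_option autoImplicit false

open IsLocalRing Matrix

namespace FermatAgent.RTLift.Galois

noncomputable section

variable {R : Type} [CommRing R] [IsLocalRing R]

omit [IsLocalRing R] in
/-- Reduction modulo an ideal detects entrywise congruence to `1`. -/
theorem mapMatrix_mk_eq_one {J : Ideal R} {Y : Matrix (Fin 2) (Fin 2) R}
    (h : ∀ a b, (Y - 1) a b ∈ J) : (Ideal.Quotient.mk J).mapMatrix Y = 1 := by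
  rw [← sub_eq_zero, ← map_one (Ideal.Quotient.mk J).mapMatrix, ← map_sub]
  ext a b
  exact Ideal.Quotient.eq_zero_iff_mem.2 (h a b)

variable {O : Type} [CommRing O] [IsLocalRing O] [Algebra O R] [Module.Finite O R]

/-- The maximal ideal is nilpotent modulo that of the base. -/
theorem exists_pow_le_map :
    ∃ N : ℕ, maximalIdeal R ^ N ≤ (maximalIdeal O).map (algebraMap O R) := by
  set J := (maximalIdeal O).map (algebraMap O R) with hJ
  let : Algebra (ResidueField O) (R ⧸ J) := (Ideal.Quotient.lift _ ((Ideal.Quotient.mk J).comp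
    (algebraMap O R)) fun x hx => Ideal.Quotient.eq_zero_iff_mem.2
      (Ideal.mem_map_of_mem _ hx)).toAlgebra
  have : IsScalarTower O (ResidueField O) (R ⧸ J) := IsScalarTower.of_algebraMap_eq fun x => rfl
  have : Module.Finite (ResidueField O) (R ⧸ J) :=
    Module.Finite.of_restrictScalars_finite O _ _
  have : IsArtinianRing (R ⧸ J) := IsArtinianRing.of_finite (ResidueField O) _
  obtain ⟨N, hN⟩ := IsArtinianRing.isNilpotent_jacobson_bot (R := R ⧸ J)
  refine ⟨N, ?_⟩
  rw [← Ideal.mk_ker (I := J), RingHom.ker_eq_comap_bot, ← Ideal.map_le_iff_le_comap, Ideal.map_pow]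
  refine le_of_le_of_eq (Ideal.pow_right_mono (le_sInf fun P hP => ?_) N) hN
  have : P.IsMaximal := hP.2
  rw [Ideal.map_le_iff_le_comap]
  exact (IsLocalRing.eq_maximalIdeal
    (Ideal.comap_isMaximal_of_surjective _ Ideal.Quotient.mk_surjective)).symm.le

/-- A submodule over the base is closed for the adic topology. -/
theorem mem_of_forall_sub_mem [IsNoetherianRing O] (S : Submodule O R) {x : R}
    (h : ∀ k : ℕ, ∃ s ∈ S, x - s ∈ maximalIdeal R ^ k) : x ∈ S := by
  obtain ⟨N, hN⟩ := exists_pow_le_map (R := R) (O := O)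
  rw [← Submodule.Quotient.mk_eq_zero, ← Submodule.mkQ_apply, ← Submodule.mem_bot O,
    ← Ideal.iInf_pow_smul_eq_bot_of_isLocalRing (M := R ⧸ S) (maximalIdeal O)
      (maximalIdeal.isMaximal O).ne_top]
  refine Submodule.mem_iInf _ |>.2 fun j => ?_
  obtain ⟨s, hs, hxs⟩ := h (N * j)
  have hle : maximalIdeal R ^ (N * j) ≤ (maximalIdeal O ^ j).map (algebraMap O R) := by
    rw [pow_mul, Ideal.map_pow]
    exact Ideal.pow_right_mono hN j
  have h1 : x - s ∈ (maximalIdeal O ^ j) • (⊤ : Submodule O R) := by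
    rw [Ideal.smul_top_eq_map]
    exact hle hxs
  have h2 := Submodule.mem_map_of_mem (f := S.mkQ) h1
  rw [Submodule.map_smul'', map_sub, show S.mkQ s = 0 from (Submodule.Quotient.mk_eq_zero S).2 hs,
    sub_zero] at h2
  exact Submodule.smul_mono le_rfl le_top h2

end

end FermatAgent.RTLift.Galois
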