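import Fermat.Agent.RTLift.Galois.FrameCoeff
import Fermat.Agent.GalRep.Density.Frobenius

/-!
# Traces of Frobenius elements generate the ring of a model
-/

set_option autoImplicit false

open IsLocalRing Matrix

namespace FermatAgent.RTLift.Galois

noncomputable section

local notation "Qb" => AlgebraicClosure ℚ
local notation "GQ" => AlgebraicClosure ℚ ≃ₐ[ℚ] AlgebraicClosure ℚ

/-- A subring containing trace and determinant of a `2 × 2` matrix contains the traces of all its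
powers. -/
theorem trace_pow_mem {S : Type} [CommRing S] (T : Subring S) {X : Matrix (Fin 2) (Fin 2) S}
    (ht : Matrix.trace X ∈ T) (hd : X.det ∈ T) :
    ∀ n : ℕ, Matrix.trace (X ^ n) ∈ T := by
  have hsq : X * X = Matrix.trace X • X - X.det • 1 := by
    ext i j
    fin_cases i <;> fin_cases j <;>
      simp [Matrix.mul_apply, Fin.sum_univ_two, Matrix.trace_fin_two, Matrix.det_fin_two] <;> ring
  intro n
  induction n using Nat.twoStepInduction with
  | zero => simp
  | one => simpa using ht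
  | more n h0 h1 =>
    rw [show X ^ (n + 2) = X ^ n * (X * X) by rw [pow_add, pow_two], hsq, mul_sub, mul_smul_comm,
      mul_smul_comm, mul_one, ← pow_succ, Matrix.trace_sub, Matrix.trace_smul, Matrix.trace_smul,
      smul_eq_mul, smul_eq_mul]
    exact sub_mem (mul_mem ht h1) (mul_mem hd h0)

variable {O : Type} [CommRing O] [IsLocalRing O] [IsNoetherianRing O]
  {ρ : GQ →* GL (Fin 2) (ResidueField O)} {χ : GQ →* O} {L : Lifts ρ χ}

/-- The traces of Frobenius elements outside a finite set of primes generate. -/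
theorem Model.adjoin_trace_eq_top (M : Model L) (B : Finset Nat.Primes) :
    Algebra.adjoin O {x : M.R | ∃ (ℓ : Nat.Primes) (A : ValuationSubring Qb) (φ : GQ),
      ℓ ∉ B ∧ A.LiesOverPrime (ℓ : ℕ) ∧ A.IsFrobeniusAt φ (ℓ : ℕ) ∧
        x = Matrix.trace (M.rho φ)} = ⊤ := by
  set S := Algebra.adjoin O {x : M.R | ∃ (ℓ : Nat.Primes) (A : ValuationSubring Qb) (φ : GQ),
      ℓ ∉ B ∧ A.LiesOverPrime (ℓ : ℕ) ∧ A.IsFrobeniusAt φ (ℓ : ℕ) ∧
        x = Matrix.trace (M.rho φ)} with hS
  rw [eq_top_iff, ← M.adjoin_trace, Algebra.adjoin_le_iff]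
  rintro _ ⟨σ, rfl⟩
  refine mem_of_forall_sub_mem (Subalgebra.toSubmodule S) fun k => ?_
  obtain ⟨K, hK, hKr⟩ := M.cont k
  set J := maximalIdeal M.R ^ k
  set r := DefRing.mapRep (Ideal.Quotient.mk J) M.rho
  have hr : GaloisFactorsThroughFiniteLevel r :=
    ⟨K, hK, fun g hg => mapMatrix_mk_eq_one (hKr g hg)⟩
  have hfin : {n : ℕ | ∃ ℓ ∈ B, (ℓ : ℕ) = n}.Finite := B.finite_toSet.image _
  obtain ⟨ℓ, hℓ, hℓB, A, hA, τ, hτ, m, -, hm, -⟩ :=
    GalRep.exists_isFrobeniusAt_map_pow_eq r hr σ hfin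
  have ht : Matrix.trace (M.rho τ) ∈ S :=
    Algebra.subset_adjoin ⟨⟨ℓ, hℓ⟩, A, τ, fun h => hℓB ⟨_, h, rfl⟩, hA, hτ, rfl⟩
  have hd : (M.rho τ).det ∈ S := by
    rw [M.det_eq]; exact S.algebraMap_mem _
  refine ⟨Matrix.trace (M.rho τ ^ m), trace_pow_mem S.toSubring ht hd m, ?_⟩
  rw [← Ideal.Quotient.eq, ← map_pow]
  have := congrArg Matrix.trace hm
  simpa [r, Matrix.trace_fin_two] using this.symm

end

end FermatAgent.RTLift.Galois
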