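import Fermat.Agent.RTLift.Galois.Defs
import Fermat.Agent.TW.Flat.Val

/-!
# The scalar of a matrix on a quotient line
-/

set_option autoImplicit false

open IsLocalRing Matrix

namespace FermatAgent.RTLift.Galois

noncomputable section

local notation "Qb" => AlgebraicClosure ℚ
local notation "GQ" => AlgebraicClosure ℚ ≃ₐ[ℚ] AlgebraicClosure ℚ

/-- A scalar by which a matrix acts on a quotient line is a root of its characteristic polynomial. -/
theorem root_of_qcoord {S : Type} [CommRing S] [IsDomain S] {w : Fin 2 → S} (hw : w ≠ 0)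
    {A : Matrix (Fin 2) (Fin 2) S} {z : S} (h : ∀ v, qcoord w (A *ᵥ v) = z * qcoord w v) :
    z * z - Matrix.trace A * z + A.det = 0 := by
  obtain ⟨j, hj⟩ : ∃ j, w j ≠ 0 := not_forall.1 fun h => hw (funext h)
  have e0 := h ![1, 0]
  have e1 := h ![0, 1]
  simp [qcoord, Matrix.mulVec, dotProduct, Fin.sum_univ_two] at e0 e1
  rw [trace_fin_two, det_fin_two]
  refine (mul_eq_zero.1 (?_ : w j * _ = 0)).resolve_left hj
  fin_cases j
  · show w 0 * _ = 0
    linear_combination (A 0 0 - z) * e1 - A 0 1 * e0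
  · show w 1 * _ = 0
    linear_combination -(A 1 1 - z) * e0 + A 1 0 * e1

variable {O : Type} [CommRing O] [IsLocalRing O] {p : ℕ} [Fact p.Prime]
  [Algebra (ZMod p) (ResidueField O)]
  {ρ : GQ →* GL (Fin 2) (ResidueField O)} {χ : GQ →* O} {L : Lifts ρ χ}

end

end FermatAgent.RTLift.Galois
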