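import Fermat.Agent.TW.Adjoint

/-!
# The standing hypotheses of the Taylor–Wiles argument from a large image
-/

set_option autoImplicit false

open Matrix

namespace FermatAgent.RTLift.Galois

noncomputable section

local notation "Qb" => AlgebraicClosure ℚ
local notation "GQ" => AlgebraicClosure ℚ ≃ₐ[ℚ] AlgebraicClosure ℚ

variable {k : Type} [Field k]

/-- A trace zero eigenvector of conjugation by the upper unipotent is strictly upper triangular. -/
theorem diag_eq_zero_of_upper (h2 : (2 : k) ≠ 0) {a : Matrix (Fin 2) (Fin 2) k}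
    (ha : Matrix.trace a = 0) {r : k}
    (h : !![1, 1; 0, 1] * a = r • (a * !![1, 1; 0, 1])) : a 1 0 = 0 ∧ a 0 0 = 0 := by
  rw [trace_fin_two] at ha
  have h10 := congrFun (congrFun h 1) 0
  have h00 := congrFun (congrFun h 0) 0
  have h01 := congrFun (congrFun h 0) 1
  simp [Matrix.mul_apply, Fin.sum_univ_two] at h10 h00 h01
  have e10 : a 1 0 = 0 := by
    by_contra hne
    have hr : r = 1 := mul_right_cancel₀ hne (by linear_combination -h10)
    exact hne (by rw [hr] at h00; linear_combination h00)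
  refine ⟨e10, ?_⟩
  by_contra hne
  have hr : r = 1 := mul_right_cancel₀ hne (by linear_combination -h00 + e10)
  rw [hr] at h01
  exact (mul_ne_zero h2 hne) (by linear_combination ha - h01)

/-- A trace zero eigenvector of conjugation by the lower unipotent has upper right entry zero. -/
theorem upper_eq_zero_of_lower {a : Matrix (Fin 2) (Fin 2) k} {r : k}
    (h : !![1, 0; 1, 1] * a = r • (a * !![1, 0; 1, 1])) : a 0 1 = 0 := by
  have h01 := congrFun (congrFun h 0) 1
  have h11 := congrFun (congrFun h 1) 1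
  simp [Matrix.mul_apply, Fin.sum_univ_two] at h01 h11
  by_contra hne
  have hr : r = 1 := mul_right_cancel₀ hne (by linear_combination -h01)
  exact hne (by rw [hr] at h11; linear_combination h11)

theorem conjAct_eq_smul_iff {g : GL (Fin 2) k} {a : Matrix (Fin 2) (Fin 2) k} {r : k}
    (h : TW.conjAct g a = r • a) :
    (g : Matrix (Fin 2) (Fin 2) k) * a = r • (a * (g : Matrix (Fin 2) (Fin 2) k)) := by
  rw [← Matrix.smul_mul, ← h, TW.conjAct, mul_assoc, ← Units.val_mul, inv_mul_cancel, Units.val_one,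
    mul_one]

variable {p : ℕ} [Fact p.Prime] [Algebra (ZMod p) k] {ρ : GQ →* GL (Fin 2) k}

/-- The standing hypotheses from a large image. -/
theorem twHyp_of_fullImage (hp2 : p ≠ 2)
    (hlevel : ∃ K : IntermediateField ℚ Qb, FiniteDimensional ℚ K ∧
      ∀ σ ∈ K.fixingSubgroup, ρ σ = 1)
    (hdet : TW.DetCyclo p ρ)
    (hk : ∀ g : Matrix (Fin 2) (Fin 2) (ZMod p), ∃ α : k,
      (g.map (algebraMap (ZMod p) k)).charpoly.IsRoot α)
    (hrange : ∀ σ, ∃ g : GL (Fin 2) (ZMod p),
      (ρ σ : Matrix (Fin 2) (Fin 2) k) =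
        (g : Matrix (Fin 2) (Fin 2) (ZMod p)).map (algebraMap (ZMod p) k))
    (hfull : ∀ g : GL (Fin 2) (ZMod p), ∃ σ,
      (ρ σ : Matrix (Fin 2) (Fin 2) k) =
        (g : Matrix (Fin 2) (Fin 2) (ZMod p)).map (algebraMap (ZMod p) k)) :
    TW.TWHyp p ρ := by
  have hu : ∀ g : Matrix (Fin 2) (Fin 2) (ZMod p), g.det = 1 →
      ∃ σ, (ρ σ : Matrix (Fin 2) (Fin 2) k) = g.map (algebraMap (ZMod p) k) := fun g hg =>
    hfull (Matrix.GeneralLinearGroup.mk'' g (by rw [hg]; exact isUnit_one))
  obtain ⟨σ₁, hσ₁⟩ := hu !![1, 1; 0, 1] (by simp [det_fin_two])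
  obtain ⟨σ₂, hσ₂⟩ := hu !![1, 0; 1, 1] (by simp [det_fin_two])
  replace hσ₁ : (ρ σ₁ : Matrix (Fin 2) (Fin 2) k) = !![1, 1; 0, 1] := by
    rw [hσ₁]; ext i j; fin_cases i <;> fin_cases j <;> simp
  replace hσ₂ : (ρ σ₂ : Matrix (Fin 2) (Fin 2) k) = !![1, 0; 1, 1] := by
    rw [hσ₂]; ext i j; fin_cases i <;> fin_cases j <;> simp
  refine ⟨hp2, hlevel, hdet, fun σ => ?_, fun v hv => ?_, fun a ha hta => ?_⟩
  · obtain ⟨g, hg⟩ := hrange σ
    obtain ⟨α, hα⟩ := hk g
    rw [Polynomial.IsRoot.def, Matrix.eval_charpoly] at hα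
    obtain ⟨v, hv, hv0⟩ := Matrix.exists_mulVec_eq_zero_iff.2 hα
    refine ⟨v, hv, α, ?_⟩
    rw [hg]
    rw [Matrix.sub_mulVec, sub_eq_zero, Matrix.scalar_apply] at hv0
    rw [← hv0]
    ext i
    simp [Matrix.mulVec_diagonal]
  · by_contra hcon
    push Not at hcon
    obtain ⟨r, hr⟩ := hcon σ₁
    obtain ⟨s, hs⟩ := hcon σ₂
    rw [hσ₁] at hr
    rw [hσ₂] at hs
    have h0 := congrFun hr 0
    have h1 := congrFun hr 1
    have g0 := congrFun hs 0
    have g1 := congrFun hs 1
    simp [Matrix.mulVec, dotProduct, Fin.sum_univ_two] at h0 h1 g0 g1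
    have e1 : v 1 = 0 := by
      by_contra hne
      have hr1 : r = 1 := mul_right_cancel₀ hne (by linear_combination -h1)
      exact hne (by rw [hr1] at h0; linear_combination h0)
    have e0 : v 0 = 0 := by
      by_contra hne
      have hs1 : s = 1 := mul_right_cancel₀ hne (by linear_combination -g0)
      exact hne (by rw [hs1] at g1; linear_combination g1)
    exact hv (funext fun i => by fin_cases i <;> simp [e0, e1])
  · by_contra hcon
    push Not at hcon
    obtain ⟨r, hr⟩ := hcon σ₁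
    obtain ⟨s, hs⟩ := hcon σ₂
    have hr' := conjAct_eq_smul_iff hr
    have hs' := conjAct_eq_smul_iff hs
    rw [hσ₁] at hr'
    rw [hσ₂] at hs'
    obtain ⟨e10, e00⟩ := diag_eq_zero_of_upper (TW.two_ne_zero_of hp2) hta hr'
    have e01 := upper_eq_zero_of_lower hs'
    rw [trace_fin_two, e00, zero_add] at hta
    exact ha (Matrix.ext fun i j => by fin_cases i <;> fin_cases j <;> simp [e10, e00, e01, hta])

end

end FermatAgent.RTLift.Galois
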