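import Fermat.Agent.RTLift.Galois.Defs
import Mathlib.RingTheory.Filtration

/-!
# The ring generated by the traces of a family of lifts
-/

set_option autoImplicit false

open IsLocalRing Matrix Module

namespace FermatAgent.RTLift.Galois

noncomputable section

local notation "GQ" => AlgebraicClosure ℚ ≃ₐ[ℚ] AlgebraicClosure ℚ

variable {O : Type} [CommRing O] [IsDomain O] [IsDiscreteValuationRing O]
  {ρ : GQ →* GL (Fin 2) (ResidueField O)} {χ : GQ →* O} (L : Lifts ρ χ)

/-- All traces at once. -/
def trVec (σ : GQ) : ∀ i, L.S i := fun i => Matrix.trace (L.r i σ)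

/-- The trace ring. -/
def traceAlg : Subalgebra O (∀ i, L.S i) := Algebra.adjoin O (Set.range (trVec L))

instance instFaithful (i : L.ι) : FaithfulSMul O (L.S i) :=
  (faithfulSMul_iff_algebraMap_injective O (L.S i)).2 (L.injective i)

theorem algebraMap_mem_maximalIdeal (i : L.ι) {o : O} (ho : o ∈ maximalIdeal O) :
    algebraMap O (L.S i) o ∈ maximalIdeal (L.S i) :=
  haveI : IsLocalHom (algebraMap O (L.S i)) := Algebra.IsIntegral.isLocalHom O (L.S i)
  map_nonunit _ _ ho

/-- Every element of the trace ring has a common residue. -/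
theorem exists_common_residue (x : traceAlg L) :
    ∃ o : O, ∀ i, (x : ∀ i, L.S i) i - algebraMap O (L.S i) o ∈ maximalIdeal (L.S i) := by
  refine Algebra.adjoin_induction (p := fun y _ => ∃ o : O, ∀ i,
    y i - algebraMap O (L.S i) o ∈ maximalIdeal (L.S i)) ?_ ?_ ?_ ?_ x.2
  · rintro _ ⟨σ, rfl⟩
    obtain ⟨o, ho⟩ := residue_surjective
      (Matrix.trace (ρ σ : Matrix (Fin 2) (Fin 2) (ResidueField O)))
    refine ⟨o, fun i => ?_⟩
    obtain ⟨o', ho', h⟩ := L.trace_eq i σ
    have hd : algebraMap O (L.S i) (o' - o) ∈ maximalIdeal (L.S i) :=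
      algebraMap_mem_maximalIdeal L i (by rw [← residue_eq_zero_iff, map_sub, ho, ho', sub_self])
    have := add_mem h hd
    rwa [map_sub, sub_add_sub_cancel] at this
  · exact fun o => ⟨o, fun i => by simp⟩
  · rintro a b - - ⟨o, ho⟩ ⟨o', ho'⟩
    refine ⟨o + o', fun i => ?_⟩
    rw [map_add, Pi.add_apply, add_sub_add_comm]
    exact add_mem (ho i) (ho' i)
  · rintro a b - - ⟨o, ho⟩ ⟨o', ho'⟩
    refine ⟨o * o', fun i => ?_⟩
    rw [map_mul, Pi.mul_apply, show a i * b i - algebraMap O (L.S i) o * algebraMap O (L.S i) o' =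
      (a i - algebraMap O (L.S i) o) * b i +
        algebraMap O (L.S i) o * (b i - algebraMap O (L.S i) o') by ring]
    exact add_mem (Ideal.mul_mem_right _ _ (ho i)) (Ideal.mul_mem_left _ _ (ho' i))

theorem residue_common_unique {x : ∀ i, L.S i} {o o' : O}
    (h : ∀ i, x i - algebraMap O (L.S i) o ∈ maximalIdeal (L.S i))
    (h' : ∀ i, x i - algebraMap O (L.S i) o' ∈ maximalIdeal (L.S i)) :
    residue O o = residue O o' := by
  obtain ⟨i⟩ := (inferInstance : Nonempty L.ι)
  rw [← sub_eq_zero, ← map_sub, residue_eq_zero_iff]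
  by_contra hu
  have hu' : IsUnit (o - o') := by
    by_contra hn
    exact hu hn
  have := sub_mem (h' i) (h i)
  rw [sub_sub_sub_cancel_left, ← map_sub] at this
  exact this (hu'.map (algebraMap O (L.S i)))

instance instFinitePi : Module.Finite O (∀ i, L.S i) := Module.Finite.pi

theorem finite_traceAlg : Module.Finite O (traceAlg L) :=
  Module.Finite.of_injective (traceAlg L).val.toLinearMap Subtype.val_injective

theorem free_traceAlg : Module.Free O (traceAlg L) := by
  have := finite_traceAlg L
  have : Module.IsTorsionFree O (traceAlg L) := .of_smul_eq_zero fun o x h => by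
    refine or_iff_not_imp_left.mpr fun ho => Subtype.ext (funext fun i => ?_)
    have h1 : algebraMap O (L.S i) o * (x : ∀ i, L.S i) i = 0 := by
      rw [← Algebra.smul_def]
      exact congrFun (congrArg Subtype.val h) i
    exact (mul_eq_zero.1 h1).resolve_left fun h2 => ho (L.injective i (by rw [h2, map_zero]))
  exact Module.free_of_finite_type_torsion_free'

theorem isUnit_traceAlg_iff (x : traceAlg L) :
    IsUnit x ↔ IsUnit (x : ∀ i, L.S i) := by
  have : Algebra.IsIntegral O (∀ i, L.S i) := Algebra.IsIntegral.of_finite O _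
  have hint : ((traceAlg L).val : traceAlg L →+* ∀ i, L.S i).IsIntegral := fun y => by
    obtain ⟨P, hP, hP'⟩ := Algebra.IsIntegral.isIntegral (R := O) y
    refine ⟨P.map (algebraMap O (traceAlg L)), hP.map _, ?_⟩
    rw [Polynomial.eval₂_map]
    exact hP'
  have hloc := hint.isLocalHom Subtype.val_injective
  exact ⟨fun h => h.map (traceAlg L).val, fun h => hloc.map_nonunit x h⟩

theorem isUnit_of_residue_ne_zero {x : traceAlg L} {o : O}
    (h : ∀ i, (x : ∀ i, L.S i) i - algebraMap O (L.S i) o ∈ maximalIdeal (L.S i))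
    (ho : residue O o ≠ 0) : IsUnit x := by
  rw [isUnit_traceAlg_iff, Pi.isUnit_iff]
  intro i
  by_contra hu
  have h1 : algebraMap O (L.S i) o ∈ maximalIdeal (L.S i) := by
    have := sub_mem (show (x : ∀ i, L.S i) i ∈ maximalIdeal (L.S i) from hu) (h i)
    rwa [sub_sub_cancel] at this
  exact h1 ((residue_ne_zero_iff_isUnit o).1 ho |>.map _)

theorem isLocalRing_traceAlg : IsLocalRing (traceAlg L) := by
  obtain ⟨i⟩ := (inferInstance : Nonempty L.ι)
  have : Nontrivial (traceAlg L) :=
    ⟨⟨0, 1, fun h => zero_ne_one (α := L.S i) (congrFun (congrArg Subtype.val h) i)⟩⟩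
  refine IsLocalRing.of_isUnit_or_isUnit_one_sub_self fun x => ?_
  obtain ⟨o, ho⟩ := exists_common_residue L x
  by_cases h : residue O o = 0
  · refine Or.inr (isUnit_of_residue_ne_zero L (o := 1 - o) (fun i => ?_) (by simp [h]))
    have := neg_mem (ho i)
    rw [neg_sub] at this
    convert this using 1
    rw [map_sub, map_one, Subalgebra.coe_sub, Pi.sub_apply, Subalgebra.coe_one, Pi.one_apply]
    ring
  · exact Or.inl (isUnit_of_residue_ne_zero L ho h)

/-- The residue map. -/
theorem exists_residue_traceAlg :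
    ∃ π : traceAlg L →ₐ[O] ResidueField O,
      (∀ x, π x = 0 ↔ ¬ IsUnit x) ∧
      ∀ (x : traceAlg L) (o : O),
        (∀ i, (x : ∀ i, L.S i) i - algebraMap O (L.S i) o ∈ maximalIdeal (L.S i)) →
          π x = residue O o := by
  choose o ho using exists_common_residue L
  let π : traceAlg L →ₐ[O] ResidueField O :=
    { toFun := fun x => residue O (o x)
      map_one' := by
        rw [← map_one (residue O)]
        exact residue_common_unique L (ho 1) fun i => by simp
      map_mul' := fun x y => by
        rw [← map_mul]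
        refine residue_common_unique L (ho (x * y)) fun i => ?_
        rw [map_mul, Subalgebra.coe_mul, Pi.mul_apply,
          show (x : ∀ i, L.S i) i * (y : ∀ i, L.S i) i -
            algebraMap O (L.S i) (o x) * algebraMap O (L.S i) (o y) =
            ((x : ∀ i, L.S i) i - algebraMap O (L.S i) (o x)) * (y : ∀ i, L.S i) i +
              algebraMap O (L.S i) (o x) *
                ((y : ∀ i, L.S i) i - algebraMap O (L.S i) (o y)) by ring]
        exact add_mem (Ideal.mul_mem_right _ _ (ho x i)) (Ideal.mul_mem_left _ _ (ho y i))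
      map_zero' := by
        rw [← map_zero (residue O)]
        exact residue_common_unique L (ho 0) fun i => by simp
      map_add' := fun x y => by
        rw [← map_add]
        refine residue_common_unique L (ho (x + y)) fun i => ?_
        rw [map_add, Subalgebra.coe_add, Pi.add_apply, add_sub_add_comm]
        exact add_mem (ho x i) (ho y i)
      commutes' := fun a => by
        exact residue_common_unique L (ho (algebraMap O _ a)) fun i => by simp }
  refine ⟨π, fun x => ⟨fun h hu => ?_, fun h => ?_⟩,
    fun x o' h => residue_common_unique L (ho x) h⟩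
  · exact (hu.map π).ne_zero h
  · by_contra hne
    exact h (isUnit_of_residue_ne_zero L (ho x) hne)

/-- A high power of the maximal ideal of each factor lands in a given power of `m`. -/
theorem exists_pow_bound [IsAdicComplete (maximalIdeal O) O] (n : ℕ) :
    ∃ N : ℕ, letI := isLocalRing_traceAlg L
      ∀ x : traceAlg L, (∀ i, (x : ∀ i, L.S i) i ∈ maximalIdeal (L.S i) ^ N) →
        x ∈ maximalIdeal (traceAlg L) ^ n := by
  let := isLocalRing_traceAlg L
  classical
  have : Fintype L.ι := Fintype.ofFinite _
  have hE : ∀ i, ∃ e : ℕ, maximalIdeal (L.S i) ^ e ≤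
      (maximalIdeal O).map (algebraMap O (L.S i)) := fun i => by
    have : IsNoetherianRing (L.S i) := IsNoetherianRing.of_finite O _
    refine Ideal.exists_pow_le_of_le_radical_of_fg ?_ (IsNoetherian.noetherian _)
    rw [Ideal.radical_eq_sInf]
    refine le_sInf fun P hP => ?_
    obtain ⟨hle, hPp⟩ := hP
    have : P.IsPrime := hPp
    have h1 : (P.comap (algebraMap O (L.S i))) = maximalIdeal O :=
      ((maximalIdeal.isMaximal O).eq_of_le (Ideal.IsPrime.ne_top inferInstance)
        (Ideal.map_le_iff_le_comap.1 hle)).symm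
    have hPmax : P.IsMaximal := Ideal.isMaximal_of_isIntegral_of_isMaximal_comap P
      (by rw [h1]; exact maximalIdeal.isMaximal O)
    rw [IsLocalRing.eq_maximalIdeal hPmax]
  choose e he using hE
  obtain ⟨a, ha⟩ := Ideal.exists_pow_inf_eq_pow_smul (maximalIdeal O)
    (Subalgebra.toSubmodule (traceAlg L))
  refine ⟨(Finset.univ.sup e + 1) * (n + a), fun x hx => ?_⟩
  have h1 : ∀ i, (x : ∀ i, L.S i) i ∈
      ((maximalIdeal O ^ (n + a)).map (algebraMap O (L.S i))) := fun i => by
    rw [Ideal.map_pow]
    refine Ideal.pow_right_mono (he i) (n + a) ?_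
    rw [← pow_mul]
    exact Ideal.pow_le_pow_right (Nat.mul_le_mul_right _
      ((Finset.le_sup (Finset.mem_univ i)).trans (Nat.le_succ _))) (hx i)
  have h2 : (x : ∀ i, L.S i) ∈ maximalIdeal O ^ (n + a) • (⊤ : Submodule O (∀ i, L.S i)) := by
    rw [← Finset.univ_sum_single (x : ∀ i, L.S i)]
    refine Submodule.sum_mem _ fun i _ => ?_
    have := h1 i
    rw [← Submodule.restrictScalars_mem O, ← Ideal.smul_top_eq_map] at this
    have := Submodule.mem_map_of_mem (f := LinearMap.single O L.S i) this
    rw [Submodule.map_smul''] at this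
    exact Submodule.smul_mono le_rfl le_top this
  have h3 : (x : ∀ i, L.S i) ∈ maximalIdeal O ^ n • Subalgebra.toSubmodule (traceAlg L) := by
    have := ha (n + a) (Nat.le_add_left a n)
    have hmem : (x : ∀ i, L.S i) ∈ maximalIdeal O ^ (n + a) • (⊤ : Submodule O (∀ i, L.S i)) ⊓
        Subalgebra.toSubmodule (traceAlg L) := ⟨h2, x.2⟩
    rw [this, Nat.add_sub_cancel] at hmem
    exact Submodule.smul_mono le_rfl inf_le_right hmem
  rw [← Submodule.range_subtype (Subalgebra.toSubmodule (traceAlg L)), ← Submodule.map_top,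
    ← Submodule.map_smul''] at h3
  obtain ⟨y, hy, hyx⟩ := Submodule.mem_map.1 h3
  have hyx' : y = x := Subtype.ext hyx
  subst hyx'
  have h4 : (y : traceAlg L) ∈
      (maximalIdeal O ^ n).map (algebraMap O (traceAlg L)) := by
    have := hy
    rwa [← Submodule.restrictScalars_mem O, ← Ideal.smul_top_eq_map]
  rw [Ideal.map_pow] at h4
  have hle : (maximalIdeal O).map (algebraMap O (traceAlg L)) ≤ maximalIdeal (traceAlg L) := by
    rw [Ideal.map_le_iff_le_comap]
    intro o ho hu
    obtain ⟨i⟩ := (inferInstance : Nonempty L.ι)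
    exact algebraMap_mem_maximalIdeal L i ho
      (((isUnit_traceAlg_iff L _).1 hu).map (Pi.evalRingHom L.S i))
  exact Ideal.pow_right_mono hle n h4

end

end FermatAgent.RTLift.Galois
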