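import Fermat.Agent.RTLift.Galois.Normal
import Fermat.Agent.RTLift.Galois.TraceRing
import Fermat.Agent.TW.SelmerPrep

/-!
# The trace ring carries a representation
-/

set_option autoImplicit false
set_option linter.unusedSectionVars false

open IsLocalRing Matrix Module

namespace FermatAgent.RTLift.Galois

noncomputable section

local notation "Qb" => AlgebraicClosure ℚ
local notation "GQ" => AlgebraicClosure ℚ ≃ₐ[ℚ] AlgebraicClosure ℚ

/-- The residual complex conjugation has determinant `-1`. -/
theorem det_complexConjugation {k : Type} [Field k] {p : ℕ} [Fact p.Prime] [Algebra (ZMod p) k]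
    {ρ : GQ →* GL (Fin 2) k} (hρ : TW.TWHyp p ρ) :
    (ρ complexConjugation : Matrix (Fin 2) (Fin 2) k).det = -1 := by
  have : NeZero p := ⟨(Fact.out : p.Prime).ne_zero⟩
  have : CharP k p := charP_of_injective_algebraMap (algebraMap (ZMod p) k).injective p
  obtain ⟨ζ, hζ⟩ := TW.exists_primitiveRoot_qbar p
  have hcζ : complexConjugation ζ = ζ ^ (p - 1) := by
    apply complexEmbedding.toRingHom.injective
    show complexEmbedding _ = complexEmbedding _
    rw [complexEmbedding_complexConjugation, map_pow]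
    have hz : (complexEmbedding ζ) ^ p = 1 := by rw [← map_pow, hζ.pow_eq_one, map_one]
    have hn : ‖complexEmbedding ζ‖ = 1 := Complex.norm_eq_one_of_pow_eq_one hz (NeZero.ne p)
    rw [← Complex.inv_eq_conj hn]
    refine (eq_inv_of_mul_eq_one_left ?_).symm
    rw [← pow_succ, Nat.sub_add_cancel (NeZero.pos p), hz]
  rw [hρ.detCyclo, TW.cycloChar_eq_of_apply hζ hcζ, map_natCast, Nat.cast_sub (NeZero.pos p)]
  simp

/-- Entries in an ideal survive multiplication. -/
theorem mem_mul_mul {S : Type} [CommRing S] {J : Ideal S} (A B : Matrix (Fin 2) (Fin 2) S)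
    {X : Matrix (Fin 2) (Fin 2) S} (hX : ∀ a b, X a b ∈ J) (a b : Fin 2) :
    (A * X * B) a b ∈ J := by
  rw [Matrix.mul_apply]
  refine Ideal.sum_mem _ fun l _ => Ideal.mul_mem_right _ _ ?_
  rw [Matrix.mul_apply]
  exact Ideal.sum_mem _ fun m _ => Ideal.mul_mem_left _ _ (hX m l)

variable {O : Type} [CommRing O] [IsDomain O] [IsDiscreteValuationRing O]
  [IsAdicComplete (maximalIdeal O) O] [Finite (ResidueField O)]
  {p : ℕ} [Fact p.Prime] [Algebra (ZMod p) (ResidueField O)]
  {ρ : GQ →* GL (Fin 2) (ResidueField O)} {χ : GQ →* O}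

theorem exists_half (hp2 : p ≠ 2) : ∃ half : O, 2 * half = 1 := by
  have h2 : (2 : ResidueField O) ≠ 0 := TW.two_ne_zero_of hp2
  have : IsUnit (2 : O) := (residue_ne_zero_iff_isUnit _).1 (by rwa [map_ofNat])
  obtain ⟨b, hb⟩ := this.exists_right_inv
  exact ⟨b, hb⟩

/-- Residual complex conjugation has trace zero. -/
theorem trace_residual_conj (hρ : TW.TWHyp p ρ) :
    Matrix.trace (ρ complexConjugation : Matrix (Fin 2) (Fin 2) (ResidueField O)) = 0 := by
  set M : Matrix (Fin 2) (Fin 2) (ResidueField O) := (ρ complexConjugation).val with hM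
  have hsq : M * M = 1 := by
    rw [hM, ← Units.val_mul, ← map_mul, complexConjugation_mul_self, map_one, Units.val_one]
  have h := two_mul_det M
  rw [hsq, Matrix.trace_one, Fintype.card_fin, Nat.cast_ofNat, det_complexConjugation hρ] at h
  have : Matrix.trace M * Matrix.trace M = 0 := by linear_combination -h
  exact mul_self_eq_zero.1 this

/-- Complex conjugation has trace zero in every lift. -/
theorem trace_conj (hρ : TW.TWHyp p ρ) (L : Lifts ρ χ) (i : L.ι) :
    Matrix.trace (L.r i complexConjugation) = 0 := by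
  obtain ⟨half, hhalf⟩ := exists_half (O := O) hρ.ne_two
  set t := Matrix.trace (L.r i complexConjugation)
  obtain ⟨o, ho, ht⟩ := L.trace_eq i complexConjugation
  rw [trace_residual_conj hρ, residue_eq_zero_iff] at ho
  have htm : t ∈ maximalIdeal (L.S i) := by
    have := add_mem ht (algebraMap_mem_maximalIdeal L i ho)
    rwa [sub_add_cancel] at this
  have hχ : χ complexConjugation * χ complexConjugation = 1 := by
    rw [← map_mul, complexConjugation_mul_self, map_one]
  have h := two_mul_det (L.r i complexConjugation)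
  rw [← map_mul, complexConjugation_mul_self, map_one, Matrix.trace_one, Fintype.card_fin,
    Nat.cast_ofNat, L.det_eq] at h
  rcases mul_self_eq_one_iff.1 hχ with h1 | h1
  · rw [h1, map_one] at h
    exfalso
    have h4 : t * t = 4 := by linear_combination -h
    have h4m : (algebraMap O (L.S i)) 4 ∈ maximalIdeal (L.S i) := by
      rw [map_ofNat, ← h4]; exact Ideal.mul_mem_left _ _ htm
    refine h4m ((IsUnit.of_mul_eq_one (half * half) ?_).map _)
    linear_combination (2 * half + 1) * hhalf
  · rw [h1, map_neg, map_one] at h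
    exact mul_self_eq_zero.1 (by linear_combination -h)

/-- The trace ring as a model. -/
theorem nonempty_model_of (hρ : TW.TWHyp p ρ) (L : Lifts ρ χ) : Nonempty (Model L) := by
  classical
  let R := traceAlg L
  let : IsLocalRing R := isLocalRing_traceAlg L
  have : Module.Finite O R := finite_traceAlg L
  have : Module.Free O R := free_traceAlg L
  obtain ⟨half, hhalf⟩ := exists_half (O := O) hρ.ne_two
  obtain ⟨π, hπ0, hπ⟩ := exists_residue_traceAlg L
  set c := complexConjugation
  have hcc : c * c = 1 := complexConjugation_mul_self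
  let ρm : GQ →* Matrix (Fin 2) (Fin 2) (ResidueField O) :=
    (Units.coeHom (Matrix (Fin 2) (Fin 2) (ResidueField O))).comp ρ
  have hhk : 2 * residue O half = 1 := by
    rw [← map_ofNat (residue O) 2, ← map_mul, hhalf, map_one]
  obtain ⟨h₁, h₂, hne⟩ := exists_nfU_ne_zero ρm hhk hcc (trace_residual_conj hρ)
    hρ.noFixedPoint
  let t : GQ → R := fun σ => ⟨trVec L σ, Algebra.subset_adjoin ⟨σ, rfl⟩⟩
  have hπt : ∀ σ, π (t σ) = Matrix.trace (ρm σ) := fun σ => by
    obtain ⟨o, ho⟩ := residue_surjective (Matrix.trace (ρm σ))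
    rw [← ho]
    refine hπ _ o fun i => ?_
    obtain ⟨o', ho', h⟩ := L.trace_eq i σ
    have hd : algebraMap O (L.S i) (o' - o) ∈ maximalIdeal (L.S i) :=
      algebraMap_mem_maximalIdeal L i
        (by rw [← residue_eq_zero_iff, map_sub, ho, ho']; exact sub_self _)
    have := add_mem h hd
    rwa [map_sub, sub_add_sub_cancel] at this
  have hπh : π (algebraMap O R half) = residue O half := π.commutes half
  have hUu : IsUnit (nfU t (algebraMap O R half) c h₁ h₂) := by
    by_contra hnu
    refine hne ?_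
    rw [← (hπ0 _).2 hnu]
    refine Eq.trans ?_ (map_nfU (π : R →+* ResidueField O) t (algebraMap O R half) c h₁ h₂).symm
    simp only [AlgHom.coe_toRingHom, hπt, hπh]
  obtain ⟨w, hw⟩ := hUu.exists_right_inv
  let ν : GQ → Matrix (Fin 2) (Fin 2) R := nfMat t (algebraMap O R half) w c h₁ h₂
  let pt : ∀ i, R →ₐ[O] L.S i := fun i => (Pi.evalAlgHom O L.S i).comp (traceAlg L).val
  have hinj : ∀ x y : R, (∀ i, pt i x = pt i y) → x = y := fun x y h =>
    Subtype.ext (funext h)
  have hinjM : ∀ X Y : Matrix (Fin 2) (Fin 2) R, (∀ i, X.map (pt i) = Y.map (pt i)) → X = Y :=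
    fun X Y h => Matrix.ext fun a b => hinj _ _ fun i => congrFun (congrFun (h i) a) b
  have hh2 : ∀ i, 2 * algebraMap O (L.S i) half = 1 := fun i => by
    rw [← map_ofNat (algebraMap O (L.S i)) 2, ← map_mul, hhalf, map_one]
  have hνP : ∀ i, ∃ P : Matrix (Fin 2) (Fin 2) (L.S i), IsUnit P.det ∧
      ∀ σ, L.r i σ * P = P * (ν σ).map (pt i) := fun i => by
    have hph : pt i (algebraMap O R half) = algebraMap O (L.S i) half := (pt i).commutes half
    have e1 : nfU (fun σ => Matrix.trace (L.r i σ)) (algebraMap O (L.S i) half) c h₁ h₂ *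
        pt i w = 1 := by
      rw [← hph, ← map_one (pt i), ← hw, map_mul]
      exact congrArg (· * pt i w) (map_nfU (pt i : R →+* L.S i) t (algebraMap O R half) c h₁ h₂).symm
    obtain ⟨P, hP, h⟩ := exists_conj_nfMat (L.r i) (hh2 i) hcc (trace_conj hρ L i) e1
    refine ⟨P, hP, fun σ => ?_⟩
    rw [h σ, ← hph]
    exact congrArg (P * ·)
      (map_nfMat (pt i : R →+* L.S i) t (algebraMap O R half) w c h₁ h₂ σ).symm
  choose P hP hνP using hνP
  have hνeq : ∀ i σ, (ν σ).map (pt i) = (P i)⁻¹ * L.r i σ * P i := fun i σ => by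
    rw [mul_assoc, hνP, ← mul_assoc, Matrix.nonsing_inv_mul _ (hP i), one_mul]
  have hν1 : ν 1 = 1 := hinjM _ _ fun i => by
    rw [hνeq, map_one, mul_one, Matrix.nonsing_inv_mul _ (hP i)]
    exact (Matrix.map_one _ (map_zero _) (map_one _)).symm
  have hνmul : ∀ σ τ, ν (σ * τ) = ν σ * ν τ := fun σ τ => hinjM _ _ fun i => by
    rw [show (ν σ * ν τ).map (pt i) = (ν σ).map (pt i) * (ν τ).map (pt i) from
      Matrix.map_mul (f := (pt i : R →+* L.S i)), hνeq, hνeq, hνeq, map_mul]
    simp only [mul_assoc, Matrix.mul_nonsing_inv_cancel_left _ _ (hP i)]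
  have hπν : ∀ σ, (ν σ).map π =
      nfMat (fun g => Matrix.trace (ρm g)) (residue O half) (π w) c h₁ h₂ σ := fun σ => by
    refine (map_nfMat (π : R →+* ResidueField O) t (algebraMap O R half) w c h₁ h₂ σ).trans ?_
    simp only [AlgHom.coe_toRingHom, hπt, hπh]
  obtain ⟨P0, hP0, hP0ν⟩ := exists_conj_nfMat ρm hhk hcc (trace_residual_conj hρ)
    (h₁ := h₁) (h₂ := h₂) (w := π w) (by
      rw [← map_one π, ← hw, map_mul]
      congr 1
      refine Eq.trans ?_ (map_nfU (π : R →+* ResidueField O) t (algebraMap O R half) c h₁ h₂).symm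
      simp only [AlgHom.coe_toRingHom, hπt, hπh])
  choose Q0 hQ0 using fun a b => residue_surjective (P0 a b)
  let QR : Matrix (Fin 2) (Fin 2) R := (Matrix.of Q0).map (algebraMap O R)
  have hQπ : QR.map π = P0 := by
    ext a b
    rw [← hQ0 a b]
    exact π.commutes _
  have hQR : IsUnit QR.det := by
    by_contra hnu
    have := (hπ0 _).2 hnu
    rw [AlgHom.map_det] at this
    refine hP0.ne_zero ?_
    rw [← hQπ]
    exact this
  let rho : GQ →* Matrix (Fin 2) (Fin 2) R :=
    { toFun := fun σ => QR * ν σ * QR⁻¹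
      map_one' := by rw [hν1, mul_one, Matrix.mul_nonsing_inv _ hQR]
      map_mul' := fun σ τ => by
        rw [hνmul]
        simp only [mul_assoc, Matrix.nonsing_inv_mul_cancel_left _ _ hQR] }
  have hrho : ∀ σ, rho σ = QR * ν σ * QR⁻¹ := fun σ => rfl
  have htrν : ∀ σ, Matrix.trace (ν σ) = t σ := fun σ => by
    have h2 : (2 : R) * algebraMap O R half = 1 := by
      rw [← map_ofNat (algebraMap O R) 2, ← map_mul, hhalf, map_one]
    simp only [ν, nfMat, trace_fin_two_of, nfA, nfD]
    linear_combination (t σ) * h2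
  have htr : ∀ σ, Matrix.trace (rho σ) = t σ := fun σ => by
    rw [hrho, Matrix.trace_mul_comm, ← mul_assoc, Matrix.nonsing_inv_mul _ hQR, one_mul, htrν]
  have hres : ∀ σ, (rho σ).map π = ρm σ := fun σ => by
    have e : rho σ * QR = QR * ν σ := by
      rw [hrho, Matrix.nonsing_inv_mul_cancel_right _ _ hQR]
    have e' := congrArg (fun X : Matrix (Fin 2) (Fin 2) R => X.map (π : R →+* ResidueField O)) e
    simp only [Matrix.map_mul] at e'
    rw [show QR.map (π : R →+* ResidueField O) = P0 from hQπ,
      show (ν σ).map (π : R →+* ResidueField O) = _ from hπν σ, ← hP0ν σ] at e'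
    have e'' := congrArg (fun X : Matrix (Fin 2) (Fin 2) (ResidueField O) => X * P0⁻¹) e'
    rw [Matrix.mul_nonsing_inv_cancel_right _ _ hP0,
      Matrix.mul_nonsing_inv_cancel_right _ _ hP0] at e''
    exact e''
  refine ⟨{
    R := R
    rho := rho
    cont := ?_
    det_eq := ?_
    residual := ?_
    pt := pt
    pt_injective := hinj
    pt_trace := fun i σ => by rw [htr]; rfl
    pt_conj := ?_
    adjoin_trace := ?_ }⟩
  · intro n
    obtain ⟨N, hN⟩ := exists_pow_bound L n
    choose F hF hF' using fun i => L.cont i N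
    have := hF
    refine ⟨⨆ i, F i, IntermediateField.finiteDimensional_iSup_of_finite, fun σ hσ a b => ?_⟩
    have hν : ∀ a b, (ν σ - 1) a b ∈ maximalIdeal R ^ n := fun a b => hN _ fun i => by
      have h1 : (ν σ - 1).map (pt i) = (P i)⁻¹ * (L.r i σ - 1) * P i := by
        rw [Matrix.map_sub _ (fun _ _ => map_sub _ _ _), hνeq,
          Matrix.map_one _ (map_zero _) (map_one _), Matrix.mul_sub, Matrix.sub_mul, mul_one,
          Matrix.nonsing_inv_mul _ (hP i)]
      show (ν σ - 1).map (pt i) a b ∈ _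
      rw [h1]
      exact mem_mul_mul _ _ (hF' i σ fun x hx => hσ x (le_iSup F i hx)) a b
    have : rho σ - 1 = QR * (ν σ - 1) * QR⁻¹ := by
      rw [hrho, Matrix.mul_sub, Matrix.sub_mul, mul_one, Matrix.mul_nonsing_inv _ hQR]
    rw [this]
    exact mem_mul_mul _ _ hν a b
  · intro σ
    refine hinj _ _ fun i => ?_
    rw [AlgHom.commutes, hrho, Matrix.det_mul, Matrix.det_mul, mul_right_comm, ← Matrix.det_mul,
      Matrix.mul_nonsing_inv _ hQR, Matrix.det_one, one_mul, AlgHom.map_det]
    show ((ν σ).map (pt i)).det = _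
    rw [hνeq, Matrix.det_conj' (Matrix.isUnit_iff_isUnit_det _ |>.2 (hP i)), L.det_eq]
  · intro σ a b
    obtain ⟨o, ho⟩ := residue_surjective (ρm σ a b)
    refine ⟨o, ho, (hπ0 _).1 ?_⟩
    rw [map_sub, AlgHom.commutes]
    show π (rho σ a b) - residue O o = 0
    rw [ho, ← hres]
    exact sub_self _
  · intro i
    refine ⟨P i * (QR.map (pt i))⁻¹, ?_, fun σ => ?_⟩
    · have hu : IsUnit (QR.map (pt i)).det := by
        rw [show (QR.map (pt i)).det = pt i QR.det from ((pt i).map_det QR).symm]
        exact hQR.map _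
      rw [Matrix.det_mul]
      exact (hP i).mul (Matrix.isUnit_nonsing_inv_det _ hu)
    · have hu : IsUnit (QR.map (pt i)).det := by
        rw [show (QR.map (pt i)).det = pt i QR.det from ((pt i).map_det QR).symm]
        exact hQR.map _
      have e : rho σ * QR = QR * ν σ := by
        rw [hrho, Matrix.nonsing_inv_mul_cancel_right _ _ hQR]
      have e' := congrArg (fun X : Matrix (Fin 2) (Fin 2) R => X.map (pt i : R →+* L.S i)) e
      simp only [Matrix.map_mul] at e'
      have e2 : (rho σ).map (pt i) = QR.map (pt i) * (ν σ).map (pt i) * (QR.map (pt i))⁻¹ := by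
        rw [show QR.map (pt i) * (ν σ).map (pt i) = (rho σ).map (pt i) * QR.map (pt i) from e'.symm,
          Matrix.mul_nonsing_inv_cancel_right _ _ hu]
      rw [e2, ← mul_assoc (P i * _), ← mul_assoc (P i * _), Matrix.nonsing_inv_mul_cancel_right _ _ hu,
        ← hνP, ← mul_assoc]
  · simp only [htr]
    refine Eq.trans ?_ (Algebra.adjoin_adjoin_coe_preimage (R := O) (s := Set.range (trVec L)))
    congr 1
    ext x
    simp only [Set.mem_range]
    exact exists_congr fun σ => Subtype.ext_iff

end

end FermatAgent.RTLift.Galois
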