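import Fermat.Agent.RTLift.Galois.LocalPBasis
import Fermat.Agent.TW.Tangent
import Fermat.Agent.TW.Decomposition

/-!
# The local conditions at `p` on tangent classes of an ordinary or strictly ordinary model
-/

set_option autoImplicit false

open IsLocalRing Matrix groupCohomology

namespace FermatAgent.RTLift.Galois

noncomputable section

local notation "Qb" => AlgebraicClosure ℚ
local notation "GQ" => AlgebraicClosure ℚ ≃ₐ[ℚ] AlgebraicClosure ℚ

attribute [local instance] RT.isGalois_algClosureRat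

variable {O : Type} [CommRing O] [IsLocalRing O] {p : ℕ} [Fact p.Prime]
  [Algebra (ZMod p) (ResidueField O)]
  {ρ : GQ →* GL (Fin 2) (ResidueField O)} {χ : GQ →* O} {L : Lifts ρ χ}

theorem Model.residue_det (M : Model L) {πR : M.R →ₐ[O] ResidueField O}
    (hres : ∀ σ, (M.rho σ).map πR = (ρ σ : Matrix (Fin 2) (Fin 2) (ResidueField O))) (σ : GQ) :
    residue O (χ σ) = (ρ σ : Matrix (Fin 2) (Fin 2) (ResidueField O)).det := by
  rw [← hres, show ((M.rho σ).map πR).det = πR (M.rho σ).det from (πR.map_det _).symm, M.det_eq,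
    AlgHom.commutes]
  rfl

theorem Model.residue_cyclo (M : Model L) (hρ : TW.TWHyp p ρ) {πR : M.R →ₐ[O] ResidueField O}
    (hres : ∀ σ, (M.rho σ).map πR = (ρ σ : Matrix (Fin 2) (Fin 2) (ResidueField O))) (σ : GQ) :
    residue O (χ σ) =
      algebraMap (ZMod p) (ResidueField O) (ExtCitation.cycloChar p σ : ZMod p) := by
  rw [M.residue_det hres, hρ.detCyclo]

/-- The tangent classes are local cocycles. -/
theorem Model.resTo_tanCoc_mem (M : Model L) {πR : M.R →ₐ[O] ResidueField O}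
    (hπR : ∀ x, πR x = 0 ↔ x ∈ maximalIdeal M.R)
    (hres : ∀ σ, (M.rho σ).map πR = (ρ σ : Matrix (Fin 2) (Fin 2) (ResidueField O)))
    (D : Subgroup GQ) (f : TW.tanSpace O M.R (ResidueField O) πR) :
    TW.resTo D (TW.tanCoc M.rho ρ f) ∈ TW.adCocycles ρ D := by
  obtain ⟨K, hK, hKf⟩ := TW.exists_level_tan (fun x hx => (hπR x).2 hx) M.cont f
  have hc := TW.isAdCocycle_tanCoc hres (fun u σ => by rw [M.det_eq]; exact u.2.2.2 _) f
  refine ⟨fun σ => hc.1 σ, fun σ τ => hc.2 σ τ, K, hK, fun g s hs => ?_⟩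
  show TW.tanCoc M.rho ρ f ((g : GQ) * (s : GQ)) = TW.tanCoc M.rho ρ f g
  have h0 : (M.rho (s : GQ)).map (f : M.R → ResidueField O) = 0 := by
    ext a b
    have := congrArg TrivSqZeroExt.snd (congrFun (congrFun (hKf (s : GQ) hs) a) b)
    rw [Matrix.map_apply, TW.snd_tanHom, Matrix.one_apply] at this
    rw [Matrix.map_apply, Matrix.zero_apply, this]
    split <;> simp
  rw [TW.tanCoc_mul_apply hres, TW.tanCoc_apply M.rho ρ f (s : GQ), h0, Matrix.zero_mul]
  simp [TW.conjAct]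

/-- The residual line and the tangent classes of a triangular model. -/
theorem Model.exists_line_of_triangular (M : Model L) (hρ : TW.TWHyp p ρ)
    {πR : M.R →ₐ[O] ResidueField O} (hπR : ∀ x, πR x = 0 ↔ x ∈ maximalIdeal M.R)
    (hres : ∀ σ, (M.rho σ).map πR = (ρ σ : Matrix (Fin 2) (Fin 2) (ResidueField O)))
    {A : ValuationSubring Qb} {P : Matrix (Fin 2) (Fin 2) M.R}
    {N : GQ →* Matrix (Fin 2) (Fin 2) M.R} (hP : IsUnit P.det)
    (hN : ∀ g, M.rho g * P = P * N g) (h10 : ∀ g ∈ A.decompositionSubgroup ℚ, N g 1 0 = 0)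
    (h11 : ∀ g ∈ A.inertiaSubgroupIn ℚ, N g 1 1 = 1) :
    ∃ v, TW.OrdLine ρ A v ∧
      (∀ g ∈ A.decompositionSubgroup ℚ, ∀ x z : ResidueField O,
        (ρ g : Matrix (Fin 2) (Fin 2) (ResidueField O)) *ᵥ v = x • v →
        (∀ w, ∃ r : ResidueField O,
          (ρ g : Matrix (Fin 2) (Fin 2) (ResidueField O)) *ᵥ w - z • w = r • v) →
        x = πR (N g 0 0) ∧ z = πR (N g 1 1)) ∧
      ∀ f : TW.tanSpace O M.R (ResidueField O) πR,
        (∀ g ∈ A.decompositionSubgroup ℚ, (f : M.R → ResidueField O) (N g 0 0) = 0) →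
        TW.resTo (A.decompositionSubgroup ℚ) (TW.tanCoc M.rho ρ f) ∈
          TW.strictConds ρ A v ⊔ TW.adCoboundaries ρ (A.decompositionSubgroup ℚ) := by
  let w : Fin 2 → M.R := fun a => P a 0
  let Pk := P.map πR
  have hPk : IsUnit Pk.det := by
    rw [show Pk.det = πR P.det from (πR.map_det P).symm]; exact hP.map πR
  have hinj : Function.Injective (Pk *ᵥ ·) := fun u u' h => by
    have := congrArg (Pk⁻¹ *ᵥ ·) h
    simpa only [Matrix.mulVec_mulVec, Matrix.nonsing_inv_mul _ hPk, Matrix.one_mulVec] using this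
  have hsurj : ∀ u, ∃ u', Pk *ᵥ u' = u := fun u => ⟨Pk⁻¹ *ᵥ u, by
    rw [Matrix.mulVec_mulVec, Matrix.mul_nonsing_inv _ hPk, Matrix.one_mulVec]⟩
  have hv : (fun i => πR (w i)) = Pk *ᵥ ![1, 0] := by
    funext a
    simp [Pk, w, Matrix.mulVec, dotProduct, Fin.sum_univ_two]
  have hρP : ∀ g u, (ρ g : Matrix (Fin 2) (Fin 2) (ResidueField O)) *ᵥ (Pk *ᵥ u) =
      Pk *ᵥ ((N g).map πR *ᵥ u) := fun g u => by
    rw [← hres, Matrix.mulVec_mulVec, Matrix.mulVec_mulVec]
    have e := congrArg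
      (fun X : Matrix (Fin 2) (Fin 2) M.R => X.map (πR : M.R →+* ResidueField O)) (hN g)
    simp only [Matrix.map_mul] at e
    exact congrArg (· *ᵥ u) e
  have hv0 : (fun i => πR (w i)) ≠ 0 := by
    rw [hv]
    intro h
    have := congrFun (hinj (h.trans (Matrix.mulVec_zero Pk).symm)) 0
    simp at this
  have hN0 : ∀ g ∈ A.decompositionSubgroup ℚ,
      (N g).map πR *ᵥ ![1, 0] = πR (N g 0 0) • ![1, 0] := fun g hg => by
    funext a
    fin_cases a <;> simp [Matrix.mulVec, dotProduct, Fin.sum_univ_two, h10 g hg]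
  refine ⟨fun i => πR (w i), ⟨hv0, fun g hg => ⟨πR (N g 0 0), ?_⟩, fun g hg u => ?_⟩,
    fun g hg x z hx hz => ?_, fun f hf => ?_⟩
  · rw [hv, hρP, hN0 g hg, Matrix.mulVec_smul]
  · obtain ⟨u, rfl⟩ := hsurj u
    refine ⟨(πR (N g 0 0) - 1) * u 0 + πR (N g 0 1) * u 1, ?_⟩
    rw [hv, hρP, ← Matrix.mulVec_sub, ← Matrix.mulVec_smul]
    congr 1
    have hd := FermatAgent.Local.mem_decomposition_of_inertia hg
    funext a
    fin_cases a <;> simp [h10 g hd, h11 g hg]
    ring
  · rw [hv] at hx hz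
    rw [hρP, hN0 g hg, ← Matrix.mulVec_smul] at hx
    obtain ⟨r, hr⟩ := hz (Pk *ᵥ ![0, 1])
    rw [hρP, ← Matrix.mulVec_smul, ← Matrix.mulVec_sub, ← Matrix.mulVec_smul] at hr
    have h0 := congrFun (hinj hx) 0
    have h1 := congrFun (hinj hr) 1
    simp at h0
    simp [sub_eq_zero] at h1
    exact ⟨h0.symm, h1.symm⟩
  · refine TW.resTo_tanCoc_strict hres f (M.resTo_tanCoc_mem hπR hres _ f) hρ.finiteLevel hv0
      fun g hg => ⟨N g 0 0, ?_, hf g hg⟩
    funext a
    have h := congrFun (congrFun (hN g) a) 0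
    simp [Matrix.mul_apply, Fin.sum_univ_two, h10 g hg] at h
    simp [w, Matrix.mulVec, dotProduct, Fin.sum_univ_two]
    linear_combination h

/-- Strictly ordinary at all points: the tangent classes are strictly ordinary. -/
theorem Model.exists_strictLine (hρ : TW.TWHyp p ρ) (M : Model L)
    {πR : M.R →ₐ[O] ResidueField O} (hπR : ∀ x, πR x = 0 ↔ x ∈ maximalIdeal M.R)
    (hres : ∀ σ, (M.rho σ).map πR = (ρ σ : Matrix (Fin 2) (Fin 2) (ResidueField O)))
    {A : ValuationSubring Qb} (hA : A.LiesOverPrime p)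
    (hstrict : ∀ i, IsStrictPoint χ (L.r i) A) :
    ∃ v, TW.StrictLine ρ p A v ∧ ∀ f : TW.tanSpace O M.R (ResidueField O) πR,
      TW.resTo (A.decompositionSubgroup ℚ) (TW.tanCoc M.rho ρ f) ∈
        TW.strictConds ρ A v ⊔ TW.adCoboundaries ρ (A.decompositionSubgroup ℚ) := by
  choose w hw hI hD using hstrict
  have hstab : ∀ i, ∀ g ∈ A.decompositionSubgroup ℚ, qcoord (w i) (L.r i g *ᵥ w i) = 0 :=
    fun i g hg => by
      obtain ⟨x, z, hx, -, -⟩ := hD i g hg
      rw [hx]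
      simp [qcoord]
      ring
  obtain ⟨P, N, hP, hN, h10, h11, hx, hz⟩ :=
    M.exists_triangular hρ.ne_two hA (M.residue_cyclo hρ hres) w hw hI hstab
  have hxz : ∀ g ∈ A.decompositionSubgroup ℚ, N g 0 0 = algebraMap O M.R (χ g) * N g 1 1 :=
    fun g hg => M.pt_injective _ _ fun i => by
      obtain ⟨x, z, hgx, hgz, hxz⟩ := hD i g hg
      rw [map_mul, AlgHom.commutes, hx i g x hg hgx, hz i g z hg hgz, hxz]
  have hdet : ∀ g ∈ A.decompositionSubgroup ℚ, N g 0 0 * N g 1 1 = algebraMap O M.R (χ g) := by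
    intro g hg
    have h := congrArg Matrix.det (hN g)
    rw [Matrix.det_mul, Matrix.det_mul, M.det_eq, mul_comm] at h
    rw [hP.mul_left_cancel h, det_fin_two, h10 g hg, mul_zero, sub_zero]
  obtain ⟨v, hv, huniq, hcl⟩ := M.exists_line_of_triangular hρ hπR hres hP hN h10 h11
  refine ⟨v, ⟨hv, fun g hg x z h1 h2 => ?_⟩, fun f => hcl f fun g hg => ?_⟩
  · obtain ⟨rfl, rfl⟩ := huniq g hg x z h1 h2
    rw [hxz g hg, map_mul, AlgHom.commutes, ← M.residue_cyclo hρ hres]
    rfl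
  · refine (TW.tan_eq_zero_of_strict f.2 (TW.two_ne_zero_of hρ.ne_two) (x := N g 0 0) (z := N g 1 1)
      (d := χ g) (o := χ g) (e := 0) ?_ (map_zero _) ?_ ?_).1
    · exact (residue_ne_zero_iff_isUnit _).2 ((Group.isUnit g).map χ)
    · rw [hdet g hg, sub_self]; exact zero_mem _
    · rw [← hxz g hg, sub_self]; exact zero_mem _

/-- Ordinary at all points: tangent classes killing the unit root are strictly ordinary. -/
theorem Model.exists_ordLine (hρ : TW.TWHyp p ρ) (M : Model L)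
    {πR : M.R →ₐ[O] ResidueField O} (hπR : ∀ x, πR x = 0 ↔ x ∈ maximalIdeal M.R)
    (hres : ∀ σ, (M.rho σ).map πR = (ρ σ : Matrix (Fin 2) (Fin 2) (ResidueField O)))
    {A : ValuationSubring Qb} (hA : A.LiesOverPrime p) (hχ : ∀ σ, residue O (χ σ) =
      algebraMap (ZMod p) (ResidueField O) (ExtCitation.cycloChar p σ : ZMod p))
    {φ : GQ} (hφ : A.IsFrobeniusAt φ p)
    (u : M.R) (hord : ∀ i, IsOrdPoint (L.r i) A φ (M.pt i u)) :
    ∃ v, TW.OrdLine ρ A v ∧ ∀ f : TW.tanSpace O M.R (ResidueField O) πR,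
      (f : M.R → ResidueField O) u = 0 →
      TW.resTo (A.decompositionSubgroup ℚ) (TW.tanCoc M.rho ρ f) ∈
        TW.strictConds ρ A v ⊔ TW.adCoboundaries ρ (A.decompositionSubgroup ℚ) := by
  choose w hw hstab hI hz' using hord
  obtain ⟨P, N, hP, hN, h10, h11, hx, hz⟩ :=
    M.exists_triangular hρ.ne_two hA hχ w hw hI hstab
  obtain ⟨v, hv, -, hcl⟩ := M.exists_line_of_triangular hρ hπR hres hP hN h10 h11
  refine ⟨v, hv, fun f hfu => hcl f fun g hg => ?_⟩
  have hφd := (TW.isFrobeniusAt_iff.1 hφ).1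
  have hNφ : N φ 1 1 = u := M.pt_injective _ _ fun i => hz i φ _ hφd (hz' i)
  have hdet : ∀ g ∈ A.decompositionSubgroup ℚ, N g 0 0 * N g 1 1 = algebraMap O M.R (χ g) := by
    intro g hg
    have h := congrArg Matrix.det (hN g)
    rw [Matrix.det_mul, Matrix.det_mul, M.det_eq, mul_comm] at h
    rw [hP.mul_left_cancel h, det_fin_two, h10 g hg, mul_zero, sub_zero]
  have hmul : ∀ g h, g ∈ A.decompositionSubgroup ℚ → h ∈ A.decompositionSubgroup ℚ →
      N (g * h) 0 0 = N g 0 0 * N h 0 0 := fun g h hg hh => by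
    rw [map_mul, Matrix.mul_apply, Fin.sum_univ_two, h10 h hh, mul_zero, add_zero]
  have hi : ∀ g ∈ A.inertiaSubgroupIn ℚ, (f : M.R → ResidueField O) (N g 0 0) = 0 := fun g hg => by
    have h := hdet g (FermatAgent.Local.mem_decomposition_of_inertia hg)
    rw [h11 g hg, mul_one] at h
    rw [h]
    exact f.2.2.2 _
  have hfφ : (f : M.R → ResidueField O) (N φ 0 0) = 0 := by
    have h := congrArg (f : M.R → ResidueField O) (hdet φ hφd)
    rw [f.2.2.1, hNφ, hfu, mul_zero, zero_add, f.2.2.2] at h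
    refine (mul_eq_zero.1 h).resolve_left fun h0 => ?_
    have h2 := congrArg πR (hdet φ hφd)
    rw [map_mul, hNφ, h0, mul_zero, AlgHom.commutes] at h2
    exact (residue_ne_zero_iff_isUnit _).2 ((Group.isUnit φ).map χ) h2.symm
  have hpow : ∀ m : ℕ, (f : M.R → ResidueField O) (N (φ ^ m) 0 0) = 0 := by
    intro m
    induction m with
    | zero => simpa using TW.tan_one f.2
    | succ m ih =>
      rw [pow_succ, hmul _ _ (pow_mem hφd m) hφd, f.2.2.1, ih, hfφ, mul_zero, mul_zero, add_zero]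
  obtain ⟨K, hK, hKf⟩ := TW.exists_level_tan (fun x hx => (hπR x).2 hx) M.cont f
  let K' := IntermediateField.normalClosure ℚ K Qb
  have : Normal ℚ K' := normalClosure.normal ℚ K Qb
  obtain ⟨m, i, hi', hgi⟩ := TW.exists_frobenius_pow_mul (Fact.out : p.Prime) hA K' hφ hg
  set s := (φ ^ m * i)⁻¹ * g
  have hsd : s ∈ A.decompositionSubgroup ℚ :=
    mul_mem (inv_mem (mul_mem (pow_mem hφd m) (FermatAgent.Local.mem_decomposition_of_inertia hi'))) hg
  have hs : s ∈ K.fixingSubgroup := fun x => by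
    show ((φ ^ m * i)⁻¹ * g) (x : Qb) = x
    rw [AlgEquiv.mul_apply, hgi x (IntermediateField.le_normalClosure K x.2), ← AlgEquiv.mul_apply,
      inv_mul_cancel, AlgEquiv.one_apply]
  have hNs : (N s).map (TW.tanHom f) = 1 := by
    have h := congrArg (fun X : Matrix (Fin 2) (Fin 2) M.R =>
      X.map (TW.tanHom f : M.R →+* DualNumber (ResidueField O))) (hN s)
    simp only [Matrix.map_mul] at h
    rw [show (M.rho s).map (TW.tanHom f : M.R →+* DualNumber (ResidueField O)) = 1 from hKf s hs,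
      one_mul] at h
    have hu : IsUnit (P.map (TW.tanHom f)).det := by
      rw [show (P.map (TW.tanHom f)).det = TW.tanHom f P.det from ((TW.tanHom f).map_det P).symm]
      exact hP.map _
    refine ((Matrix.isUnit_iff_isUnit_det _).2 hu).mul_left_cancel ?_
    rw [mul_one]
    exact h.symm
  have hfs : (f : M.R → ResidueField O) (N s 0 0) = 0 := by
    have := congrArg TrivSqZeroExt.snd (congrFun (congrFun hNs 0) 0)
    simpa using this
  rw [show g = φ ^ m * i * s from (mul_inv_cancel_left (φ ^ m * i) g).symm,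
    hmul _ _ (mul_mem (pow_mem hφd m) (FermatAgent.Local.mem_decomposition_of_inertia hi')) hsd,
    hmul _ _ (pow_mem hφd m) (FermatAgent.Local.mem_decomposition_of_inertia hi'),
    f.2.2.1, f.2.2.1, hpow, hi i hi', hfs]
  simp

end

end FermatAgent.RTLift.Galois
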