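import Fermat.Agent.RTLift.Galois.Defs
import Fermat.Agent.RTLift.Galois.FlatPi
import Fermat.Agent.RTLift.Galois.FrameCoeff
import Fermat.Agent.TW.FlatPush

/-!
# A model of a flat family is flat
-/

set_option autoImplicit false

open IsLocalRing Matrix

namespace FermatAgent.RTLift.Galois

noncomputable section

local notation "Qb" => AlgebraicClosure ℚ
local notation "GQ" => AlgebraicClosure ℚ ≃ₐ[ℚ] AlgebraicClosure ℚ

/-- An ideal of finite index in a local ring contains a power of the maximal ideal. -/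
theorem exists_pow_le_of_finite_quotient {R : Type} [CommRing R] [IsLocalRing R] (I : Ideal R)
    (hI : Finite (R ⧸ I)) : ∃ n, maximalIdeal R ^ n ≤ I := by
  obtain ⟨N, hN⟩ := IsArtinianRing.isNilpotent_jacobson_bot (R := R ⧸ I)
  refine ⟨N, ?_⟩
  rw [← Ideal.mk_ker (I := I), RingHom.ker_eq_comap_bot, ← Ideal.map_le_iff_le_comap, Ideal.map_pow]
  refine le_of_le_of_eq (Ideal.pow_right_mono (le_sInf fun P hP => ?_) N) hN
  have : P.IsMaximal := hP.2
  rw [Ideal.map_le_iff_le_comap]
  exact (IsLocalRing.eq_maximalIdeal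
    (Ideal.comap_isMaximal_of_surjective _ Ideal.Quotient.mk_surjective)).symm.le

variable {O : Type} [CommRing O] [IsLocalRing O] [IsNoetherianRing O]
  {ρ : GQ →* GL (Fin 2) (ResidueField O)} {χ : GQ →* O} {L : Lifts ρ χ}

/-- Divisibility by high powers at all points of a model gives divisibility by a given power. -/
theorem Model.exists_pow_bound_pt (M : Model L) (n : ℕ) :
    ∃ N : ℕ, ∀ x : M.R, (∀ i, M.pt i x ∈ maximalIdeal (L.S i) ^ N) →
      x ∈ maximalIdeal M.R ^ n := by
  classical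
  have : Fintype L.ι := Fintype.ofFinite L.ι
  choose N₀ hN₀ using fun i => exists_pow_le_map (R := L.S i) (O := O)
  let Φ : M.R →ₗ[O] (∀ i, L.S i) := LinearMap.pi fun i => (M.pt i).toLinearMap
  have hΦ : Function.Injective Φ := fun x y h => M.pt_injective x y (congrFun h)
  obtain ⟨c, hc⟩ := Ideal.exists_pow_inf_eq_pow_smul (maximalIdeal O) (LinearMap.range Φ)
  refine ⟨(∑ i, N₀ i) * (n + c), fun x hx => ?_⟩
  set I := maximalIdeal O ^ (n + c) with hI
  have h1 : ∀ i, M.pt i x ∈ I • (⊤ : Submodule O (L.S i)) := fun i => by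
    rw [Ideal.smul_top_eq_map, Submodule.restrictScalars_mem, hI, Ideal.map_pow]
    refine Ideal.pow_right_mono (hN₀ i) (n + c) ?_
    rw [← pow_mul]
    exact Ideal.pow_le_pow_right
      (Nat.mul_le_mul_right _ (Finset.single_le_sum (fun j _ => Nat.zero_le _) (Finset.mem_univ i)))
      (hx i)
  have h2 : Φ x ∈ I • (⊤ : Submodule O (∀ i, L.S i)) := by
    rw [show Φ x = ∑ i, LinearMap.single O L.S i (M.pt i x) from
      (Finset.univ_sum_single _).symm]
    refine Submodule.sum_mem _ fun i _ => ?_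
    have := Submodule.mem_map_of_mem (f := LinearMap.single O L.S i) (h1 i)
    rw [Submodule.map_smul''] at this
    exact Submodule.smul_mono le_rfl le_top this
  have h3 : Φ x ∈ maximalIdeal O ^ n • LinearMap.range Φ := by
    have h := (hc (n + c) (Nat.le_add_left c n)).le ⟨h2, LinearMap.mem_range_self Φ x⟩
    rw [Nat.add_sub_cancel] at h
    exact Submodule.smul_mono le_rfl inf_le_right h
  rw [← Submodule.map_top, ← Submodule.map_smul''] at h3
  obtain ⟨y, hy, hyx⟩ := h3
  rw [← hΦ hyx]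
  rw [SetLike.mem_coe, Ideal.smul_top_eq_map, Submodule.restrictScalars_mem, Ideal.map_pow] at hy
  refine Ideal.pow_right_mono ?_ n hy
  exact Ideal.map_le_iff_le_comap.2 fun o ho => map_nonunit (algebraMap O M.R) o ho

open FermatAgent.GalRep.Flat in
/-- A model of a family flat at `p` is flat at `p`. -/
theorem Model.isFlatAt [Finite (ResidueField O)] {p : ℕ} (M : Model L)
    (hflat : ∀ i, (DefRing.toAdic (L.r i) (L.cont i)).IsFlatAt p) :
    (DefRing.toAdic M.rho M.cont).IsFlatAt p := by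
  classical
  have : Fintype L.ι := Fintype.ofFinite L.ι
  refine ⟨IsLocalRing.ResidueField.finite_of_finite (R := O) inferInstance, fun I hI => ?_⟩
  obtain ⟨n, hn⟩ := exists_pow_le_of_finite_quotient I hI
  obtain ⟨N, hN⟩ := M.exists_pow_bound_pt n
  let V : L.ι → Type := fun i =>
    (Fin 2 → L.S i) ⧸ ((maximalIdeal (L.S i) ^ N) • (⊤ : Submodule (L.S i) (Fin 2 → L.S i)))
  let act : ∀ i, GQ → V i → V i := fun i σ =>
    (DefRing.toAdic (L.r i) (L.cont i)).levelAction (maximalIdeal (L.S i) ^ N) σ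
  have hq : ∀ i, Finite (L.S i ⧸ maximalIdeal (L.S i) ^ N) := fun i => by
    have : Finite (L.S i ⧸ maximalIdeal (L.S i)) := (hflat i).1
    have : IsNoetherianRing (L.S i) := IsNoetherianRing.of_finite O (L.S i)
    exact Ideal.finite_quotient_pow (IsNoetherian.noetherian _) N
  have hG : ∀ i, Nonempty (FunctionModel p (V i) (act i)) := fun i => by
    obtain ⟨H, i1, i2, hfin, -, -, e, hadd, hact⟩ := (hflat i).2 _ (hq i)
    exact ⟨FunctionModel.ofHopf e hadd hact⟩
  choose P hP hPr using M.pt_conj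
  let J : Ideal M.R := ⨅ i, (maximalIdeal (L.S i) ^ N).comap (M.pt i : M.R →+* L.S i)
  have hJI : J ≤ I := fun x hx => hn (hN x fun i => Ideal.mem_iInf.1 hx i)
  let W : Submodule M.R (Fin 2 → M.R) := J • ⊤
  let ψ : (Fin 2 → M.R) →+ (∀ i, V i) :=
    { toFun := fun v i => Submodule.Quotient.mk (P i *ᵥ (M.pt i ∘ v))
      map_zero' := funext fun i => by
        rw [show M.pt i ∘ (0 : Fin 2 → M.R) = 0 from funext fun a => map_zero _, Matrix.mulVec_zero]
        rfl
      map_add' := fun v w => funext fun i => by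
        rw [show M.pt i ∘ (v + w) = M.pt i ∘ v + M.pt i ∘ w from funext fun a => map_add _ _ _,
          Matrix.mulVec_add]
        rfl }
  have hker : ∀ v, ψ v = 0 ↔ v ∈ W := fun v => by
    rw [DefRing.pi_mem_smul_top_iff]
    simp only [J, Ideal.mem_iInf, Ideal.mem_comap]
    refine ⟨fun h a i => ?_, fun h => funext fun i => ?_⟩
    · have h1 := (Submodule.Quotient.mk_eq_zero _).1 (congrFun h i)
      rw [DefRing.pi_mem_smul_top_iff] at h1
      have h2 : M.pt i ∘ v = (P i)⁻¹ *ᵥ (P i *ᵥ (M.pt i ∘ v)) := by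
        rw [Matrix.mulVec_mulVec, Matrix.nonsing_inv_mul _ (hP i), Matrix.one_mulVec]
      show (M.pt i ∘ v) a ∈ _
      rw [h2, Matrix.mulVec, dotProduct]
      exact Ideal.sum_mem _ fun b _ => Ideal.mul_mem_left _ _ (h1 b)
    · refine (Submodule.Quotient.mk_eq_zero _).2 ?_
      rw [DefRing.pi_mem_smul_top_iff]
      intro a
      rw [Matrix.mulVec, dotProduct]
      exact Ideal.sum_mem _ fun b _ => Ideal.mul_mem_left _ _ (h b i)
  let j : (Fin 2 → M.R) ⧸ W →+ (∀ i, V i) :=
    QuotientAddGroup.lift W.toAddSubgroup ψ fun v hv => (hker v).2 hv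
  have hj : Function.Injective j := (injective_iff_map_eq_zero j).2 fun x hx => by
    obtain ⟨v, rfl⟩ := Submodule.Quotient.mk_surjective _ x
    exact (Submodule.Quotient.mk_eq_zero _).2 ((hker v).1 hx)
  have : ∀ i, Finite (V i) := fun i => by
    have := hq i
    refine Finite.of_surjective (fun v : Fin 2 → L.S i ⧸ maximalIdeal (L.S i) ^ N =>
      (Submodule.Quotient.mk fun a => Quotient.out (v a) : V i)) fun y => ?_
    obtain ⟨w, rfl⟩ := Submodule.Quotient.mk_surjective _ y
    refine ⟨fun a => Ideal.Quotient.mk _ (w a), (Submodule.Quotient.eq _).2 ?_⟩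
    rw [DefRing.pi_mem_smul_top_iff]
    intro a
    rw [Pi.sub_apply, ← Ideal.Quotient.eq]
    exact Ideal.Quotient.mk_out _
  have : Finite ((Fin 2 → M.R) ⧸ W) := Finite.of_injective j hj
  let actR : GQ → ((Fin 2 → M.R) ⧸ W) → ((Fin 2 → M.R) ⧸ W) := fun σ =>
    (DefRing.toAdic M.rho M.cont).levelAction J σ
  have hjact : ∀ σ x, j (actR σ x) = fun i => act i σ (j x i) := fun σ x => by
    obtain ⟨v, rfl⟩ := Submodule.Quotient.mk_surjective _ x
    funext i
    show Submodule.Quotient.mk (P i *ᵥ (M.pt i ∘ (M.rho σ *ᵥ v))) =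
      Submodule.Quotient.mk (L.r i σ *ᵥ (P i *ᵥ (M.pt i ∘ v)))
    congr 1
    rw [Matrix.mulVec_mulVec, ← hPr, ← Matrix.mulVec_mulVec]
    congr 1
    funext a
    exact RingHom.map_mulVec (M.pt i : M.R →+* L.S i) _ _ a
  let G := (FunctionModel.pi fun i => (hG i).some).restrict actR j hj hjact
  let W' : Submodule M.R (Fin 2 → M.R) := I • ⊤
  have hWW : W ≤ W' := Submodule.smul_mono hJI le_rfl
  let π : (Fin 2 → M.R) ⧸ W →+ (Fin 2 → M.R) ⧸ W' := (Submodule.factor hWW).toAddMonoidHom
  have hπ : Function.Surjective π := Submodule.factor_surjective hWW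
  have hπact : ∀ σ x, π (actR σ x) =
      (DefRing.toAdic M.rho M.cont).levelAction I σ (π x) := fun σ x => by
    obtain ⟨v, rfl⟩ := Submodule.Quotient.mk_surjective _ x
    rfl
  have : Finite ((Fin 2 → M.R) ⧸ W') := Finite.of_surjective π hπ
  exact (FunctionModel.quotient G π hπ hπact).exists_hopf

end

end FermatAgent.RTLift.Galois
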