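import Fermat.Agent.RTLift.Galois.Surjection
import Fermat.Agent.RTLift.Galois.LocalP
import Fermat.Agent.RTLift.Galois.ModelFlat
import Fermat.Agent.TW.FlatPush
import Fermat.Agent.TW.DefTangent

/-!
# The four presentations
-/

set_option autoImplicit false
set_option linter.unusedSectionVars false

open IsLocalRing Matrix Module groupCohomology

namespace FermatAgent.RTLift.Galois

noncomputable section

local notation "Qb" => AlgebraicClosure ℚ
local notation "GQ" => AlgebraicClosure ℚ ≃ₐ[ℚ] AlgebraicClosure ℚ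

variable {O : Type} [CommRing O] [IsDomain O] [IsDiscreteValuationRing O]
  [IsAdicComplete (maximalIdeal O) O] [Finite (ResidueField O)]
  {p : ℕ} [Fact p.Prime] [Algebra (ZMod p) (ResidueField O)]
  {ρ : GQ →* GL (Fin 2) (ResidueField O)} {χ : GQ →* O} {L : Lifts ρ χ}
  {I : Type} [Fintype I]

theorem flatConds_le {k : Type} [Field k] [Finite k] {ρ : GQ →* GL (Fin 2) k}
    (A : ValuationSubring Qb) :
    TW.flatConds ρ p A ≤ TW.adCocycles ρ (A.decompositionSubgroup ℚ) := by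
  refine Submodule.span_le.2 ?_
  rintro _ ⟨c, ⟨⟨ht, hcc⟩, ⟨L, hL, hl⟩, -⟩, rfl⟩
  exact ⟨fun σ => ht σ, fun σ τ => hcc σ τ, L, hL, fun g s hs => hl g s hs⟩

theorem resTo_flat_mem (Fr : Frames p ρ I) (Q : Finset Nat.Primes) (M : Model L)
    (hunr : L.UnramifiedOutside Fr Q)
    {πR : M.R →ₐ[O] ResidueField O} (hπR : ∀ x, πR x = 0 ↔ x ∈ maximalIdeal M.R)
    (hres : ∀ σ, (M.rho σ).map πR = (ρ σ : Matrix (Fin 2) (Fin 2) (ResidueField O)))
    (hflat : ∀ i, (DefRing.toAdic (L.r i) (L.cont i)).IsFlatAt p) (A : ValuationSubring Qb)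
    (w : TW.tanSpace O M.R (ResidueField O) πR) :
    TW.resTo (A.decompositionSubgroup ℚ) (TW.tanCoc M.rho ρ w) ∈ TW.flatConds ρ p A := by
  rcases eq_or_ne w 0 with rfl | hw
  · rw [map_zero, map_zero]; exact zero_mem _
  refine Submodule.subset_span ⟨_, ⟨?_, ?_, ?_⟩, rfl⟩
  · exact TW.isAdCocycle_tanCoc hres (tan_det_model M hres) w
  · exact (TW.tanCoc_levelS hres (fun x hx => (hπR x).2 hx) M.cont (Fr.support ∪ Q)
      (rho_eq_one_of_unramified Fr Q M hunr) w).isLevelConstant₁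
  · have hs := TW.tanHom_surjective w hw
    have hc' := DefRing.isCont_map (TW.tanHom w : M.R →+* DefRing.DN O)
      (IsLocalHom.of_surjective _ hs) M.cont
    exact TW.isFlatCocycle_tanCoc hres w hc'
      (TW.isFlatAt_mapRep _ hs M.rho M.cont hc' (M.isFlatAt hflat))

theorem eq_add_of_span_empty {B : Type} [CommRing B] {t : PEmpty.{1} → B} {x y : B}
    (h : y - x ∈ Ideal.span (Set.range t)) : y = x := by
  rw [Set.range_eq_empty, Ideal.span_empty, Submodule.mem_bot, sub_eq_zero] at h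
  exact h

variable (hρ : TW.TWHyp p ρ) (Fr : Frames p ρ I)
  (hρunr : ∀ ℓ : Nat.Primes, ℓ ∉ Fr.support → ∀ A : ValuationSubring Qb,
    A.LiesOverPrime (ℓ : ℕ) → ∀ g ∈ A.inertiaSubgroupIn ℚ, ρ g = 1)

include hρ hρunr

theorem exists_surjection_strict_of (Q : Finset Nat.Primes)
    (hQ : TW.IsTWSet ρ p Fr.support 1 Q) (M : Model L) (hunr : L.UnramifiedOutside Fr Q)
    {A : ValuationSubring Qb} (hA : A.LiesOverPrime p)
    (hstrict : ∀ i, IsStrictPoint χ (L.r i) A)
    (D : LocalRings.Datum O I) (hD : DatumLifts Fr D) :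
    ∃ π : LocalRings.Ambient O I Q.card →ₐ[O] MvPowerSeries (I × Fin 3) M.R,
      Function.Surjective π ∧ IsFramedMap M Fr D Q.card π := by
  obtain ⟨πR, hπR, hres⟩ := M.exists_residueMap
  obtain ⟨v, hv, hu⟩ := Model.exists_strictLine hρ M hπR hres hA hstrict
  obtain ⟨π, hπ, hs⟩ := exists_framed_of_local hρ Fr hρunr Q hQ M hunr hπR hres hA
    (TW.strictConds ρ A v) (fun c hc => hc.1) (e := 1) (f := 0)
    ⟨TW.rankLE_strict hρ hA hv, Nat.zero_le _⟩ PEmpty.elim (fun s => s.elim) (fun u _ => hu u)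
    D hD Q.card le_rfl
  refine ⟨π, fun y => ?_, hπ⟩
  obtain ⟨x, hx⟩ := hs y
  exact ⟨x, (eq_add_of_span_empty hx).symm⟩

theorem exists_surjection_flat_of (Q : Finset Nat.Primes)
    (hQ : TW.IsTWSet ρ p Fr.support 1 Q) (M : Model L) (hunr : L.UnramifiedOutside Fr Q)
    (hflat : ∀ i, (DefRing.toAdic (L.r i) (L.cont i)).IsFlatAt p)
    (D : LocalRings.Datum O I) (hD : DatumLifts Fr D) :
    ∃ π : LocalRings.Ambient O I Q.card →ₐ[O] MvPowerSeries (I × Fin 3) M.R,
      Function.Surjective π ∧ IsFramedMap M Fr D Q.card π := by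
  obtain ⟨πR, hπR, hres⟩ := M.exists_residueMap
  set A := ExtCitation.primeLocalPlace (ExtCitation.pPrime p)
  have hA : A.LiesOverPrime p := (FermatAgent.Duality.primeLocalToGlobal_bijOn _).2.2
  obtain ⟨π, hπ, hs⟩ := exists_framed_of_local hρ Fr hρunr Q hQ M hunr hπR hres hA
    (TW.flatConds ρ p A) (flatConds_le A) (e := 1) (f := 0)
    ⟨TW.rankLE_flat hρ hA, Nat.zero_le _⟩ PEmpty.elim (fun s => s.elim)
    (fun u _ => Submodule.mem_sup_left (resTo_flat_mem Fr Q M hunr hπR hres hflat A u))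
    D hD Q.card le_rfl
  refine ⟨π, fun y => ?_, hπ⟩
  obtain ⟨x, hx⟩ := hs y
  exact ⟨x, (eq_add_of_span_empty hx).symm⟩

theorem exists_surjection_flat_unitRoot_of (Q : Finset Nat.Primes)
    (hQ : TW.IsTWSet ρ p Fr.support 1 Q) (M : Model L) (hunr : L.UnramifiedOutside Fr Q)
    (hflat : ∀ i, (DefRing.toAdic (L.r i) (L.cont i)).IsFlatAt p)
    (hχ : ∀ σ, residue O (χ σ) =
      algebraMap (ZMod p) (ResidueField O) (ExtCitation.cycloChar p σ : ZMod p))
    {A : ValuationSubring Qb} (hA : A.LiesOverPrime p) {φ : GQ} (hφ : A.IsFrobeniusAt φ p)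
    (u : M.R) (hord : ∀ i, IsOrdPoint (L.r i) A φ (M.pt i u)) (η : O)
    (D : LocalRings.Datum O I) (hD : DatumLifts Fr D) (rv : ℕ) (hrv : rv + 1 = Q.card) :
    ∃ π : LocalRings.Ambient O I rv →ₐ[O] MvPowerSeries (I × Fin 3) M.R,
      IsFramedMap M Fr D rv π ∧
      ∀ y, ∃ x c, y = π x + c * MvPowerSeries.C (u - algebraMap O M.R η) := by
  by_cases ht : u - algebraMap O M.R η ∈ maximalIdeal M.R
  · obtain ⟨πR, hπR, hres⟩ := M.exists_residueMap
    obtain ⟨v, hv, hu⟩ := Model.exists_ordLine hρ M hπR hres hA hχ hφ u hord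
    obtain ⟨π, hπ, hs⟩ := exists_framed_of_local hρ Fr hρunr Q hQ M hunr hπR hres hA
      (TW.flatConstConds ρ p A v) (fun c hc => flatConds_le A hc.1) (e := 0) (f := 0)
      ⟨TW.rankLE_flatConst hρ hA hv, Nat.zero_le _⟩ (fun _ : Unit => u - algebraMap O M.R η)
      (fun _ => ht)
      (fun w hw => Submodule.mem_sup_left ⟨resTo_flat_mem Fr Q M hunr hπR hres hflat A w, hu w (by
        have h := hw ()
        rwa [TW.tan_sub w.2, w.2.2.2, sub_zero] at h)⟩)
      D hD rv (by omega)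
    refine ⟨π, hπ, fun y => ?_⟩
    obtain ⟨x, hx⟩ := hs y
    rw [Set.range_const, Ideal.mem_span_singleton'] at hx
    obtain ⟨c, hc⟩ := hx
    exact ⟨x, c, by rw [hc, add_sub_cancel]⟩
  · obtain ⟨π, hπ⟩ := exists_framedMap M Fr D hD rv
    have hu : IsUnit (u - algebraMap O M.R η) := not_not.1 ht
    obtain ⟨e, he⟩ := (hu.map (MvPowerSeries.C (σ := I × Fin 3))).exists_left_inv
    exact ⟨π, hπ, fun y => ⟨0, y * e, by rw [map_zero, zero_add, mul_assoc, he, mul_one]⟩⟩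

theorem exists_surjection_any_of :
    ∃ e : ℕ, ∀ (Q : Finset Nat.Primes), TW.IsTWSet ρ p Fr.support 1 Q →
      ∀ (L : Lifts ρ χ) (M : Model L), L.UnramifiedOutside Fr Q →
      ∀ (D : LocalRings.Datum O I), DatumLifts Fr D →
      ∃ π : LocalRings.Ambient O I (Q.card + e) →ₐ[O] MvPowerSeries (I × Fin 3) M.R,
        Function.Surjective π ∧ IsFramedMap M Fr D (Q.card + e) π := by
  set A := ExtCitation.primeLocalPlace (ExtCitation.pPrime p)
  have hA : A.LiesOverPrime p := (FermatAgent.Duality.primeLocalToGlobal_bijOn _).2.2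
  obtain ⟨n, hn⟩ := TW.exists_rankLE_adCocycles hρ hA
  refine ⟨n, fun Q hQ L M hunr D hD => ?_⟩
  obtain ⟨πR, hπR, hres⟩ := M.exists_residueMap
  have hsup := sup_eq_left.2 (TW.adCoboundaries_le hρ.finiteLevel (A.decompositionSubgroup ℚ))
  obtain ⟨π, hπ, hs⟩ := exists_framed_of_local hρ Fr hρunr Q hQ M hunr hπR hres hA
    (TW.adCocycles ρ (A.decompositionSubgroup ℚ)) le_rfl (e := n) (f := 0)
    ⟨⟨hsup.symm ▸ hn.1, by rw [hsup]; exact hn.2.trans (by omega)⟩, Nat.zero_le _⟩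
    PEmpty.elim (fun s => s.elim)
    (fun u _ => Submodule.mem_sup_left (Model.resTo_tanCoc_mem M hπR hres _ u))
    D hD (Q.card + n) (Nat.le_succ _)
  refine ⟨π, fun y => ?_, hπ⟩
  obtain ⟨x, hx⟩ := hs y
  exact ⟨x, (eq_add_of_span_empty hx).symm⟩

end

end FermatAgent.RTLift.Galois
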