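import Fermat.Agent.RTLift.Galois.Defs
import Fermat.Agent.RTLift.Galois.Model
import Fermat.Agent.TW.Interface
import Fermat.Agent.RTLift.Galois.Frame
import Fermat.Agent.RTLift.Galois.ImageHyp
import Fermat.Agent.RTLift.Galois.FrameUnitRoot
import Fermat.Agent.RTLift.Galois.FrameTrace
import Fermat.Agent.RTLift.Galois.SurjectionCases

/-!
# Interface of the Galois side of RTLift
-/

set_option autoImplicit false
set_option linter.unusedSectionVars false

open IsLocalRing Matrix Module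

namespace FermatAgent.RTLift.Galois

noncomputable section

local notation "Qb" => AlgebraicClosure ℚ
local notation "GQ" => AlgebraicClosure ℚ ≃ₐ[ℚ] AlgebraicClosure ℚ

variable {O : Type} [CommRing O] [IsDomain O] [IsDiscreteValuationRing O]
  [IsAdicComplete (maximalIdeal O) O] [Finite (ResidueField O)]
  {p : ℕ} [Fact p.Prime] [Algebra (ZMod p) (ResidueField O)]
  {ρ : GQ →* GL (Fin 2) (ResidueField O)} {χ : GQ →* O}

/-- The trace ring exists. -/
theorem nonempty_model (hρ : TW.TWHyp p ρ) (L : Lifts ρ χ) : Nonempty (Model L) :=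
  nonempty_model_of hρ L

variable {L : Lifts ρ χ}

/-- The traces of Frobenius elements outside a finite set of primes generate. -/
theorem adjoin_trace_frobenius (M : Model L) (B : Finset Nat.Primes) :
    Algebra.adjoin O {x : M.R | ∃ (ℓ : Nat.Primes) (A : ValuationSubring Qb) (φ : GQ),
      ℓ ∉ B ∧ A.LiesOverPrime (ℓ : ℕ) ∧ A.IsFrobeniusAt φ (ℓ : ℕ) ∧
        x = Matrix.trace (M.rho φ)} = ⊤ := by
  exact M.adjoin_trace_eq_top B

variable {I : Type} [Fintype I]

/-- The framed surjection, strict at `p`. -/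
theorem exists_surjection_strict (hρ : TW.TWHyp p ρ) (Fr : Frames p ρ I)
    (hρunr : ∀ ℓ : Nat.Primes, ℓ ∉ Fr.support → ∀ A : ValuationSubring Qb,
      A.LiesOverPrime (ℓ : ℕ) → ∀ g ∈ A.inertiaSubgroupIn ℚ, ρ g = 1)
    (Q : Finset Nat.Primes) (hQ : TW.IsTWSet ρ p Fr.support 1 Q)
    (M : Model L) (hunr : L.UnramifiedOutside Fr Q)
    {A : ValuationSubring Qb} (hA : A.LiesOverPrime p)
    (hstrict : ∀ i, IsStrictPoint χ (L.r i) A)
    (D : LocalRings.Datum O I) (hD : DatumLifts Fr D) :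
    ∃ π : LocalRings.Ambient O I Q.card →ₐ[O] MvPowerSeries (I × Fin 3) M.R,
      Function.Surjective π ∧ IsFramedMap M Fr D Q.card π :=
  exists_surjection_strict_of hρ Fr hρunr Q hQ M hunr hA hstrict D hD

/-- The framed surjection, flat at `p`. -/
theorem exists_surjection_flat (hρ : TW.TWHyp p ρ) (Fr : Frames p ρ I)
    (hρunr : ∀ ℓ : Nat.Primes, ℓ ∉ Fr.support → ∀ A : ValuationSubring Qb,
      A.LiesOverPrime (ℓ : ℕ) → ∀ g ∈ A.inertiaSubgroupIn ℚ, ρ g = 1)
    (Q : Finset Nat.Primes) (hQ : TW.IsTWSet ρ p Fr.support 1 Q)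
    (M : Model L) (hunr : L.UnramifiedOutside Fr Q)
    (hflat : ∀ i, (DefRing.toAdic (L.r i) (L.cont i)).IsFlatAt p)
    (D : LocalRings.Datum O I) (hD : DatumLifts Fr D) :
    ∃ π : LocalRings.Ambient O I Q.card →ₐ[O] MvPowerSeries (I × Fin 3) M.R,
      Function.Surjective π ∧ IsFramedMap M Fr D Q.card π :=
  exists_surjection_flat_of hρ Fr hρunr Q hQ M hunr hflat D hD

/-- The framed surjection, flat ordinary at `p`: one generator fewer modulo `u - η`. -/
theorem exists_surjection_flat_unitRoot (hρ : TW.TWHyp p ρ) (Fr : Frames p ρ I)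
    (hρunr : ∀ ℓ : Nat.Primes, ℓ ∉ Fr.support → ∀ A : ValuationSubring Qb,
      A.LiesOverPrime (ℓ : ℕ) → ∀ g ∈ A.inertiaSubgroupIn ℚ, ρ g = 1)
    (Q : Finset Nat.Primes) (hQ : TW.IsTWSet ρ p Fr.support 1 Q)
    (M : Model L) (hunr : L.UnramifiedOutside Fr Q)
    (hflat : ∀ i, (DefRing.toAdic (L.r i) (L.cont i)).IsFlatAt p)
    (hχ : ∀ σ, residue O (χ σ) =
      algebraMap (ZMod p) (ResidueField O) (ExtCitation.cycloChar p σ : ZMod p))
    {A : ValuationSubring Qb} (hA : A.LiesOverPrime p) {φ : GQ} (hφ : A.IsFrobeniusAt φ p)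
    (u : M.R) (hord : ∀ i, IsOrdPoint (L.r i) A φ (M.pt i u)) (η : O)
    (D : LocalRings.Datum O I) (hD : DatumLifts Fr D) (rv : ℕ) (hrv : rv + 1 = Q.card) :
    ∃ π : LocalRings.Ambient O I rv →ₐ[O] MvPowerSeries (I × Fin 3) M.R,
      IsFramedMap M Fr D rv π ∧
      ∀ y, ∃ x c, y = π x + c * MvPowerSeries.C (u - algebraMap O M.R η) :=
  exists_surjection_flat_unitRoot_of hρ Fr hρunr Q hQ M hunr hflat hχ hA hφ u hord η D hD rv hrv

/-- The framed surjection with no condition at `p`: `e` more generators, `e` depending only on the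
residual data. -/
theorem exists_surjection_any (hρ : TW.TWHyp p ρ) (Fr : Frames p ρ I)
    (hρunr : ∀ ℓ : Nat.Primes, ℓ ∉ Fr.support → ∀ A : ValuationSubring Qb,
      A.LiesOverPrime (ℓ : ℕ) → ∀ g ∈ A.inertiaSubgroupIn ℚ, ρ g = 1) :
    ∃ e : ℕ, ∀ (Q : Finset Nat.Primes), TW.IsTWSet ρ p Fr.support 1 Q →
      ∀ (L : Lifts ρ χ) (M : Model L), L.UnramifiedOutside Fr Q →
      ∀ (D : LocalRings.Datum O I), DatumLifts Fr D →
      ∃ π : LocalRings.Ambient O I (Q.card + e) →ₐ[O] MvPowerSeries (I × Fin 3) M.R,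
        Function.Surjective π ∧ IsFramedMap M Fr D (Q.card + e) π :=
  exists_surjection_any_of hρ Fr hρunr

end

end FermatAgent.RTLift.Galois
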