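import Fermat.Agent.DefRing.MatrixRep

/-!
# The normal form of a representation with respect to an involution of determinant `-1`
-/

set_option autoImplicit false

open IsLocalRing Matrix

namespace FermatAgent.RTLift.Galois

noncomputable section

variable {G : Type} [Group G] {S T : Type} [CommRing S] [CommRing T]

/-- The upper left entry from the trace. -/
def nfA (t : G → S) (half : S) (c σ : G) : S := half * (t σ + t (c * σ))

/-- The lower right entry from the trace. -/
def nfD (t : G → S) (half : S) (c σ : G) : S := half * (t σ - t (c * σ))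

/-- The product of the upper right entry at `h₁` and the lower left one at `h₂`. -/
def nfU (t : G → S) (half : S) (c h₁ h₂ : G) : S :=
  nfA t half c (h₁ * h₂) - nfA t half c h₁ * nfA t half c h₂

/-- The normal form, `w` being an inverse of `nfU`. -/
def nfMat (t : G → S) (half w : S) (c h₁ h₂ σ : G) : Matrix (Fin 2) (Fin 2) S :=
  !![nfA t half c σ, nfU t half c σ h₂ * w; nfU t half c h₁ σ, nfD t half c σ]

theorem map_nfU (φ : S →+* T) (t : G → S) (half : S) (c h₁ h₂ : G) :
    φ (nfU t half c h₁ h₂) = nfU (fun σ => φ (t σ)) (φ half) c h₁ h₂ := by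
  simp [nfU, nfA]

theorem map_nfMat (φ : S →+* T) (t : G → S) (half w : S) (c h₁ h₂ σ : G) :
    (nfMat t half w c h₁ h₂ σ).map φ =
      nfMat (fun σ => φ (t σ)) (φ half) (φ w) c h₁ h₂ σ := by
  ext i j
  fin_cases i <;> fin_cases j <;> simp [nfMat, nfU, nfA, nfD]

/-- Twice the determinant from traces. -/
theorem two_mul_det (M : Matrix (Fin 2) (Fin 2) S) :
    2 * M.det = Matrix.trace M * Matrix.trace M - Matrix.trace (M * M) := by
  simp [Matrix.det_fin_two, Matrix.trace_fin_two, Matrix.mul_apply, Fin.sum_univ_two]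
  ring

/-- An idempotent of trace one over a local ring has a basis of eigenvectors. -/
theorem exists_eigenbasis [IsLocalRing S] (e : Matrix (Fin 2) (Fin 2) S) (htr : Matrix.trace e = 1)
    (hdet : e.det = 0) :
    ∃ P : Matrix (Fin 2) (Fin 2) S, IsUnit P.det ∧ e * P = P * !![1, 0; 0, 0] := by
  rw [trace_fin_two] at htr
  rw [det_fin_two] at hdet
  rcases IsLocalRing.isUnit_or_isUnit_of_add_one htr with h | h
  · refine ⟨!![e 0 0, -e 0 1; e 1 0, e 0 0], ?_, ?_⟩
    · rw [show (!![e 0 0, -e 0 1; e 1 0, e 0 0] : Matrix (Fin 2) (Fin 2) S).det = e 0 0 by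
        rw [det_fin_two_of]; linear_combination (e 0 0) * htr - hdet]
      exact h
    · ext i j
      fin_cases i <;> fin_cases j <;> simp [Matrix.mul_apply, Fin.sum_univ_two]
      · linear_combination (e 0 0) * htr - hdet
      · ring
      · linear_combination (e 1 0) * htr
      · linear_combination hdet
  · refine ⟨!![e 0 1, -e 1 1; e 1 1, e 1 0], ?_, ?_⟩
    · rw [show (!![e 0 1, -e 1 1; e 1 1, e 1 0] : Matrix (Fin 2) (Fin 2) S).det = e 1 1 by
        rw [det_fin_two_of]; linear_combination (e 1 1) * htr - hdet]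
      exact h
    · ext i j
      fin_cases i <;> fin_cases j <;> simp [Matrix.mul_apply, Fin.sum_univ_two]
      · linear_combination (e 0 1) * htr
      · linear_combination -hdet
      · linear_combination (e 1 1) * htr - hdet
      · ring

/-- An involution of trace zero becomes `diag (1, -1)` in a suitable basis. -/
theorem exists_conj_diag [IsLocalRing S] (r : G →* Matrix (Fin 2) (Fin 2) S) {half : S}
    (hhalf : 2 * half = 1) {c : G} (hcc : c * c = 1) (htr : Matrix.trace (r c) = 0) :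
    ∃ (N : G →* Matrix (Fin 2) (Fin 2) S) (P : Matrix (Fin 2) (Fin 2) S), IsUnit P.det ∧
      (∀ σ, r σ * P = P * N σ) ∧ (∀ σ, Matrix.trace (N σ) = Matrix.trace (r σ)) ∧
      N c = !![1, 0; 0, -1] := by
  set M := r c
  have hM : M * M = 1 := by rw [← map_mul, hcc, map_one]
  set e := half • (1 + M)
  have hetr : Matrix.trace e = 1 := by
    rw [Matrix.trace_smul, Matrix.trace_add, Matrix.trace_one, htr, add_zero, Fintype.card_fin,
      smul_eq_mul, Nat.cast_ofNat, mul_comm, hhalf]
  have hdM : M.det = -1 := by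
    have h := two_mul_det M
    rw [hM, htr, Matrix.trace_one, Fintype.card_fin, Nat.cast_ofNat] at h
    calc M.det = half * (2 * M.det) := by rw [← mul_assoc, mul_comm half, hhalf, one_mul]
      _ = -(2 * half) := by rw [h]; ring
      _ = -1 := by rw [hhalf]
  have hedet : e.det = 0 := by
    rw [Matrix.det_smul, Fintype.card_fin]
    rw [trace_fin_two] at htr
    rw [det_fin_two] at hdM
    rw [det_fin_two]
    simp
    linear_combination half ^ 2 * htr + half ^ 2 * hdM
  obtain ⟨P, hP, hPe⟩ := exists_eigenbasis e hetr hedet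
  have hPP : P * P⁻¹ = 1 := Matrix.mul_nonsing_inv _ hP
  have hP'P : P⁻¹ * P = 1 := Matrix.nonsing_inv_mul _ hP
  let N : G →* Matrix (Fin 2) (Fin 2) S :=
    { toFun := fun σ => P⁻¹ * r σ * P
      map_one' := by rw [map_one, mul_one, hP'P]
      map_mul' := fun σ τ => by
        rw [map_mul]
        simp only [mul_assoc, Matrix.mul_nonsing_inv_cancel_left _ _ hP] }
  refine ⟨N, P, hP, fun σ => ?_, fun σ => ?_, ?_⟩
  · show r σ * P = P * (P⁻¹ * r σ * P)
    rw [← mul_assoc, ← mul_assoc, hPP, one_mul]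
  · show Matrix.trace (P⁻¹ * r σ * P) = _
    rw [Matrix.trace_mul_comm, ← mul_assoc, hPP, one_mul]
  · have hMe : M = (2 : S) • e - 1 := by
      rw [smul_smul, hhalf, one_smul, add_sub_cancel_left]
    show P⁻¹ * M * P = _
    rw [hMe, Matrix.mul_sub, Matrix.sub_mul, mul_one, Matrix.mul_smul, Matrix.smul_mul, mul_assoc,
      hPe, ← mul_assoc, hP'P, one_mul]
    ext i j
    fin_cases i <;> fin_cases j <;> norm_num [Matrix.one_apply]

/-- The entries from the traces when `c` is `diag (1, -1)`. -/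
theorem nf_entries (N : G →* Matrix (Fin 2) (Fin 2) S) {half : S} (hhalf : 2 * half = 1) {c : G}
    (hNc : N c = !![1, 0; 0, -1]) :
    (∀ σ, N σ 0 0 = nfA (fun g => Matrix.trace (N g)) half c σ ∧
      N σ 1 1 = nfD (fun g => Matrix.trace (N g)) half c σ) ∧
    ∀ σ τ, N σ 0 1 * N τ 1 0 = nfU (fun g => Matrix.trace (N g)) half c σ τ := by
  have hA : ∀ σ, N σ 0 0 = nfA (fun g => Matrix.trace (N g)) half c σ ∧
      N σ 1 1 = nfD (fun g => Matrix.trace (N g)) half c σ := by
    intro σ
    have e1 : Matrix.trace (N σ) = N σ 0 0 + N σ 1 1 := trace_fin_two _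
    have e2 : Matrix.trace (N (c * σ)) = N σ 0 0 - N σ 1 1 := by
      rw [map_mul, hNc, trace_fin_two]
      simp [Matrix.mul_apply, Fin.sum_univ_two]
      ring
    constructor
    · calc N σ 0 0 = (2 * half) * N σ 0 0 := by rw [hhalf, one_mul]
        _ = half * ((N σ 0 0 + N σ 1 1) + (N σ 0 0 - N σ 1 1)) := by ring
        _ = _ := by rw [nfA, e1, e2]
    · calc N σ 1 1 = (2 * half) * N σ 1 1 := by rw [hhalf, one_mul]
        _ = half * ((N σ 0 0 + N σ 1 1) - (N σ 0 0 - N σ 1 1)) := by ring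
        _ = _ := by rw [nfD, e1, e2]
  refine ⟨hA, fun σ τ => ?_⟩
  rw [nfU, ← (hA _).1, ← (hA _).1, ← (hA _).1, map_mul, Matrix.mul_apply, Fin.sum_univ_two]
  ring

/-- The normal form of a representation. -/
theorem exists_conj_nfMat [IsLocalRing S] (r : G →* Matrix (Fin 2) (Fin 2) S) {half : S}
    (hhalf : 2 * half = 1) {c : G} (hcc : c * c = 1) (htr : Matrix.trace (r c) = 0)
    {h₁ h₂ : G} {w : S}
    (hw : nfU (fun σ => Matrix.trace (r σ)) half c h₁ h₂ * w = 1) :
    ∃ P : Matrix (Fin 2) (Fin 2) S, IsUnit P.det ∧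
      ∀ σ, r σ * P = P * nfMat (fun σ => Matrix.trace (r σ)) half w c h₁ h₂ σ := by
  obtain ⟨N, P, hP, e1, hNtr, hNc⟩ := exists_conj_diag r hhalf hcc htr
  obtain ⟨hA, hU⟩ := nf_entries N hhalf hNc
  simp only [hNtr] at hA hU
  set β := N h₁ 0 1
  set γ := N h₂ 1 0
  have hβγ : β * γ * w = 1 := by rw [hU]; exact hw
  refine ⟨P * !![β, 0; 0, 1], ?_, fun σ => ?_⟩
  · rw [Matrix.det_mul, det_fin_two_of]
    simp only [mul_one, mul_zero, sub_zero]
    exact hP.mul (IsUnit.of_mul_eq_one (γ * w) (by rw [← mul_assoc, hβγ]))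
  · rw [← mul_assoc, e1, mul_assoc P (N σ), mul_assoc P]
    congr 1
    ext i j
    fin_cases i <;> fin_cases j <;>
      simp [nfMat, Matrix.mul_apply, Fin.sum_univ_two, ← (hA σ).1, ← (hA σ).2, ← hU]
    · ring
    · linear_combination -(N σ 0 1) * hβγ
    · ring

/-- Two elements at which the off diagonal product is nonzero, if no line is fixed. -/
theorem exists_nfU_ne_zero {K : Type} [Field K] (r : G →* Matrix (Fin 2) (Fin 2) K) {half : K}
    (hhalf : 2 * half = 1) {c : G} (hcc : c * c = 1) (htr : Matrix.trace (r c) = 0)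
    (hirr : ∀ v : Fin 2 → K, v ≠ 0 → ∃ σ, ∀ x : K, r σ *ᵥ v ≠ x • v) :
    ∃ h₁ h₂, nfU (fun σ => Matrix.trace (r σ)) half c h₁ h₂ ≠ 0 := by
  obtain ⟨N, P, hP, e1, hNtr, hNc⟩ := exists_conj_diag r hhalf hcc htr
  obtain ⟨-, hU⟩ := nf_entries N hhalf hNc
  simp only [hNtr] at hU
  have hkey : ∀ (i j : Fin 2), i ≠ j → ∃ σ, N σ i j ≠ 0 := by
    intro i j hij
    have hv : P *ᵥ Pi.single j 1 ≠ 0 := fun h => one_ne_zero (α := K) <| by
      have h2 := congrFun (congrArg (fun u => P⁻¹ *ᵥ u) h) j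
      simp only [mulVec_mulVec, Matrix.nonsing_inv_mul _ hP, one_mulVec, mulVec_zero] at h2
      simp at h2
    obtain ⟨σ, hσ⟩ := hirr _ hv
    refine ⟨σ, fun h0 => hσ (N σ j j) ?_⟩
    have h3 : N σ *ᵥ Pi.single j 1 = N σ j j • Pi.single j (1 : K) := by
      ext l
      rw [mulVec_single_one]
      by_cases hl : l = j
      · subst hl; simp
      · have hli : l = i := by omega
        subst hli
        simp [h0, Pi.single_eq_of_ne hl]
    rw [mulVec_mulVec, e1, ← mulVec_mulVec, h3, mulVec_smul]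
  obtain ⟨h₁, h1⟩ := hkey 0 1 (by decide)
  obtain ⟨h₂, h2⟩ := hkey 1 0 (by decide)
  exact ⟨h₁, h₂, by rw [← hU]; exact mul_ne_zero h1 h2⟩

end

end FermatAgent.RTLift.Galois
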