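import Fermat.Agent.RTLift.Galois.FrameUnitRoot
import Fermat.Agent.RTLift.Galois.Normal

/-!
# A basis of a model in which an ordinary family is triangular at `p`
-/

set_option autoImplicit false

open IsLocalRing Matrix

namespace FermatAgent.RTLift.Galois

noncomputable section

local notation "Qb" => AlgebraicClosure ℚ
local notation "GQ" => AlgebraicClosure ℚ ≃ₐ[ℚ] AlgebraicClosure ℚ

theorem qcoord_mulVec {S : Type} [CommRing S] (Q : Matrix (Fin 2) (Fin 2) S) (u v : Fin 2 → S) :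
    qcoord (Q *ᵥ u) (Q *ᵥ v) = Q.det * qcoord u v := by
  simp [qcoord, Matrix.mulVec, dotProduct, Fin.sum_univ_two, det_fin_two]
  ring

/-- The line of a point in a basis where an element of inertia is `diag (b, 1)`, `b ≠ 1`. -/
theorem line_eq_of_diag {S : Type} [CommRing S] [IsDomain S] {Q A A' B : Matrix (Fin 2) (Fin 2) S}
    (hQ : IsUnit Q.det) (hA : A * Q = Q * A') {b : S} (hb : b ≠ 1)
    (hB : B * Q = Q * !![b, 0; 0, 1]) {w : Fin 2 → S} (hw : w ≠ 0)
    (hBw : ∀ v, qcoord w (B *ᵥ v) = qcoord w v) (hs : qcoord w (A *ᵥ w) = 0) :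
    A' 1 0 = 0 ∧ (∀ x : S, A *ᵥ w = x • w → A' 0 0 = x) ∧
      (∀ z : S, (∀ v, qcoord w (A *ᵥ v) = z * qcoord w v) → A' 1 1 = z) := by
  obtain ⟨u, rfl⟩ : ∃ u, Q *ᵥ u = w := ⟨Q⁻¹ *ᵥ w, by
    rw [Matrix.mulVec_mulVec, Matrix.mul_nonsing_inv _ hQ, Matrix.one_mulVec]⟩
  have hB' : ∀ v, qcoord u (!![b, 0; 0, 1] *ᵥ v) = qcoord u v := fun v => by
    have h := hBw (Q *ᵥ v)
    rw [Matrix.mulVec_mulVec, hB, ← Matrix.mulVec_mulVec, qcoord_mulVec, qcoord_mulVec] at h
    exact mul_left_cancel₀ hQ.ne_zero h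
  have hu1 : u 1 = 0 := by
    have h := hB' ![1, 0]
    simp [qcoord, Matrix.mulVec, dotProduct, Fin.sum_univ_two] at h
    by_contra hne
    exact hb (mul_left_cancel₀ hne (by linear_combination h))
  have hu0 : u 0 ≠ 0 := fun h0 => hw (by
    rw [show u = 0 from funext fun i => by fin_cases i <;> simp [h0, hu1]]
    exact Matrix.mulVec_zero Q)
  have hAv : ∀ v, A *ᵥ (Q *ᵥ v) = Q *ᵥ (A' *ᵥ v) := fun v => by
    rw [Matrix.mulVec_mulVec, hA, ← Matrix.mulVec_mulVec]
  refine ⟨?_, fun x hx => ?_, fun z hz => ?_⟩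
  · rw [hAv, qcoord_mulVec, mul_eq_zero] at hs
    have h := hs.resolve_left hQ.ne_zero
    simp [qcoord, Matrix.mulVec, dotProduct, Fin.sum_univ_two, hu1, hu0] at h
    exact h
  · rw [hAv, ← Matrix.mulVec_smul] at hx
    have h := congrFun (congrArg (Q⁻¹ *ᵥ ·) hx) 0
    simp only [Matrix.mulVec_mulVec, ← mul_assoc, Matrix.nonsing_inv_mul _ hQ, one_mul,
      Matrix.one_mulVec] at h
    simp [Matrix.mulVec, dotProduct, Fin.sum_univ_two, hu1] at h
    exact h.resolve_right hu0
  · have h := hz (Q *ᵥ ![0, 1])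
    rw [hAv, qcoord_mulVec, qcoord_mulVec] at h
    have h' : qcoord u (A' *ᵥ ![0, 1]) = z * qcoord u ![0, 1] :=
      mul_left_cancel₀ hQ.ne_zero (by linear_combination h)
    simp [qcoord, Matrix.mulVec, dotProduct, Fin.sum_univ_two, hu1] at h'
    exact mul_left_cancel₀ hu0 (by linear_combination h')

variable {O : Type} [CommRing O] [IsLocalRing O] {p : ℕ} [Fact p.Prime]
  [Algebra (ZMod p) (ResidueField O)]
  {ρ : GQ →* GL (Fin 2) (ResidueField O)} {χ : GQ →* O} {L : Lifts ρ χ}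

/-- An element of inertia with `χ ≢ 1`. -/
theorem exists_inertia_unit (hp2 : p ≠ 2) {A : ValuationSubring Qb} (hA : A.LiesOverPrime p)
    (hχ : ∀ σ, residue O (χ σ) =
      algebraMap (ZMod p) (ResidueField O) (ExtCitation.cycloChar p σ : ZMod p)) :
    ∃ t ∈ A.inertiaSubgroupIn ℚ, IsUnit (χ t - 1) := by
  obtain ⟨t, ht, htc⟩ := TW.Flat.exists_inertia_cycloChar (p := p) hA (-1)
  refine ⟨t, ht, ?_⟩
  rw [← residue_ne_zero_iff_isUnit, map_sub, map_one, hχ, htc, Units.val_neg, Units.val_one,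
    map_neg, map_one, show (-1 : ResidueField O) - 1 = -2 by ring, neg_ne_zero]
  exact TW.two_ne_zero_of hp2

/-- A basis in which a family with stable lines and inertia trivial on the quotients is triangular
at `p`; the diagonal is read off at the points. -/
theorem Model.exists_triangular (M : Model L) (hp2 : p ≠ 2) {A : ValuationSubring Qb}
    (hA : A.LiesOverPrime p) (hχ : ∀ σ, residue O (χ σ) =
      algebraMap (ZMod p) (ResidueField O) (ExtCitation.cycloChar p σ : ZMod p))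
    (w : ∀ i, Fin 2 → L.S i) (hw : ∀ i, w i ≠ 0)
    (hI : ∀ i, ∀ g ∈ A.inertiaSubgroupIn ℚ, ∀ v, qcoord (w i) (L.r i g *ᵥ v) = qcoord (w i) v)
    (hstab : ∀ i, ∀ g ∈ A.decompositionSubgroup ℚ, qcoord (w i) (L.r i g *ᵥ w i) = 0) :
    ∃ (P : Matrix (Fin 2) (Fin 2) M.R) (N : GQ →* Matrix (Fin 2) (Fin 2) M.R),
      IsUnit P.det ∧ (∀ g, M.rho g * P = P * N g) ∧
      (∀ g ∈ A.decompositionSubgroup ℚ, N g 1 0 = 0) ∧
      (∀ g ∈ A.inertiaSubgroupIn ℚ, N g 1 1 = 1) ∧
      (∀ i g (x : L.S i), g ∈ A.decompositionSubgroup ℚ → L.r i g *ᵥ w i = x • w i →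
        M.pt i (N g 0 0) = x) ∧
      ∀ i g (z : L.S i), g ∈ A.decompositionSubgroup ℚ →
        (∀ v, qcoord (w i) (L.r i g *ᵥ v) = z * qcoord (w i) v) → M.pt i (N g 1 1) = z := by
  obtain ⟨t, ht, hu⟩ := exists_inertia_unit (χ := χ) hp2 hA hχ
  have htd := FermatAgent.Local.mem_decomposition_of_inertia ht
  obtain ⟨d, hd⟩ := hu.exists_right_inv
  set c := algebraMap O M.R (χ t)
  set d' := algebraMap O M.R d
  have hd' : (c - 1) * d' = 1 := by rw [← map_one (algebraMap O M.R), ← map_sub, ← map_mul, hd]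
  have htr : Matrix.trace (M.rho t) = 1 + c := M.pt_injective _ _ fun i => by
    have h := root_of_qcoord (hw i) (z := 1) fun v => by rw [hI i t ht v, one_mul]
    rw [L.det_eq] at h
    rw [M.pt_trace, map_add, map_one, AlgHom.commutes]
    linear_combination -h
  have hdet : (M.rho t).det = c := M.det_eq t
  rw [trace_fin_two] at htr
  rw [det_fin_two] at hdet
  let e := d' • (M.rho t - 1)
  have hetr : Matrix.trace e = 1 := by
    simp [e, trace_fin_two]
    linear_combination hd' + d' * htr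
  have hedet : e.det = 0 := by
    simp [e, det_fin_two]
    linear_combination d' * d' * hdet - d' * d' * htr
  obtain ⟨P, hP, hPe⟩ := exists_eigenbasis e hetr hedet
  let N : GQ →* Matrix (Fin 2) (Fin 2) M.R :=
    { toFun := fun g => P⁻¹ * M.rho g * P
      map_one' := by rw [map_one, mul_one, Matrix.nonsing_inv_mul _ hP]
      map_mul' := fun g h => by
        simp only [map_mul, mul_assoc, Matrix.mul_nonsing_inv_cancel_left _ _ hP] }
  have hN : ∀ g, M.rho g * P = P * N g := fun g => by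
    show _ = P * (P⁻¹ * M.rho g * P)
    rw [mul_assoc P⁻¹, Matrix.mul_nonsing_inv_cancel_left _ _ hP]
  have hNt : N t = !![c, 0; 0, 1] := by
    have h1 : M.rho t = (c - 1) • e + 1 := by
      rw [smul_smul, hd', one_smul, sub_add_cancel]
    show P⁻¹ * M.rho t * P = _
    rw [h1, Matrix.mul_add, Matrix.add_mul, mul_one, Matrix.nonsing_inv_mul _ hP, Matrix.mul_smul,
      Matrix.smul_mul, mul_assoc, hPe, ← mul_assoc, Matrix.nonsing_inv_mul _ hP, one_mul]
    ext a b
    fin_cases a <;> fin_cases b <;> simp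
  choose Q₀ hQ₀ hQr using M.pt_conj
  let Q : ∀ i, Matrix (Fin 2) (Fin 2) (L.S i) := fun i => Q₀ i * P.map (M.pt i)
  have hQ : ∀ i, IsUnit (Q i).det := fun i => by
    rw [Matrix.det_mul, show (P.map (M.pt i)).det = M.pt i P.det from ((M.pt i).map_det P).symm]
    exact (hQ₀ i).mul (hP.map _)
  have hrQ : ∀ i g, L.r i g * Q i = Q i * (N g).map (M.pt i) := fun i g => by
    show L.r i g * (Q₀ i * _) = Q₀ i * _ * _
    rw [← mul_assoc, ← hQr, mul_assoc, mul_assoc]
    congr 1
    have e := congrArg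
      (fun X : Matrix (Fin 2) (Fin 2) M.R => X.map (M.pt i : M.R →+* L.S i)) (hN g)
    simp only [Matrix.map_mul] at e
    exact e
  have hcb : ∀ i, M.pt i c ≠ 1 := fun i h => by
    have h1 := congrArg (M.pt i) hd'
    rw [map_mul, map_sub, map_one, h, sub_self, zero_mul] at h1
    exact zero_ne_one h1
  have hdiag : ∀ i, L.r i t * Q i = Q i * !![M.pt i c, 0; 0, 1] := fun i => by
    rw [hrQ, hNt]
    congr 1
    ext a b
    fin_cases a <;> fin_cases b <;> simp
  have key := fun i g (hg : g ∈ A.decompositionSubgroup ℚ) =>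
    line_eq_of_diag (hQ i) (hrQ i g) (hcb i) (hdiag i) (hw i) (hI i t ht) (hstab i g hg)
  exact ⟨P, N, hP, hN,
    fun g hg => M.pt_injective _ _ fun i => by rw [map_zero]; exact (key i g hg).1,
    fun g hg => M.pt_injective _ _ fun i => by
      rw [map_one]
      exact (key i g (FermatAgent.Local.mem_decomposition_of_inertia hg)).2.2 1
        fun v => by rw [hI i g hg v, one_mul],
    fun i g x hg hx => (key i g hg).2.1 x hx,
    fun i g z hg hz => (key i g hg).2.2 z hz⟩

end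

end FermatAgent.RTLift.Galois
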