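import Fermat.Agent.RTLift.Galois.Defs
import Fermat.Agent.TW.Decomposition
import Fermat.Agent.TW.Flat.TameChar

/-!
# Strict points from the toric relation

A representation with `(r σ - χ σ) (r τ - 1) = 0` for `τ` in inertia and `σ` in inertia or the
square of a Frobenius element is strict.
-/

set_option autoImplicit false

open IsLocalRing Matrix

namespace FermatAgent.RTLift.Galois

noncomputable section

local notation "Qb" => AlgebraicClosure ℚ
local notation "GQ" => AlgebraicClosure ℚ ≃ₐ[ℚ] AlgebraicClosure ℚ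

attribute [local instance] RT.isGalois_algClosureRat

section Line

variable {S : Type} [CommRing S] [IsDomain S]

/-- A nonzero vector is a multiple of one with a coordinate equal to one. -/
theorem exists_primitive [ValuationRing S] {u : Fin 2 → S} (hu : u ≠ 0) :
    ∃ (a : S) (w : Fin 2 → S) (i : Fin 2), a ≠ 0 ∧ u = a • w ∧ w i = 1 := by
  rcases ValuationRing.dvd_total (u 0) (u 1) with ⟨c, hc⟩ | ⟨c, hc⟩
  · refine ⟨u 0, ![1, c], 0, fun h => hu ?_, funext fun j => ?_, rfl⟩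
    · funext j; fin_cases j <;> simp [h, hc]
    · fin_cases j <;> simp [hc]
  · refine ⟨u 1, ![c, 1], 1, fun h => hu ?_, funext fun j => ?_, rfl⟩
    · funext j; fin_cases j <;> simp [h, hc]
    · fin_cases j <;> simp [hc]

omit [IsDomain S] in
/-- A vector on the line of a primitive vector is a multiple of it. -/
theorem eq_smul_of_qcoord {w y : Fin 2 → S} {i : Fin 2} (hi : w i = 1) (h : qcoord w y = 0) :
    y = y i • w := by
  unfold qcoord at h
  funext j
  fin_cases i <;> fin_cases j <;> simp_all <;>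
    first | linear_combination h | linear_combination -h

omit [IsDomain S] in
theorem qcoord_mulVec₂ (Q : Matrix (Fin 2) (Fin 2) S) (u v : Fin 2 → S) :
    qcoord (Q *ᵥ u) (Q *ᵥ v) = Q.det * qcoord u v := by
  simp [qcoord, Matrix.mulVec, dotProduct, Fin.sum_univ_two, det_fin_two]
  ring

/-- An eigenvector for `det`, with `det ≠ 1`, spans the line of all such eigenvectors. -/
theorem qcoord_eq_zero_of_eigen {M : Matrix (Fin 2) (Fin 2) S} {w y : Fin 2 → S}
    (h0 : M.det ≠ 0) (h1 : M.det ≠ 1) (hw : M *ᵥ w = M.det • w) (hy : M *ᵥ y = M.det • y) :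
    qcoord w y = 0 := by
  have h := qcoord_mulVec₂ M w y
  rw [hw, hy] at h
  have h' : (M.det * (M.det - 1)) * qcoord w y = 0 := by
    simp only [qcoord, Pi.smul_apply, smul_eq_mul] at h ⊢
    linear_combination h
  exact (mul_eq_zero.mp h').resolve_left (mul_ne_zero h0 (sub_ne_zero.mpr h1))

end Line

/-- **A point satisfying the toric relation is strict.** -/
theorem isStrictPoint_of_rel {O S : Type} [CommRing O] [CommRing S] [IsDomain S]
    [IsDiscreteValuationRing S] [Algebra O S] {p : ℕ} [Fact p.Prime] {χ : GQ →* O}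
    {r : GQ →* Matrix (Fin 2) (Fin 2) S} (hc : DefRing.IsCont r)
    (hdet : ∀ σ, (r σ).det = algebraMap O S (χ σ)) {A : ValuationSubring Qb}
    (hA : A.LiesOverPrime p) {φ : GQ} (hφ : A.IsFrobeniusAt φ p) {σ₀ : GQ}
    (hσ₀ : σ₀ ∈ A.inertiaSubgroupIn ℚ) (h₀ : algebraMap O S (χ σ₀) ≠ 1)
    (hrel : ∀ σ, (σ ∈ A.inertiaSubgroupIn ℚ ∨ σ = φ * φ) → ∀ τ ∈ A.inertiaSubgroupIn ℚ,
      (r σ - algebraMap O S (χ σ) • 1) * (r τ - 1) = 0) :
    IsStrictPoint χ r A := by
  classical
  set c : GQ → S := fun σ => algebraMap O S (χ σ)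
  have hc0 : ∀ σ, c σ ≠ 0 := fun σ => IsUnit.ne_zero
    ((Group.isUnit σ).map ((algebraMap O S).toMonoidHom.comp χ))
  have hrel' : ∀ σ, (σ ∈ A.inertiaSubgroupIn ℚ ∨ σ = φ * φ) → ∀ τ ∈ A.inertiaSubgroupIn ℚ,
      ∀ v, r σ *ᵥ ((r τ - 1) *ᵥ v) = c σ • ((r τ - 1) *ᵥ v) := fun σ hσ τ hτ v => by
    have h := congrArg (· *ᵥ v) (hrel σ hσ τ hτ)
    simp only [← Matrix.mulVec_mulVec, Matrix.zero_mulVec] at h
    rwa [Matrix.sub_mulVec, Matrix.smul_mulVec, Matrix.one_mulVec, sub_eq_zero] at h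
  have hne : r σ₀ - 1 ≠ 0 := fun h => h₀ (by rw [← hdet, sub_eq_zero.mp h, det_one])
  obtain ⟨v₀, hv₀⟩ : ∃ v, (r σ₀ - 1) *ᵥ v ≠ 0 := by
    by_contra hcon
    push Not at hcon
    exact hne (Matrix.ext_of_mulVec_single fun i => by rw [hcon, Matrix.zero_mulVec])
  obtain ⟨a, w, i, ha, hu, hi⟩ := exists_primitive hv₀
  -- the eigenvector
  have heig : ∀ σ, (σ ∈ A.inertiaSubgroupIn ℚ ∨ σ = φ * φ) → r σ *ᵥ w = c σ • w := fun σ hσ => by
    have h := hrel' σ hσ σ₀ hσ₀ v₀
    rw [hu, Matrix.mulVec_smul, smul_comm] at h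
    exact smul_right_injective _ ha h
  have h₀' : (r σ₀).det ≠ 1 := (hdet σ₀).symm ▸ h₀
  have hw₀ : r σ₀ *ᵥ w = (r σ₀).det • w := by rw [hdet]; exact heig σ₀ (Or.inl hσ₀)
  have hline : ∀ y, r σ₀ *ᵥ y = (r σ₀).det • y → qcoord w y = 0 := fun y hy =>
    qcoord_eq_zero_of_eigen (hdet σ₀ ▸ hc0 σ₀) h₀' hw₀ hy
  refine ⟨w, fun h => one_ne_zero (hi.symm.trans (congrFun h i)), fun τ hτ v => ?_, ?_⟩
  · have h := hline ((r τ - 1) *ᵥ v) (by rw [hdet]; exact hrel' σ₀ (Or.inl hσ₀) τ hτ v)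
    rw [Matrix.sub_mulVec, Matrix.one_mulVec] at h
    simp only [qcoord, Pi.sub_apply] at h ⊢
    linear_combination h
  -- the decomposition group preserves the line
  have hD : ∀ g ∈ A.decompositionSubgroup ℚ, r g *ᵥ w = (r g *ᵥ w) i • w := fun g hg => by
    refine eq_smul_of_qcoord hi (hline _ ?_)
    have hj : g⁻¹ * σ₀ * g ∈ A.inertiaSubgroupIn ℚ := by
      have := TW.Flat.conj_mem_inertia' (inv_mem hg) hσ₀
      rwa [inv_inv] at this
    have hχ : c (g⁻¹ * σ₀ * g) = c σ₀ := by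
      have h1 : χ g⁻¹ * χ g = 1 := by rw [← map_mul, inv_mul_cancel, map_one]
      show algebraMap O S _ = algebraMap O S _
      rw [map_mul χ, map_mul χ, mul_right_comm, h1, one_mul]
    rw [Matrix.mulVec_mulVec, ← map_mul, show σ₀ * g = g * (g⁻¹ * σ₀ * g) by group, map_mul,
      ← Matrix.mulVec_mulVec, heig _ (Or.inl hj), hχ, Matrix.mulVec_smul, hdet]
  let X : GQ → S := fun g => (r g *ᵥ w) i
  have hXmul : ∀ g ∈ A.decompositionSubgroup ℚ, ∀ h ∈ A.decompositionSubgroup ℚ,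
      X (g * h) = X g * X h := fun g hg h hh => by
    show (r (g * h) *ᵥ w) i = _
    rw [map_mul, ← Matrix.mulVec_mulVec, hD h hh, Matrix.mulVec_smul, Pi.smul_apply, smul_eq_mul]
    exact mul_comm _ _
  have hX1 : X 1 = 1 := by
    show (r 1 *ᵥ w) i = 1
    rw [map_one, Matrix.one_mulVec, hi]
  have hXI : ∀ g, (g ∈ A.inertiaSubgroupIn ℚ ∨ g = φ * φ) → X g = c g := fun g hg => by
    show (r g *ᵥ w) i = _
    rw [heig g hg, Pi.smul_apply, hi, smul_eq_mul, mul_one]
  have hφD := hφ.mem_decompositionSubgroup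
  -- the square
  have hsq : ∀ g ∈ A.decompositionSubgroup ℚ, X g ^ 2 = c g ^ 2 := by
    intro g hg
    have hφsq : X φ ^ 2 = c φ ^ 2 := by
      rw [sq, ← hXmul φ hφD φ hφD, hXI _ (Or.inr rfl), sq]
      simp [c]
    have hpow : ∀ m : ℕ, X (φ ^ m) ^ 2 = c (φ ^ m) ^ 2 := by
      intro m
      induction m with
      | zero => simp [hX1, c]
      | succ m ih =>
        rw [pow_succ φ, hXmul _ (pow_mem hφD m) _ hφD, mul_pow, ih, hφsq]
        simp [c, mul_pow]
    refine sub_eq_zero.mp ?_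
    have hkr : ∀ n, X g ^ 2 - c g ^ 2 ∈ maximalIdeal S ^ n := fun n => by
      obtain ⟨L, hL, hLc⟩ := hc n
      let L' := IntermediateField.normalClosure ℚ L Qb
      have : FiniteDimensional ℚ L' := normalClosure.is_finiteDimensional ℚ _ Qb
      have : Normal ℚ L' := normalClosure.normal ℚ _ Qb
      obtain ⟨m, j, hj, hgj⟩ := TW.exists_frobenius_pow_mul (Fact.out : p.Prime) hA L' hφ hg
      have hjD : j ∈ A.decompositionSubgroup ℚ := Local.mem_decomposition_of_inertia hj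
      let π := Ideal.Quotient.mk (maximalIdeal S ^ n)
      have hr : (r g).map π = (r (φ ^ m * j)).map π := by
        have h1 : (r ((φ ^ m * j)⁻¹ * g)).map π = 1 := by
          ext a b
          have h := Ideal.Quotient.eq_zero_iff_mem.mpr
            (hLc ((φ ^ m * j)⁻¹ * g) (fun x hx => ?_) a b)
          · rw [Matrix.sub_apply, map_sub, sub_eq_zero] at h
            rw [Matrix.map_apply, h]
            rcases eq_or_ne a b with rfl | hab <;> simp [*]
          · rw [AlgEquiv.mul_apply, hgj x (L.le_normalClosure hx), ← AlgEquiv.mul_apply,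
              inv_mul_cancel, AlgEquiv.one_apply]
        conv_lhs => rw [show g = φ ^ m * j * ((φ ^ m * j)⁻¹ * g) by group, map_mul r,
          Matrix.map_mul, h1, mul_one]
      have hπ : ∀ h, π (X h ^ 2 - c h ^ 2) =
          ((r h).map π *ᵥ (π ∘ w)) i ^ 2 - ((r h).map π).det ^ 2 := fun h => by
        rw [map_sub, map_pow, map_pow, ← RingHom.map_mulVec, ← RingHom.mapMatrix_apply,
          ← RingHom.map_det, hdet]
      have h2 : X (φ ^ m * j) ^ 2 - c (φ ^ m * j) ^ 2 = 0 := by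
        rw [hXmul _ (pow_mem hφD m) _ hjD, mul_pow, hpow, hXI j (Or.inl hj)]
        simp [c, mul_pow]
      rw [← Ideal.Quotient.eq_zero_iff_mem, hπ, hr, ← hπ, h2, map_zero]
    have h := Ideal.iInf_pow_eq_bot_of_isLocalRing (maximalIdeal S) (maximalIdeal.isMaximal S).ne_top
    rw [← Ideal.mem_bot, ← h, Ideal.mem_iInf]
    exact hkr
  intro g hg
  have hinv : X g * X g⁻¹ = 1 := by
    rw [← hXmul g hg _ (inv_mem hg), mul_inv_cancel, hX1]
  refine ⟨X g, c g * X g⁻¹, hD g hg, fun v => ?_, ?_⟩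
  · have h : qcoord (r g *ᵥ w) (r g *ᵥ v) = (r g).det * qcoord w v :=
      qcoord_mulVec₂ _ _ _
    rw [hD g hg, hdet] at h
    have hg' : X g * qcoord w (r g *ᵥ v) = c g * qcoord w v := by
      simp only [qcoord, Pi.smul_apply, smul_eq_mul, X, c] at h ⊢
      linear_combination h
    linear_combination X g⁻¹ * hg' - qcoord w (r g *ᵥ v) * hinv
  · show X g = c g * (c g * X g⁻¹)
    linear_combination X g⁻¹ * hsq g hg - X g * hinv

end

end FermatAgent.RTLift.Galois
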