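import Fermat.Agent.RTLift.Galois.Tangent
import Fermat.Agent.RTLift.Galois.FrameCocycle
import Fermat.Agent.TW.TangentBound
import Fermat.Agent.TW.Surjection

/-!
# Presentations of the framed model
-/

set_option autoImplicit false
set_option linter.unusedSectionVars false

open IsLocalRing Matrix Module groupCohomology

namespace FermatAgent.RTLift.Galois

noncomputable section

local notation "Qb" => AlgebraicClosure ℚ
local notation "GQ" => AlgebraicClosure ℚ ≃ₐ[ℚ] AlgebraicClosure ℚ

variable {O : Type} [CommRing O] [IsDomain O] [IsDiscreteValuationRing O]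
  [IsAdicComplete (maximalIdeal O) O] [Finite (ResidueField O)]
  {p : ℕ} [Fact p.Prime] [Algebra (ZMod p) (ResidueField O)]
  {ρ : GQ →* GL (Fin 2) (ResidueField O)} {χ : GQ →* O} {L : Lifts ρ χ}
  {I : Type} [Fintype I]

/-- The values of the local variables. -/
def localVal (M : Model L) (Fr : Frames p ρ I) (D : LocalRings.Datum O I) (v : I × Fin 8) :
    MvPowerSeries (I × Fin 3) M.R :=
  ![Engine.framed v.1 (M.rho (Fr.frame v.1).frob) 0 0 - algebraMap O _ (D.Φ₀ v.1 0 0),
    Engine.framed v.1 (M.rho (Fr.frame v.1).frob) 0 1 - algebraMap O _ (D.Φ₀ v.1 0 1),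
    Engine.framed v.1 (M.rho (Fr.frame v.1).frob) 1 0 - algebraMap O _ (D.Φ₀ v.1 1 0),
    Engine.framed v.1 (M.rho (Fr.frame v.1).frob) 1 1 - algebraMap O _ (D.Φ₀ v.1 1 1),
    Engine.framed v.1 (M.rho (Fr.frame v.1).gen - 1) 0 0 - algebraMap O _ (D.n₀ v.1 0 0),
    Engine.framed v.1 (M.rho (Fr.frame v.1).gen - 1) 0 1 - algebraMap O _ (D.n₀ v.1 0 1),
    Engine.framed v.1 (M.rho (Fr.frame v.1).gen - 1) 1 0 - algebraMap O _ (D.n₀ v.1 1 0),
    Engine.framed v.1 (M.rho (Fr.frame v.1).gen - 1) 1 1 - algebraMap O _ (D.n₀ v.1 1 1)] v.2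

theorem localVal_idxΦ (M : Model L) (Fr : Frames p ρ I) (D : LocalRings.Datum O I) (i : I)
    (a b : Fin 2) : localVal M Fr D (i, LocalRings.idxΦ a b) =
      Engine.framed i (M.rho (Fr.frame i).frob) a b - algebraMap O _ (D.Φ₀ i a b) := by
  fin_cases a <;> fin_cases b <;> rfl

theorem localVal_idxN (M : Model L) (Fr : Frames p ρ I) (D : LocalRings.Datum O I) (i : I)
    (a b : Fin 2) : localVal M Fr D (i, LocalRings.idxN a b) =
      Engine.framed i (M.rho (Fr.frame i).gen - 1) a b - algebraMap O _ (D.n₀ i a b) := by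
  fin_cases a <;> fin_cases b <;> rfl

/-- A map sending the local variables to their values is framed. -/
theorem isFramedMap_of_eq (M : Model L) (Fr : Frames p ρ I) (D : LocalRings.Datum O I) {rv : ℕ}
    (π : LocalRings.Ambient O I rv →ₐ[O] MvPowerSeries (I × Fin 3) M.R)
    (h : ∀ v, π (MvPowerSeries.X (Sum.inl v)) = localVal M Fr D v) :
    IsFramedMap M Fr D rv π := by
  intro i
  constructor
  · ext a b : 1
    rw [Matrix.map_apply, LocalRings.Datum.frob, Matrix.of_apply, map_add, π.commutes, h,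
      localVal_idxΦ, add_sub_cancel]
  · ext a b : 1
    rw [Matrix.map_apply, LocalRings.Datum.mono, Matrix.of_apply, map_add, π.commutes, h,
      localVal_idxN, add_sub_cancel]

theorem map_framedPi_framed {M : Model L} {πR : M.R →ₐ[O] ResidueField O} (i : I)
    (X : Matrix (Fin 2) (Fin 2) M.R) :
    (Engine.framed i X).map (framedPi (I := I) πR) = X.map πR := by
  ext a b
  exact congrArg πR (congrFun (congrFun (Engine.constantCoeff_framed i X) a) b)

theorem framedPi_localVal {M : Model L} {πR : M.R →ₐ[O] ResidueField O}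
    (hres : ∀ σ, (M.rho σ).map πR = (ρ σ : Matrix (Fin 2) (Fin 2) (ResidueField O)))
    (Fr : Frames p ρ I) (D : LocalRings.Datum O I) (hD : DatumLifts Fr D) (v : I × Fin 8) :
    framedPi (I := I) πR (localVal M Fr D v) = 0 := by
  obtain ⟨i, l⟩ := v
  have h1 : ∀ (a b : Fin 2),
      framedPi (I := I) πR (Engine.framed i (M.rho (Fr.frame i).frob) a b) =
        residue O (D.Φ₀ i a b) := fun a b => by
    refine (congrFun (congrFun (map_framedPi_framed i _) a) b).trans ?_
    rw [hres]
    exact (congrFun (congrFun (hD i).1 a) b).symm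
  have h2 : ∀ (a b : Fin 2),
      framedPi (I := I) πR (Engine.framed i (M.rho (Fr.frame i).gen - 1) a b) =
        residue O (D.n₀ i a b) := fun a b => by
    refine (congrFun (congrFun (map_framedPi_framed i _) a) b).trans ?_
    rw [Matrix.map_sub _ (fun _ _ => map_sub _ _ _), hres,
      Matrix.map_one _ (map_zero _) (map_one _)]
    exact (congrFun (congrFun (hD i).2 a) b).symm
  fin_cases l <;> simp only [localVal] <;>
    exact ((map_sub _ _ _).trans (by rw [AlgHom.commutes]; first | (rw [h1]; exact sub_self _) |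
      (rw [h2]; exact sub_self _)))

theorem mem_maximalIdeal_of_framedPi {R : Type} [CommRing R] [IsLocalRing R] [Algebra O R]
    {πR : R →ₐ[O] ResidueField O} (hπR : ∀ x, πR x = 0 ↔ x ∈ maximalIdeal R)
    (x : MvPowerSeries (I × Fin 3) R) :
    framedPi (I := I) πR x = 0 ↔ x ∈ maximalIdeal (MvPowerSeries (I × Fin 3) R) := by
  rw [framedPi_apply, hπR, DefRing.mem_maximalIdeal_iff]

/-- A framed map with no condition. -/
theorem exists_framedMap (M : Model L) (Fr : Frames p ρ I) (D : LocalRings.Datum O I)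
    (hD : DatumLifts Fr D) (rv : ℕ) :
    ∃ π : LocalRings.Ambient O I rv →ₐ[O] MvPowerSeries (I × Fin 3) M.R,
      IsFramedMap M Fr D rv π := by
  obtain ⟨πR, hπR, hres⟩ := M.exists_residueMap
  have := M.isAdicComplete
  have := M.isNoetherianRing
  have := DefRing.isAdicComplete_mvPowerSeries (ι := I × Fin 3) (𝒪 := M.R)
  obtain ⟨π, hπ⟩ := DefRing.exists_eval (𝒪 := O) (Sum.elim (localVal M Fr D) fun _ : Fin rv => 0)
    (fun v => by
      rcases v with v | v
      · exact (mem_maximalIdeal_of_framedPi hπR _).1 (framedPi_localVal hres Fr D hD v)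
      · exact zero_mem _)
  exact ⟨π, isFramedMap_of_eq M Fr D π fun v => hπ (Sum.inl v)⟩

/-- Places over all primes, with prescribed places at `p` and at the frames. -/
theorem exists_places (Fr : Frames p ρ I) {A : ValuationSubring Qb} (hA : A.LiesOverPrime p) :
    ∃ Pl : Nat.Primes → ValuationSubring Qb, (∀ q, (Pl q).LiesOverPrime (q : ℕ)) ∧
      Pl (ExtCitation.pPrime p) = A ∧ ∀ i, Pl (Fr.q i) = (Fr.frame i).A := by
  classical
  refine ⟨Function.update (Function.extend Fr.q (fun i => (Fr.frame i).A)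
    ExtCitation.primeLocalPlace) (ExtCitation.pPrime p) A, fun q => ?_, Function.update_self .., ?_⟩
  · rcases eq_or_ne q (ExtCitation.pPrime p) with rfl | hq
    · rw [Function.update_self]; exact hA
    rw [Function.update_of_ne hq]
    by_cases h : ∃ i, Fr.q i = q
    · obtain ⟨i, rfl⟩ := h
      rw [Fr.injective.extend_apply]
      exact (Fr.frame i).liesOver
    · rw [Function.extend_apply' _ _ _ h]
      exact (FermatAgent.Duality.primeLocalToGlobal_bijOn q).2.2
  · intro i
    rw [Function.update_of_ne (fun h => Fr.ne i (by rw [h]; rfl)), Fr.injective.extend_apply]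

variable (hρ : TW.TWHyp p ρ) (Fr : Frames p ρ I)
  (hρunr : ∀ ℓ : Nat.Primes, ℓ ∉ Fr.support → ∀ A : ValuationSubring Qb,
    A.LiesOverPrime (ℓ : ℕ) → ∀ g ∈ A.inertiaSubgroupIn ℚ, ρ g = 1)
  (Q : Finset Nat.Primes) (hQ : TW.IsTWSet ρ p Fr.support 1 Q)
  (M : Model L) (hunr : L.UnramifiedOutside Fr Q)
  {πR : M.R →ₐ[O] ResidueField O} (hπR : ∀ x, πR x = 0 ↔ x ∈ maximalIdeal M.R)
  (hres : ∀ σ, (M.rho σ).map πR = (ρ σ : Matrix (Fin 2) (Fin 2) (ResidueField O)))

include hres in
theorem tan_det_model (u : TW.tanSpace O M.R (ResidueField O) πR) (σ : GQ) :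
    (u : M.R → ResidueField O) (M.rho σ).det = 0 := by
  rw [M.det_eq]; exact u.2.2.2 _

include hunr in
theorem rho_eq_one_of_unramified (ℓ : Nat.Primes) (hℓ : ℓ ∉ Fr.support ∪ Q)
    (A : ValuationSubring Qb) (hA : A.LiesOverPrime (ℓ : ℕ)) (g : GQ)
    (hg : g ∈ A.inertiaSubgroupIn ℚ) : M.rho g = 1 := by
  rw [Finset.mem_union, not_or, Frames.support, Finset.mem_insert, not_or] at hℓ
  have hℓp : (ℓ : ℕ) ≠ p := fun h => hℓ.1.1 (Subtype.ext h)
  have hℓq : ℓ ∉ Set.range Fr.q := fun ⟨i, hi⟩ =>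
    hℓ.1.2 (Finset.mem_image.2 ⟨i, Finset.mem_univ i, hi⟩)
  refine Matrix.ext fun a b => M.pt_injective _ _ fun i => ?_
  obtain ⟨P, hP, hPr⟩ := M.pt_conj i
  have h := hPr g
  rw [hunr i ℓ hℓp hℓq hℓ.2 A hA g hg, one_mul] at h
  have h1 : (M.rho g).map (M.pt i) = 1 := by
    have := congrArg (fun X => P⁻¹ * X) h
    rwa [← mul_assoc, Matrix.nonsing_inv_mul _ hP, one_mul] at this
  refine (congrFun (congrFun h1 a) b).trans ?_
  rw [Matrix.one_apply, Matrix.one_apply, apply_ite (M.pt i), map_one, map_zero]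

include hρ hρunr hQ hunr hπR hres in
/-- The presentation from a local condition at `p`, relative to the elements `t`. -/
theorem exists_framed_of_local {A : ValuationSubring Qb} (hA : A.LiesOverPrime p)
    (Zp : Submodule (ResidueField O)
      (A.decompositionSubgroup ℚ → Matrix (Fin 2) (Fin 2) (ResidueField O)))
    (hZp : Zp ≤ TW.adCocycles ρ (A.decompositionSubgroup ℚ)) {e f : ℕ}
    (hbound : TW.RankLE (Zp ⊔ TW.adCoboundaries ρ (A.decompositionSubgroup ℚ)) (3 + e - f) ∧ f ≤ 3)
    {τ : Type} [Finite τ] (t : τ → M.R) (ht : ∀ s, t s ∈ maximalIdeal M.R)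
    (hloc : ∀ u : TW.tanSpace O M.R (ResidueField O) πR, (∀ s, u.1 (t s) = 0) →
      TW.resTo (A.decompositionSubgroup ℚ) (TW.tanCoc M.rho ρ u) ∈
        Zp ⊔ TW.adCoboundaries ρ (A.decompositionSubgroup ℚ))
    (D : LocalRings.Datum O I) (hD : DatumLifts Fr D) (rv : ℕ)
    (hrv : Q.card + e ≤ rv + f + 1) :
    ∃ π : LocalRings.Ambient O I rv →ₐ[O] MvPowerSeries (I × Fin 3) M.R,
      IsFramedMap M Fr D rv π ∧
      ∀ y, ∃ x, y - π x ∈ Ideal.span (Set.range fun s => MvPowerSeries.C (t s)) := by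
  classical
  set B := MvPowerSeries (I × Fin 3) M.R
  have := M.isAdicComplete
  have := M.isNoetherianRing
  have := M.isLocalHom_algebraMap
  have hB := DefRing.isAdicComplete_mvPowerSeries (ι := I × Fin 3) (𝒪 := M.R)
  have : CharP (ResidueField O) p := charP_of_injective_algebraMap (algebraMap (ZMod p) (ResidueField O)).injective p
  have hπm : ∀ x ∈ maximalIdeal M.R, πR x = 0 := fun x hx => (hπR x).2 hx
  have hdet := tan_det_model M hres
  set πB := framedPi (I := I) πR
  have hπB : ∀ x, πB x = 0 ↔ x ∈ maximalIdeal B := mem_maximalIdeal_of_framedPi hπR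
  obtain ⟨Pl, hPl, hPlp, hPlI⟩ := exists_places Fr hA
  obtain ⟨q₀, hq₀⟩ : ∃ q₀, ExtCitation.pPrime p = q₀ := ⟨_, rfl⟩
  rw [hq₀] at hPlp
  subst hPlp
  set T := Fr.support
  let a' : (I × Fin 8) ⊕ τ → B := Sum.elim (localVal M Fr D) fun s => MvPowerSeries.C (t s)
  set U0 := TW.tanSpaceRel O B (ResidueField O) πB a'
  let Ψ : U0 →ₗ[(ResidueField O)] TW.tanSpace O M.R (ResidueField O) πR :=
    (tanBase (I := I) πR).comp (Submodule.inclusion fun g hg => hg.1)
  -- the relations at the frames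
  have hframe : ∀ (u : U0) (i : I),
      TW.resTo ((Pl (Fr.q i)).decompositionSubgroup ℚ) (TW.tanCoc M.rho ρ (Ψ u)) =
        TW.adDelta ρ _ (frameDeriv i πR ⟨u.1, u.2.1⟩) := by
    intro u i
    rw [hPlI i]
    set f' : TW.tanSpace O B (ResidueField O) πB := ⟨u.1, u.2.1⟩
    have hu : Ψ u = tanBase πR f' := rfl
    rw [hu]
    set Ai := frameDeriv i πR f'
    have hmemc := TW.resTo_tanCoc_mem hres hdet hπm M.cont
      ((Fr.frame i).A.decompositionSubgroup ℚ) (tanBase πR f')
    have hmemd := TW.adDelta_mem hρ.finiteLevel ((Fr.frame i).A.decompositionSubgroup ℚ) Ai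
    have hval : ∀ (X : Matrix (Fin 2) (Fin 2) M.R) (X0 : Matrix (Fin 2) (Fin 2) O),
        (∀ a b, f'.1 (Engine.framed i X a b - algebraMap O B (X0 a b)) = 0) →
        X.map (tanBase πR f').1 = X.map πR * (Ai : Matrix (Fin 2) (Fin 2) (ResidueField O)) -
          (Ai : Matrix (Fin 2) (Fin 2) (ResidueField O)) * X.map πR := by
      intro X X0 hX
      have h0 : (Engine.framed i X).map f'.1 = 0 := by
        ext a b
        have := hX a b
        rw [TW.tan_sub f'.2, f'.2.2.2, sub_zero] at this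
        exact this
      rw [map_tan_framed] at h0
      rw [eq_sub_iff_add_eq, ← sub_eq_zero, ← h0]
      abel
    have hkey : ∀ g : GQ, (M.rho g).map (tanBase πR f').1 =
        (M.rho g).map πR * (Ai : Matrix (Fin 2) (Fin 2) (ResidueField O)) -
          (Ai : Matrix (Fin 2) (Fin 2) (ResidueField O)) * (M.rho g).map πR →
        TW.tanCoc M.rho ρ (tanBase πR f') g =
          TW.conjAct (ρ g) (Ai : Matrix (Fin 2) (Fin 2) (ResidueField O)) - Ai := by
      intro g hg
      rw [TW.tanCoc_apply, hg, hres, Matrix.sub_mul, mul_assoc (Ai : Matrix (Fin 2) (Fin 2) (ResidueField O)),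
        Units.mul_inv, mul_one]
      rfl
    refine sub_eq_zero.1 (LocalFrame.adCocycle_eq_zero hρ.finiteLevel (Fr.ne i) (Fr.frame i)
      (sub_mem hmemc hmemd) ?_ ?_)
    · refine sub_eq_zero.2 (hkey (Fr.frame i).frob (hval _ (D.Φ₀ i) fun a b => ?_))
      rw [← localVal_idxΦ]
      exact u.2.2 (Sum.inl (i, LocalRings.idxΦ a b))
    · refine sub_eq_zero.2 (hkey (Fr.frame i).gen ?_)
      have h1 := hval (M.rho (Fr.frame i).gen - 1) (D.n₀ i) fun a b => by
        rw [← localVal_idxN]
        exact u.2.2 (Sum.inl (i, LocalRings.idxN a b))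
      rw [Matrix.map_sub _ (fun _ _ => map_sub _ _ _), Matrix.map_one _ (map_zero _) (map_one _),
        Matrix.map_sub _ (fun x y => TW.tan_sub (tanBase πR f').2 x y),
        TW.tan_map_one (tanBase πR f').2, sub_zero, Matrix.sub_mul, Matrix.mul_sub, one_mul,
        mul_one] at h1
      rw [h1]
      abel
  -- the Selmer bound
  set Z : ∀ q : Nat.Primes, Submodule (ResidueField O)
      ((Pl q).decompositionSubgroup ℚ → Matrix (Fin 2) (Fin 2) (ResidueField O)) :=
    Function.update (fun q => ⊥) q₀ Zp with hZdef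
  set h0 : Nat.Primes → ℕ := fun q =>
    finrank (ResidueField O) (LinearMap.ker (TW.adDelta ρ ((Pl q).decompositionSubgroup ℚ)))
  have hh0 : ∀ q, h0 q ≤ 3 := fun q =>
    (Submodule.finrank_le _).trans TW.finrank_sl2.le
  have hZ0 : Z q₀ = Zp := Function.update_self ..
  have hZne : ∀ q, q ≠ q₀ → Z q = ⊥ := fun q hq => Function.update_of_ne hq ..
  have hq₀T : q₀ ∈ T := hq₀ ▸ Finset.mem_insert_self _ _
  have hTmem : ∀ q ∈ T, q ≠ q₀ → ∃ i, Fr.q i = q := fun q hq hne => by
    rcases Finset.mem_insert.1 hq with h | h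
    · exact absurd (h.trans hq₀) hne
    obtain ⟨i, -, hi⟩ := Finset.mem_image.1 h
    exact ⟨i, hi⟩
  have hqI : ∀ i, Fr.q i ≠ q₀ := fun i h => Fr.ne i (by rw [h, ← hq₀]; rfl)
  have hU := TW.finrank_tan_le hρ T (Finset.mem_insert_self _ _) hρunr Q hQ hres hdet hπm M.cont
    (rho_eq_one_of_unramified Fr Q M hunr) Pl hPl Z
    (fun q _ => by
      rcases eq_or_ne q q₀ with rfl | hq
      · rw [hZ0]; exact hZp
      · rw [hZne q hq]; exact bot_le)
    (fun q => if q = q₀ then e else 0) (Function.update h0 q₀ f)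
    (fun q _ => by
      rcases eq_or_ne q q₀ with rfl | hq
      · rw [hZ0, Function.update_self, if_pos rfl]; exact hbound
      · rw [hZne q hq, Function.update_of_ne hq, if_neg hq, add_zero]
        exact ⟨TW.rankLE_zero _, hh0 q⟩)
    (LinearMap.range Ψ)
    (by
      rintro _ ⟨u, rfl⟩ q hq
      rcases eq_or_ne q q₀ with rfl | hq0
      · rw [hZ0]
        exact hloc _ fun s => u.2.2 (Sum.inr s)
      · obtain ⟨i, rfl⟩ := hTmem q hq hq0
        rw [hframe u i]
        exact Submodule.mem_sup_right ⟨_, rfl⟩)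
    (fun u _ b _ hb => TW.tan_eq_zero_of_coboundary hres hb M.adjoin_trace)
  obtain ⟨hUfin, hUle⟩ := hU
  rw [Finset.sum_ite_eq' T q₀, if_pos hq₀T, show T = insert q₀ (Finset.univ.image Fr.q) from
      hq₀ ▸ rfl, Finset.sum_insert (fun h => by
      obtain ⟨i, -, hi⟩ := Finset.mem_image.1 h
      exact hqI i hi), Function.update_self,
    Finset.sum_image fun i _ j _ h => Fr.injective h] at hUle
  have hsum : ∑ i, Function.update h0 q₀ f (Fr.q i) = ∑ i, h0 (Fr.q i) :=
    Finset.sum_congr rfl fun i _ => Function.update_of_ne (hqI i) ..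
  rw [hsum] at hUle
  -- the kernel of the restriction to the constants
  let frames : U0 →ₗ[(ResidueField O)] I → TW.sl2 (ResidueField O) := LinearMap.pi fun i =>
    (frameDeriv i πR).comp (Submodule.inclusion fun g hg => hg.1)
  have hker : ∀ u ∈ LinearMap.ker Ψ, ∀ i,
      frames u i ∈ LinearMap.ker (TW.adDelta ρ ((Pl (Fr.q i)).decompositionSubgroup ℚ)) :=
    fun u hu i => by
      rw [LinearMap.mem_ker]
      show TW.adDelta ρ _ (frameDeriv i πR ⟨u.1, u.2.1⟩) = 0
      rw [← hframe u i, LinearMap.mem_ker.1 hu, map_zero, map_zero]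
  have hzero : ∀ u : U0, Ψ u = 0 → frames u = 0 → u = 0 := by
    intro u h1 h2
    have h3 := tan_eq_zero_of_base πR ⟨u.1, u.2.1⟩ h1 fun v => by
      obtain ⟨i, l⟩ := v
      have := congrArg (fun x : TW.sl2 (ResidueField O) => (x : Matrix (Fin 2) (Fin 2) (ResidueField O))) (congrFun h2 i)
      fin_cases l
      · exact congrFun (congrFun this 0) 0
      · exact congrFun (congrFun this 0) 1
      · exact congrFun (congrFun this 1) 0
    exact Subtype.ext (congrArg (fun x : TW.tanSpace O B (ResidueField O) πB => x.1) h3)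
  let both : U0 →ₗ[(ResidueField O)] LinearMap.range Ψ × (I → TW.sl2 (ResidueField O)) := Ψ.rangeRestrict.prod frames
  have hboth : Function.Injective both := fun u v huv => by
    have h := congrArg Prod.fst huv
    have h' := congrArg Prod.snd huv
    refine sub_eq_zero.1 (hzero _ ?_ ?_)
    · rw [map_sub, sub_eq_zero]; exact congrArg Subtype.val h
    · rw [map_sub, sub_eq_zero]; exact h'
  have := hUfin
  have : Module.Finite (ResidueField O) (TW.sl2 (ResidueField O)) := Module.Finite.of_injective (TW.sl2 (ResidueField O)).subtype Subtype.val_injective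
  have : FiniteDimensional (ResidueField O) U0 := FiniteDimensional.of_injective (V₂ := ↥(LinearMap.range Ψ) × (I → TW.sl2 (ResidueField O))) both hboth
  let kerMap : LinearMap.ker Ψ →ₗ[(ResidueField O)]
      ∀ i, LinearMap.ker (TW.adDelta ρ ((Pl (Fr.q i)).decompositionSubgroup ℚ)) :=
    LinearMap.pi fun i => LinearMap.codRestrict _
      ((LinearMap.proj i).comp (frames.comp (LinearMap.ker Ψ).subtype)) fun u => hker u.1 u.2 i
  have hkm : Function.Injective kerMap := fun u v huv => by
    refine sub_eq_zero.1 (Subtype.ext (hzero _ (u - v).2 (funext fun i => ?_)))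
    show frames (u.1 - v.1) i = 0
    rw [map_sub, Pi.sub_apply, sub_eq_zero]
    exact congrArg Subtype.val (congrFun huv i)
  have hkd : finrank (ResidueField O) (LinearMap.ker Ψ) ≤ ∑ i, h0 (Fr.q i) :=
    haveI := fun i => Module.Free.of_divisionRing (ResidueField O)
      (LinearMap.ker (TW.adDelta ρ ((Pl (Fr.q i)).decompositionSubgroup ℚ)))
    (LinearMap.finrank_le_finrank_of_injective hkm).trans_eq (Module.finrank_pi_fintype (ResidueField O))
  have hU0 : finrank (ResidueField O) U0 ≤ rv := by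
    have := Ψ.finrank_range_add_finrank_ker
    omega
  -- the presentation modulo `t`
  set J : Ideal B := Ideal.span (Set.range fun s => MvPowerSeries.C (t s))
  have hJm : J ≤ maximalIdeal B := Ideal.span_le.2 (by
    rintro _ ⟨s, rfl⟩
    exact (hπB _).1 (by rw [framedPi_C]; exact hπm _ (ht s)))
  have : Nontrivial (B ⧸ J) := Ideal.Quotient.nontrivial_iff.2
    fun h => (maximalIdeal.isMaximal B).ne_top (top_le_iff.1 (h.symm.le.trans hJm))
  have : IsLocalRing (B ⧸ J) :=
    IsLocalRing.of_surjective' (Ideal.Quotient.mk J) Ideal.Quotient.mk_surjective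
  have hmkloc : IsLocalHom (Ideal.Quotient.mk J) :=
    IsLocalHom.of_surjective _ Ideal.Quotient.mk_surjective
  have : IsLocalHom (algebraMap B (B ⧸ J)) := hmkloc
  have : IsAdicComplete (maximalIdeal (B ⧸ J)) (B ⧸ J) :=
    IsLocalRing.isAdicComplete_of_module_finite (𝒪 := B)
  have : IsLocalHom (algebraMap O B) := ⟨fun o ho => by
    rw [MvPowerSeries.isUnit_iff_constantCoeff, algebraMap_framed,
      MvPowerSeries.constantCoeff_C] at ho
    exact (isUnit_map_iff (algebraMap O M.R) o).1 ho⟩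
  have : IsLocalHom (algebraMap O (B ⧸ J)) := ⟨fun o ho =>
    (isUnit_map_iff (algebraMap O B) o).1 (hmkloc.map_nonunit _ ho)⟩
  have hπJ : ∀ x ∈ J, πB x = 0 := fun x hx => (hπB x).2 (hJm hx)
  let π' : B ⧸ J →ₐ[O] (ResidueField O) := Ideal.Quotient.liftₐ J πB hπJ
  have hπ'mk : ∀ x, π' (Ideal.Quotient.mk J x) = πB x := fun x => rfl
  have hmkm : ∀ x, Ideal.Quotient.mk J x ∈ maximalIdeal (B ⧸ J) ↔ x ∈ maximalIdeal B := fun x => by
    rw [IsLocalRing.mem_maximalIdeal, IsLocalRing.mem_maximalIdeal, mem_nonunits_iff,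
      mem_nonunits_iff, isUnit_map_iff]
  have hπ' : ∀ x, π' x = 0 ↔ x ∈ maximalIdeal (B ⧸ J) := fun x => by
    obtain ⟨x, rfl⟩ := Ideal.Quotient.mk_surjective x
    rw [hπ'mk, hπB, hmkm]
  let aJ : I × Fin 8 → B ⧸ J := fun v => Ideal.Quotient.mk J (localVal M Fr D v)
  have haJ : ∀ v, aJ v ∈ maximalIdeal (B ⧸ J) := fun v =>
    (hπ' _).1 ((hπ'mk _).trans (framedPi_localVal hres Fr D hD v))
  let pull : TW.tanSpaceRel O (B ⧸ J) (ResidueField O) π' aJ →ₗ[(ResidueField O)] U0 :=
    { toFun := fun g => ⟨fun x => g.1 (Ideal.Quotient.mk J x),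
        ⟨fun x y => by
            show g.1 (Ideal.Quotient.mk J (x + y)) = _
            rw [map_add, g.2.1.1],
          fun x y => by
            show g.1 (Ideal.Quotient.mk J (x * y)) = _
            rw [map_mul, g.2.1.2.1]; rfl,
          fun o => g.2.1.2.2 o⟩,
        by
          rintro (v | s)
          · exact g.2.2 v
          · show g.1 (Ideal.Quotient.mk J (MvPowerSeries.C (t s))) = 0
            rw [Ideal.Quotient.eq_zero_iff_mem.2 (show MvPowerSeries.C (t s) ∈ J from Ideal.subset_span (Set.mem_range_self s))]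
            exact TW.tan_zero g.2.1⟩
      map_add' := fun g g' => rfl
      map_smul' := fun r g => rfl }
  have hpull : Function.Injective pull := fun g g' h => Subtype.ext (funext fun x => by
    obtain ⟨x, rfl⟩ := Ideal.Quotient.mk_surjective x
    exact congrFun (congrArg Subtype.val h) x)
  have : Module.Finite (ResidueField O) (TW.tanSpaceRel O (B ⧸ J) (ResidueField O) π' aJ) :=
    Module.Finite.of_injective pull hpull
  obtain ⟨γ, hγ, hγs⟩ := TW.exists_surjective_of_tanSpace_rel aJ haJ π' hπ' (r := rv)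
    inferInstance ((LinearMap.finrank_le_finrank_of_injective hpull).trans hU0)
  have hγm : ∀ v, γ (MvPowerSeries.X v) ∈ maximalIdeal (B ⧸ J) := by
    have hV : ∀ (ψ : LocalRings.Ambient O I rv →ₐ[O] B ⧸ J), Function.Surjective ψ →
        ∀ v, ψ (MvPowerSeries.X v) ∈ maximalIdeal (B ⧸ J) := fun ψ hψ v => by
      have : IsLocalHom (ψ : LocalRings.Ambient O I rv →+* B ⧸ J) := IsLocalHom.of_surjective _ hψ
      exact map_nonunit (ψ : LocalRings.Ambient O I rv →+* B ⧸ J) _
        (DefRing.varIdeal_le (Ideal.subset_span (Set.mem_range_self v)))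
    exact hV γ hγs
  choose x hx using fun v : Fin rv =>
    Ideal.Quotient.mk_surjective (γ (MvPowerSeries.X (Sum.inr v)))
  obtain ⟨π, hπ⟩ := DefRing.exists_eval (𝒪 := O) (Sum.elim (localVal M Fr D) x) (fun v => by
    rcases v with v | v
    · exact (hπB _).1 (framedPi_localVal hres Fr D hD v)
    · exact (hmkm _).1 (by rw [Sum.elim_inr, hx]; exact hγm _))
  refine ⟨π, isFramedMap_of_eq M Fr D π fun v => hπ (Sum.inl v), fun y => ?_⟩
  have heq : (Ideal.Quotient.mkₐ O J).comp π = γ := by
    refine DefRing.algHom_ext_of_hausdorff _ _ (fun v => ?_) fun v => ?_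
    · rw [AlgHom.comp_apply, hπ, Ideal.Quotient.mkₐ_eq_mk]
      rcases v with v | v
      · exact haJ v
      · rw [Sum.elim_inr, hx]; exact hγm _
    · rw [AlgHom.comp_apply, hπ, Ideal.Quotient.mkₐ_eq_mk]
      rcases v with v | v
      · exact (hγ v).symm
      · exact hx v
  obtain ⟨z, hz⟩ := hγs (Ideal.Quotient.mk J y)
  refine ⟨z, ?_⟩
  rw [← heq, AlgHom.comp_apply, Ideal.Quotient.mkₐ_eq_mk, Ideal.Quotient.mk_eq_mk_iff_sub_mem] at hz
  rw [← neg_sub]
  exact neg_mem hz

end

end FermatAgent.RTLift.Galois
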