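import Fermat.Agent.RTLift.Galois.Defs
import Fermat.Agent.TW.Tangent
import Fermat.Prelude.Thm_IsLocalRing_isAdicComplete_of_module_finite

/-!
# Tangent functionals of the framed model
-/

set_option autoImplicit false

open IsLocalRing Matrix Module

namespace FermatAgent.RTLift.Galois

noncomputable section

local notation "GQ" => AlgebraicClosure ℚ ≃ₐ[ℚ] AlgebraicClosure ℚ

section Frame

variable {O : Type} [CommRing O] {k : Type} [Field k] [Algebra O k]
  {R : Type} [CommRing R] [Algebra O R] {I : Type}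

/-- The framed residue map. -/
def framedPi (πR : R →ₐ[O] k) : MvPowerSeries (I × Fin 3) R →ₐ[O] k :=
  { (πR : R →+* k).comp MvPowerSeries.constantCoeff with
    commutes' := fun o => by
      show πR (MvPowerSeries.constantCoeff (algebraMap O (MvPowerSeries (I × Fin 3) R) o)) = _
      rw [MvPowerSeries.algebraMap_apply, MvPowerSeries.constantCoeff_C]
      exact πR.commutes o }

theorem framedPi_apply (πR : R →ₐ[O] k) (x : MvPowerSeries (I × Fin 3) R) :
    framedPi πR x = πR (MvPowerSeries.constantCoeff x) := rfl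

theorem framedPi_C (πR : R →ₐ[O] k) (x : R) :
    framedPi (I := I) πR (MvPowerSeries.C x) = πR x := by
  rw [framedPi_apply, MvPowerSeries.constantCoeff_C]

theorem algebraMap_framed (o : O) : algebraMap O (MvPowerSeries (I × Fin 3) R) o =
    MvPowerSeries.C (algebraMap O R o) := by
  rw [MvPowerSeries.algebraMap_apply]

/-- Restriction of a tangent functional to the constants. -/
def tanBase (πR : R →ₐ[O] k) :
    TW.tanSpace O (MvPowerSeries (I × Fin 3) R) k (framedPi πR) →ₗ[k] TW.tanSpace O R k πR where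
  toFun f := ⟨fun x => f.1 (MvPowerSeries.C x),
    fun x y => by
      show f.1 (MvPowerSeries.C (x + y)) = f.1 (MvPowerSeries.C x) + f.1 (MvPowerSeries.C y)
      rw [map_add, f.2.1],
    fun x y => by
      show f.1 (MvPowerSeries.C (x * y)) =
        πR x * f.1 (MvPowerSeries.C y) + πR y * f.1 (MvPowerSeries.C x)
      rw [map_mul, f.2.2.1, framedPi_C, framedPi_C],
    fun o => by
      show f.1 (MvPowerSeries.C (algebraMap O R o)) = 0
      rw [← algebraMap_framed, f.2.2.2]⟩
  map_add' f g := rfl
  map_smul' r f := rfl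

theorem tanBase_apply (πR : R →ₐ[O] k)
    (f : TW.tanSpace O (MvPowerSeries (I × Fin 3) R) k (framedPi πR)) (x : R) :
    (tanBase πR f).1 x = f.1 (MvPowerSeries.C x) := rfl

/-- The derivative of the frame at `i`. -/
def frameDeriv (i : I) (πR : R →ₐ[O] k) :
    TW.tanSpace O (MvPowerSeries (I × Fin 3) R) k (framedPi πR) →ₗ[k] TW.sl2 k where
  toFun f := ⟨!![f.1 (MvPowerSeries.X (i, 0)), f.1 (MvPowerSeries.X (i, 1));
      f.1 (MvPowerSeries.X (i, 2)), -f.1 (MvPowerSeries.X (i, 0))],
    TW.mem_sl2.2 (by simp [Matrix.trace_fin_two])⟩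
  map_add' f g := Subtype.ext (by
    ext a b
    show _ = (!![_, _; _, _] + !![_, _; _, _] : Matrix (Fin 2) (Fin 2) k) a b
    rw [Matrix.add_apply]
    fin_cases a <;> fin_cases b
    · rfl
    · rfl
    · rfl
    · exact (neg_add _ _))
  map_smul' r f := Subtype.ext (by
    ext a b
    show _ = (r • !![_, _; _, _] : Matrix (Fin 2) (Fin 2) k) a b
    rw [Matrix.smul_apply]
    fin_cases a <;> fin_cases b
    · rfl
    · rfl
    · rfl
    · exact (mul_neg _ _).symm)

theorem map_framedPi_frameY (i : I) (πR : R →ₐ[O] k) :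
    (Engine.frameY (R := R) i).map (framedPi πR) = 1 := by
  ext a b
  fin_cases a <;> fin_cases b <;> simp [Engine.frameY, framedPi_apply]

theorem map_tan_frameY (i : I) (πR : R →ₐ[O] k)
    (f : TW.tanSpace O (MvPowerSeries (I × Fin 3) R) k (framedPi πR)) :
    (Engine.frameY (R := R) i).map f.1 = (frameDeriv i πR f : Matrix (Fin 2) (Fin 2) k) := by
  ext a b
  fin_cases a <;> fin_cases b <;>
    simp [Engine.frameY, frameDeriv, f.2.1, TW.tan_one f.2, TW.tan_neg f.2]

/-- The derivative of a matrix in a moving frame. -/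
theorem map_tan_framed (i : I) (πR : R →ₐ[O] k)
    (f : TW.tanSpace O (MvPowerSeries (I × Fin 3) R) k (framedPi πR))
    (M : Matrix (Fin 2) (Fin 2) R) :
    (Engine.framed i M).map f.1 = M.map (tanBase πR f).1 +
      ((frameDeriv i πR f : Matrix (Fin 2) (Fin 2) k) * M.map πR -
        M.map πR * (frameDeriv i πR f : Matrix (Fin 2) (Fin 2) k)) := by
  have hCπ : (M.map (MvPowerSeries.C (σ := I × Fin 3))).map (framedPi (I := I) πR) = M.map πR := by
    ext a b
    exact framedPi_C (I := I) πR _
  have hCf : (M.map (MvPowerSeries.C (σ := I × Fin 3))).map f.1 = M.map (tanBase πR f).1 := rfl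
  have e : Engine.framed i M * Engine.frameY i =
      Engine.frameY i * M.map (MvPowerSeries.C (σ := I × Fin 3)) := by
    rw [Engine.framed, Matrix.nonsing_inv_mul_cancel_right _ _ (Engine.isUnit_det_frameY i)]
  have e1 := congrArg (fun X : Matrix (Fin 2) (Fin 2) (MvPowerSeries (I × Fin 3) R) =>
    X.map (framedPi (I := I) πR : MvPowerSeries (I × Fin 3) R →+* k)) e
  simp only [Matrix.map_mul] at e1
  rw [show (Engine.frameY (R := R) i).map (framedPi (I := I) πR : MvPowerSeries (I × Fin 3) R →+* k) = 1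
    from map_framedPi_frameY i πR, mul_one, one_mul] at e1
  have e2 := congrArg (fun X : Matrix (Fin 2) (Fin 2) (MvPowerSeries (I × Fin 3) R) => X.map f.1) e
  simp only [TW.tan_map_mul f.2] at e2
  rw [map_framedPi_frameY, map_tan_frameY, hCπ, hCf, one_mul, mul_one,
    show (Engine.framed i M).map (framedPi πR) = M.map πR from e1.trans hCπ] at e2
  rw [← sub_eq_zero] at e2 ⊢
  rw [← e2]
  abel

/-- A tangent functional is determined on the constants and the variables. -/
theorem tan_eq_zero_of_base [Finite I] (πR : R →ₐ[O] k)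
    (f : TW.tanSpace O (MvPowerSeries (I × Fin 3) R) k (framedPi πR))
    (hC : tanBase πR f = 0) (hX : ∀ v, f.1 (MvPowerSeries.X v) = 0) : f = 0 := by
  refine Subtype.ext (funext fun x => ?_)
  show f.1 x = 0
  have hC' : ∀ r : R, f.1 (MvPowerSeries.C r) = 0 := fun r =>
    (tanBase_apply πR f r).symm.trans (congrFun (congrArg Subtype.val hC) r)
  have hmem := DefRing.sub_C_constantCoeff_mem (ι := I × Fin 3) (𝒪 := R) x
  have hspan : ∀ y ∈ DefRing.varIdeal (I × Fin 3) R, f.1 y = 0 ∧ framedPi πR y = 0 := by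
    intro y hy
    refine Submodule.span_induction (p := fun y _ => f.1 y = 0 ∧ framedPi πR y = 0) ?_ ?_ ?_ ?_ hy
    · rintro _ ⟨v, rfl⟩
      exact ⟨hX v, by rw [framedPi_apply, MvPowerSeries.constantCoeff_X, map_zero]⟩
    · exact ⟨TW.tan_zero f.2, map_zero _⟩
    · rintro a b - - ⟨h1, h2⟩ ⟨h3, h4⟩
      exact ⟨by rw [f.2.1, h1, h3, add_zero], by rw [map_add, h2, h4, add_zero]⟩
    · rintro a b - ⟨h1, h2⟩
      exact ⟨by rw [smul_eq_mul, f.2.2.1, h1, h2, mul_zero, zero_mul, add_zero],
        by rw [smul_eq_mul, map_mul, h2, mul_zero]⟩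
  have h := (hspan _ hmem).1
  rwa [TW.tan_sub f.2, MvPowerSeries.algebraMap_apply, Algebra.algebraMap_self, RingHom.id_apply,
    hC', sub_zero] at h

end Frame

section Base

variable {O : Type} [CommRing O] [IsDomain O] [IsDiscreteValuationRing O]
  {ρ : GQ →* GL (Fin 2) (ResidueField O)} {χ : GQ →* O} {L : Lifts ρ χ}

theorem Model.isLocalHom_algebraMap (M : Model L) : IsLocalHom (algebraMap O M.R) := by
  obtain ⟨i⟩ := (inferInstance : Nonempty L.ι)
  have hinj : Function.Injective (algebraMap O M.R) := fun a b h => L.injective i (by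
    rw [← (M.pt i).commutes, ← (M.pt i).commutes, h])
  have := (faithfulSMul_iff_algebraMap_injective O M.R).2 hinj
  exact Algebra.IsIntegral.isLocalHom O M.R

theorem Model.isNoetherianRing (M : Model L) : IsNoetherianRing M.R :=
  IsNoetherianRing.of_finite O M.R

theorem Model.isAdicComplete [IsAdicComplete (maximalIdeal O) O] (M : Model L) :
    IsAdicComplete (maximalIdeal M.R) M.R := by
  have := M.isLocalHom_algebraMap
  exact IsLocalRing.isAdicComplete_of_module_finite (𝒪 := O)

theorem Model.exists_sub_mem (M : Model L) (x : M.R) :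
    ∃ o : O, x - algebraMap O M.R o ∈ maximalIdeal M.R := by
  refine Algebra.adjoin_induction (p := fun y _ => ∃ o : O, y - algebraMap O M.R o ∈ maximalIdeal M.R)
    ?_ ?_ ?_ ?_ (M.adjoin_trace ▸ Algebra.mem_top (x := x))
  · rintro _ ⟨σ, rfl⟩
    obtain ⟨a, -, ha⟩ := M.residual σ 0 0
    obtain ⟨b, -, hb⟩ := M.residual σ 1 1
    refine ⟨a + b, ?_⟩
    simp only [Matrix.trace_fin_two, map_add]
    rw [add_sub_add_comm]
    exact add_mem ha hb
  · exact fun o => ⟨o, by simp⟩
  · rintro a b - - ⟨o, ho⟩ ⟨o', ho'⟩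
    exact ⟨o + o', by rw [map_add, add_sub_add_comm]; exact add_mem ho ho'⟩
  · rintro a b - - ⟨o, ho⟩ ⟨o', ho'⟩
    refine ⟨o * o', ?_⟩
    rw [map_mul, show a * b - algebraMap O M.R o * algebraMap O M.R o' =
      (a - algebraMap O M.R o) * b + algebraMap O M.R o * (b - algebraMap O M.R o') by ring]
    exact add_mem (Ideal.mul_mem_right _ _ ho) (Ideal.mul_mem_left _ _ ho')

/-- The residue map of the model. -/
theorem Model.exists_residueMap (M : Model L) :
    ∃ πR : M.R →ₐ[O] ResidueField O, (∀ x, πR x = 0 ↔ x ∈ maximalIdeal M.R) ∧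
      ∀ σ, (M.rho σ).map πR = (ρ σ : Matrix (Fin 2) (Fin 2) (ResidueField O)) := by
  have := M.isLocalHom_algebraMap
  have hres : Function.Surjective (ResidueField.map (algebraMap O M.R)) := fun y => by
    obtain ⟨y, rfl⟩ := residue_surjective y
    obtain ⟨o, ho⟩ := M.exists_sub_mem y
    refine ⟨residue O o, ?_⟩
    show residue M.R (algebraMap O M.R o) = _
    rw [eq_comm, ← sub_eq_zero, ← map_sub, residue_eq_zero_iff]
    exact ho
  let e := RingEquiv.ofBijective _ (⟨RingHom.injective _, hres⟩ :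
    Function.Bijective (ResidueField.map (algebraMap O M.R)))
  have key : ∀ o, e.symm (residue M.R (algebraMap O M.R o)) = residue O o := fun o =>
    e.injective (by rw [RingEquiv.apply_symm_apply]; rfl)
  refine ⟨{ e.symm.toRingHom.comp (residue M.R) with commutes' := key }, fun x => ?_, fun σ => ?_⟩
  · show e.symm (residue M.R x) = 0 ↔ _
    rw [map_eq_zero_iff _ e.symm.injective, residue_eq_zero_iff]
  · ext a b
    obtain ⟨o, ho, hm⟩ := M.residual σ a b
    show e.symm (residue M.R (M.rho σ a b)) = _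
    rw [← residue_eq_zero_iff, map_sub, sub_eq_zero] at hm
    rw [hm, key, ho]

end Base

end

end FermatAgent.RTLift.Galois
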